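import Fermat.Agent.CFT.Recip.LocalSymbol
import Fermat.Agent.CFT.LocalInst.Cores

/-!
The local invariant exists and is bijective, given that invariants are unique: the space of classes
is one-dimensional and some carry class of the cyclotomic tower has non-zero invariant.
-/

set_option autoImplicit false
set_option linter.unusedSectionVars false

open CategoryTheory groupCohomology ExtCitation

noncomputable section

namespace Fermat.Agent.CFT.Recip

open LocalInst (muOmega muOmegaLog muOmega_add muOmega_zero muOmega_sub muOmega_log muOmega_pow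
  muOmega_injective)

variable {p : ℕ} [Fact p.Prime] (hp2 : p ≠ 2) {q : Nat.Primes}

lemma ils_smul_muOmega (g : primeLocalGaloisGroup q) (i : ZMod p) :
    g • muOmega q i = muOmega q ((muLoc p q).ρ g i) := by
  refine Units.ext ?_
  show locAct q g (padicEmbedding (q : ℕ) (muInc p i : AlgebraicClosure ℚ)) = _
  refine (LocalInst.apply_padicEmbedding (show LocalInst.Gq q from g) _).trans ?_
  rw [gal_muInc]
  rfl

lemma ils_muOmega_nsmul (n : ℕ) (x : ZMod p) : muOmega q (n • x) = muOmega q x ^ n := by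
  induction n with
  | zero => rw [zero_smul, muOmega_zero, pow_zero]
  | succ n ih => rw [succ_nsmul, muOmega_add, ih, pow_succ]

lemma ils_val_div {n : ℕ} (hn : 1 ≤ n) {x : ZMod (p ^ n)} (hx : p • x = 0) :
    ∃ j < p, x.val = p ^ (n - 1) * j := by
  have hp := (Fact.out : p.Prime)
  have := neZeroPow p n
  have e : p ^ n = p ^ (n - 1) * p := by rw [← pow_succ, Nat.sub_add_cancel hn]
  have h1 : p ^ n ∣ p * x.val := by
    rw [← ZMod.natCast_eq_zero_iff, Nat.cast_mul, ZMod.natCast_zmod_val, ← nsmul_eq_mul, hx]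
  obtain ⟨j, hj⟩ := Nat.dvd_of_mul_dvd_mul_left hp.pos
    ((dvd_of_eq ((mul_comm p _).trans e.symm)).trans h1)
  refine ⟨j, ?_, hj⟩
  have h2 : p ^ (n - 1) * j < p ^ (n - 1) * p := by rw [← hj, ← e]; exact ZMod.val_lt x
  exact Nat.lt_of_mul_lt_mul_left h2

include hp2 in
/-- A level at which the local tower has order `p` and the symbol is non-zero. -/
lemma ils_exists_symbol (q : Nat.Primes) :
    ∃ (n : ℕ) (b : (ℚ_[(q : ℕ)])ˣ), 1 ≤ n ∧
      (∀ s : primeLocalGaloisGroup q, p • tower p n (primeLocalToGlobal q s) = 0) ∧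
      p • phiLoc p n q b = 0 ∧ phiLoc p n q b ≠ 0 := by
  have hp := (Fact.out : p.Prime)
  by_cases hq : (q : ℕ) = p
  · have h1 : ∀ x : ZMod (p ^ 1), p • x = 0 := fun x => by
      rw [nsmul_eq_mul, (ZMod.natCast_eq_zero_iff p (p ^ 1)).2 (by rw [pow_one]), zero_mul]
    have := neZeroPow p 2
    obtain ⟨u, hu⟩ := theta_surjective hp2 (n := 1) (1 : ZMod (p ^ 1))
    have hcop : Nat.Coprime (u : ZMod (p ^ (1 + 1))).val (q : ℕ) := by
      have := ZMod.val_coe_unit_coprime u
      rw [hq]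
      exact (Nat.coprime_pow_right_iff (by norm_num) _ _).1 this
    have hnorm : ‖((u : ZMod (p ^ (1 + 1))).val : ℚ_[(q : ℕ)])‖ = 1 :=
      Padic.norm_natCast_eq_one_iff.2 hcop.symm
    have hne : ((u : ZMod (p ^ (1 + 1))).val : ℚ_[(q : ℕ)]) ≠ 0 := fun h => by simp [h] at hnorm
    refine ⟨1, Units.mk0 _ hne, le_rfl, fun s => h1 _, h1 _, ?_⟩
    rw [phiLoc_of_eq 1 hq]
    have hval : Padic.valuation ((u : ZMod (p ^ (1 + 1))).val : ℚ_[(q : ℕ)]) = 0 := by
      rw [Padic.norm_eq_zpow_neg_valuation hne,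
        zpow_eq_one_iff_right₀ (by positivity) (by exact_mod_cast q.2.ne_one)] at hnorm
      omega
    have hpart : (unitPart (Units.mk0 _ hne) : ℤ_[(q : ℕ)]) = ((u : ZMod (p ^ (1 + 1))).val : ℕ) := by
      refine Subtype.ext ?_
      change ((unitPart (Units.mk0 _ hne) : ℤ_[(q : ℕ)]) : ℚ_[(q : ℕ)]) = _
      rw [val_unitPart, Units.val_mk0, hval, neg_zero, zpow_zero, mul_one]
      rfl
    have hred : Units.map (redP p 1 hq).toMonoidHom (unitPart (Units.mk0 _ hne)) = u := by
      refine Units.ext ?_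
      show redP p 1 hq (unitPart (Units.mk0 _ hne) : ℤ_[(q : ℕ)]) = u
      rw [hpart, map_natCast, ZMod.natCast_zmod_val]
    rw [hred, hu]
    have : Fact (1 < p ^ 1) := ⟨by rw [pow_one]; exact hp.one_lt⟩
    exact neg_ne_zero.2 one_ne_zero
  · have hex : ∃ n, theta p n (qUnit p n hq) ≠ 0 := by
      by_contra! h
      set m := (q : ℕ) ^ (p - 1)
      have h2 := (theta_eq_zero_iff hp2 _).1 (h m)
      have h3 := congrArg Units.val h2
      rw [Units.val_pow_eq_pow_val, val_qUnit, Units.val_one, ← Nat.cast_pow] at h3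
      replace h3 := (ZMod.natCast_eq_natCast_iff' ((q : ℕ) ^ (p - 1)) 1 (p ^ (m + 1))).1
        (h3.trans Nat.cast_one.symm)
      have hlt : m < p ^ (m + 1) := (Nat.lt_succ_self m).trans (Nat.lt_pow_self hp.one_lt)
      rw [Nat.mod_eq_of_lt hlt, Nat.mod_eq_of_lt (Nat.one_lt_pow (Nat.succ_ne_zero m) hp.one_lt)] at h3
      exact Nat.ne_of_gt (Nat.one_lt_pow (Nat.sub_ne_zero_of_lt hp.one_lt) q.2.one_lt) h3
    obtain ⟨n, hn, hmin⟩ : ∃ n, theta p n (qUnit p n hq) ≠ 0 ∧
        ∀ m < n, theta p m (qUnit p m hq) = 0 :=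
      ⟨Nat.find hex, Nat.find_spec hex, fun m hm => by simpa using Nat.find_min hex hm⟩
    have hn1 : 1 ≤ n := by
      rcases Nat.eq_zero_or_pos n with rfl | h
      · have : Subsingleton (ZMod (p ^ 0)) := by rw [pow_zero]; infer_instance
        exact absurd (Subsingleton.elim (α := ZMod (p ^ 0)) _ _) hn
      · exact h
    have htor : p • theta p n (qUnit p n hq) = 0 := by
      have hle : n - 1 ≤ n := Nat.sub_le n 1
      have e := theta_castHom hp2 hle (qUnit p n hq)
      have hcast : Units.map (ZMod.castHom (pow_dvd_pow p (by omega : n - 1 + 1 ≤ n + 1))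
          (ZMod (p ^ (n - 1 + 1)))).toMonoidHom (qUnit p n hq) = qUnit p (n - 1) hq := by
        refine Units.ext ?_
        simp only [Units.coe_map, RingHom.toMonoidHom_eq_coe, MonoidHom.coe_coe, val_qUnit,
          map_natCast]
      rw [hcast, hmin _ (by omega)] at e
      have := neZeroPow p n
      set x := theta p n (qUnit p n hq)
      rw [← ZMod.natCast_zmod_val x, map_natCast, eq_comm, ZMod.natCast_eq_zero_iff] at e
      obtain ⟨d, hd⟩ := e
      rw [← ZMod.natCast_zmod_val x, hd, ← Nat.cast_smul_eq_nsmul (ZMod (p ^ n)), smul_eq_mul,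
        ← Nat.cast_mul, ZMod.natCast_eq_zero_iff, ← mul_assoc, ← pow_succ', Nat.sub_add_cancel hn1]
      exact dvd_mul_right _ _
    have hq0 : ((q : ℕ) : ℚ_[(q : ℕ)]) ≠ 0 := by exact_mod_cast q.2.ne_zero
    have hphi : phiLoc p n q (Units.mk0 _ hq0) = theta p n (qUnit p n hq) := by
      rw [phiLoc_of_ne n hq, Units.val_mk0, Padic.valuation_natCast,
        padicValNat.self q.2.one_lt, Nat.cast_one, one_smul]
    refine ⟨n, Units.mk0 _ hq0, hn1, fun s => ?_, hphi.symm ▸ htor, hphi.symm ▸ hn⟩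
    have := neZero_qOrder (p := p) n hq
    rw [tower_loc_of_ne hp2 n hq, ← mul_smul_comm, htor, mul_zero]

include hp2 in
/-- A class with non-zero invariant. -/
lemma ils_exists_class (q : Nat.Primes) :
    ∃ (c : ↥(Z2 Levels.all (primeLocalToGlobal q) (muLoc p q))) (i : ZMod p),
      IsInvariant p q c i ∧ i ≠ 0 := by
  have hp := (Fact.out : p.Prime)
  have : NeZero p := ⟨hp.ne_zero⟩
  obtain ⟨n, b, hn, htor, hbt, hb⟩ := ils_exists_symbol hp2 q
  have := neZeroPow p n
  choose idx hidxlt hidx using fun s : primeLocalGaloisGroup q => ils_val_div hn (htor s)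
  obtain ⟨j, hjlt, hj⟩ := ils_val_div hn hbt
  set χ := locChar hp2 n q
  let B : (Omega q)ˣ := Units.map (algebraMap ℚ_[(q : ℕ)] (Omega q)).toMonoidHom b
  have hB : ∀ g : primeLocalGaloisGroup q, g • B = B := fun g =>
    Units.ext (fixed_algebraMap q (b : ℚ_[(q : ℕ)]) g)
  obtain ⟨A, hA⟩ := IsAlgClosed.exists_pow_nat_eq (B : Omega q) hp.pos
  have hA0 : A ≠ 0 := fun h => B.ne_zero (by rw [← hA, h, zero_pow hp.ne_zero])
  let a : (Omega q)ˣ := Units.mk0 A hA0
  have ha : a ^ p = B := Units.ext (by simpa [a] using hA)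
  let y : primeLocalGaloisGroup q → (Omega q)ˣ := fun s => (a ^ idx s)⁻¹
  let κ := fun s t : primeLocalGaloisGroup q =>
    CFT.carry p n (primeLocalToGlobal q s, primeLocalToGlobal q t)
  have hκ : ∀ s t, κ s t = Class.carry χ s t := fun s t => carry_eq hp2 n _ _
  have hsum : ∀ s t, idx (s * t) + p * κ s t = idx s + idx t := by
    intro s t
    have e := Nat.mod_add_div (Class.cval χ s + Class.cval χ t) (p ^ n)
    rw [← Class.cval_mul, ← Class.carry, ← hκ] at e
    change (tower p n (primeLocalToGlobal q (s * t))).val + p ^ n * κ s t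
      = (tower p n (primeLocalToGlobal q s)).val + (tower p n (primeLocalToGlobal q t)).val at e
    rw [hidx, hidx, hidx, show p ^ n = p ^ (n - 1) * p by rw [← pow_succ, Nat.sub_add_cancel hn],
      mul_assoc, ← mul_add, ← mul_add] at e
    exact mul_left_cancel₀ (pow_ne_zero _ hp.ne_zero) e
  let E : Class.Z2 (primeLocalGaloisGroup q) (Omega q)ˣ :=
    Class.carryZ2 χ ⟨B, hB⟩ * ⟨_, Class.delta1_mem_Z2 y⟩
  have hE : ∀ s t, E.1 (s, t) = B ^ κ s t * (s • y t / y (s * t) * y s) := by
    intro s t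
    rw [hκ]
    simp only [E, Subgroup.coe_mul, Pi.mul_apply, Class.carryZ2_apply, Class.delta1_apply,
      SubgroupClass.coe_pow]
  have hEp : ∀ s t, E.1 (s, t) ^ p = 1 := fun s t => by
    have hy : ∀ u, y u ^ p = (B ^ idx u)⁻¹ := fun u => by
      simp only [y, inv_pow, ← pow_mul]
      rw [mul_comm, pow_mul, ha]
    have e := congrArg (fun k => Additive.ofMul (B ^ k)) (hsum s t)
    simp only [pow_add, ofMul_mul] at e
    rw [hE, mul_pow, mul_pow, div_pow, ← smul_pow', hy, hy, hy, smul_inv', smul_pow', hB,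
      ← pow_mul, mul_comm (κ s t) p]
    apply Additive.ofMul.injective
    simp only [ofMul_mul, ofMul_div, ofMul_inv, ofMul_one]
    linear_combination (norm := abel) e
  let c : primeLocalGaloisGroup q × primeLocalGaloisGroup q → ZMod p :=
    fun st => muOmegaLog (p := p) (E.1 st)
  have hc : ∀ s t, muOmega q (c (s, t)) = E.1 (s, t) := fun s t =>
    muOmega_log (hEp s t)
  obtain ⟨F₁, hF₁, h₁⟩ := tower_levelConst' hp2 n
  obtain ⟨F₂, hF₂, h₂⟩ := (locData q).smooth A
  have hlev : ∀ s, primeLocalToGlobal q s ∈ (F₁ ⊔ F₂).fixingSubgroup →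
      (∀ g, idx (g * s) = idx g) ∧ s • a = a := by
    intro s hs
    refine ⟨fun g => ?_, Units.ext (h₂ s (IntermediateField.fixingSubgroup_antitone le_sup_right hs))⟩
    have e := congrArg ZMod.val (h₁ (primeLocalToGlobal q g) (primeLocalToGlobal q s)
      (IntermediateField.fixingSubgroup_antitone le_sup_left hs))
    rw [← map_mul, hidx, hidx] at e
    exact mul_left_cancel₀ (pow_ne_zero _ hp.ne_zero) e
  have hF : Levels.all.ok (F₁ ⊔ F₂) := Levels.all.sup _ _ hF₁.1 hF₂
  have hyc : IsConst₁ Levels.all (primeLocalToGlobal q) y :=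
    ⟨F₁ ⊔ F₂, hF, fun g s hs => by simp only [y, (hlev s hs).1 g]⟩
  have hcZ : c ∈ Z2 Levels.all (primeLocalToGlobal q) (muLoc p q) := by
    refine ⟨(mem_cocycles₂_iff (A := muLoc p q) c).2 fun g h k => ?_, ?_⟩
    · apply muOmega_injective (q := q)
      rw [muOmega_add, muOmega_add, ← ils_smul_muOmega, hc, hc, hc, hc]
      exact E.2 g h k
    · refine ⟨F₁ ⊔ F₂, hF, fun g g' s s' hs hs' => muOmega_injective (q := q) ?_⟩
      rw [hc, hc, hE, hE]
      have e1 := (hlev s hs).1
      have e2 := (hlev s' hs').1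
      have e3 : idx (g * s * (g' * s')) = idx (g * g') ∧ κ (g * s) (g' * s') = κ g g' := by
        have t1 := h₁ (primeLocalToGlobal q g) (primeLocalToGlobal q s)
          (IntermediateField.fixingSubgroup_antitone le_sup_left hs)
        have t2 := h₁ (primeLocalToGlobal q g') (primeLocalToGlobal q s')
          (IntermediateField.fixingSubgroup_antitone le_sup_left hs')
        constructor
        · refine mul_left_cancel₀ (pow_ne_zero (n - 1) hp.ne_zero) ?_
          rw [← hidx, ← hidx, map_mul, map_mul, map_mul, map_mul, tower_mul' hp2, t1, t2,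
            ← tower_mul' hp2]
        · simp only [κ, CFT.carry, map_mul, t1, t2]
      simp only [y, e1, e2, e3.1, e3.2, mul_smul, smul_inv', smul_pow', (hlev s hs).2]
  refine ⟨⟨c, hcZ⟩, (j : ZMod p), ⟨n, hn, b, y, hyc, ?_, fun s t => ?_⟩, fun h => hb ?_⟩
  · rw [ZMod.val_natCast_of_lt hjlt, ← hj, ZMod.natCast_zmod_val]
  · show ((muOmega q (c (s, t)) : (Omega q)ˣ) : Omega q) = _
    rw [hc, hE, mul_comm]
    simp only [Units.val_mul, Units.val_div_eq_div_val, Units.val_pow_eq_pow_val]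
    rfl
  · rw [← ZMod.natCast_zmod_val (phiLoc p n q b), hj]
    have : p ∣ j := (ZMod.natCast_eq_zero_iff j p).1 h
    rw [Nat.eq_zero_of_dvd_of_lt this hjlt, mul_zero, Nat.cast_zero]

include hp2 in
/-- Invariants are compatible with scalars and coboundaries. -/
lemma ils_isInvariant_of_smul {c c₀ : ↥(Z2 Levels.all (primeLocalToGlobal q) (muLoc p q))}
    {i : ZMod p} (hi : IsInvariant p q c₀ i) (t : ZMod p)
    (h : H2cπ _ _ _ c = t • H2cπ _ _ _ c₀) : IsInvariant p q c (t * i) := by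
  have : NeZero p := ⟨(Fact.out : p.Prime).ne_zero⟩
  obtain ⟨n, hn, b, f, hf, hphi, hid⟩ := hi
  obtain ⟨x, hx, hxd⟩ : ∃ x ∈ C1 Levels.all (primeLocalToGlobal q) (muLoc p q),
      (d₁₂ (muLoc p q)).hom x = c.1 - t • c₀.1 := by
    rw [← map_smul, ← sub_eq_zero, ← map_sub] at h
    exact (Submodule.Quotient.mk_eq_zero _).1 h
  refine ⟨n, hn, b ^ t.val, fun s => muOmega q (x s) * f s ^ t.val, ?_, ?_, fun s u => ?_⟩
  · exact (hx.prodMk hf).comp (fun z => muOmega q z.1 * z.2 ^ t.val)
  · have hpow : ∀ k : ℕ, phiLoc p n q (b ^ k) = (k : ZMod (p ^ n)) * phiLoc p n q b := fun k => by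
      induction k with
      | zero =>
        have h1 := phiLoc_mul' hp2 n q 1 1
        rw [one_mul] at h1
        rw [pow_zero, Nat.cast_zero, zero_mul]
        simpa using h1
      | succ k ih => rw [pow_succ, phiLoc_mul' hp2, ih]; push_cast; ring
    rw [hpow, hphi, ← Nat.cast_mul, ZMod.natCast_eq_natCast_iff']
    conv_rhs => rw [ZMod.val_mul, ← Nat.mul_mod_mul_left (p ^ (n - 1)),
      show p ^ (n - 1) * p = p ^ n by rw [← pow_succ, Nat.sub_add_cancel hn], Nat.mod_mod]
    rw [← mul_assoc, mul_comm t.val, mul_assoc]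
  · have hxd' : (muLoc p q).ρ s (x u) - x (s * u) + x s = c.1 (s, u) - t * c₀.1 (s, u) :=
      congrFun hxd (s, u)
    have hci : muOmega q (c.1 (s, u))
        = muOmega q ((muLoc p q).ρ s (x u) - x (s * u) + x s) * muOmega q (c₀.1 (s, u)) ^ t.val := by
      rw [← ils_muOmega_nsmul, ← muOmega_add, nsmul_eq_mul, ZMod.natCast_zmod_val, hxd',
        sub_add_cancel]
    show ((muOmega q (c.1 (s, u)) : (Omega q)ˣ) : Omega q) = _
    have h0 : ((muOmega q (c₀.1 (s, u)) : (Omega q)ˣ) : Omega q) = _ := hid s u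
    rw [hci, muOmega_add, muOmega_sub, ← ils_smul_muOmega, Units.val_mul, Units.val_pow_eq_pow_val,
      h0]
    simp only [Units.val_mul, Units.val_div_eq_div_val, Units.val_pow_eq_pow_val, map_mul, map_pow,
      mul_pow, div_pow, ← pow_mul]
    show locAct q s (muOmega q (x u) : Omega q) / _ * _ * _ = _
    rw [mul_comm (CFT.carry p n (primeLocalToGlobal q s, primeLocalToGlobal q u)) t.val]
    field_simp

include hp2 in
/-- The whole space is spanned by a class with non-zero invariant. -/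
lemma ils_span (huniq : ∀ (c : ↥(Z2 Levels.all (primeLocalToGlobal q) (muLoc p q))) {i j : ZMod p},
      IsInvariant p q c i → IsInvariant p q c j → i = j) :
    ∃ (c₀ : ↥(Z2 Levels.all (primeLocalToGlobal q) (muLoc p q))) (i₀ : ZMod p)
      (e : H2c Levels.all (primeLocalToGlobal q) (muLoc p q) ≃ₗ[ZMod p] ZMod p),
      i₀ ≠ 0 ∧ e (H2cπ _ _ _ c₀) = 1 ∧ IsInvariant p q c₀ i₀ ∧
      ∀ c, IsInvariant p q c (e (H2cπ _ _ _ c) * i₀) := by
  obtain ⟨c₀, i₀, hi₀, hi₀ne⟩ := ils_exists_class hp2 q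
  set x₀ := H2cπ Levels.all (primeLocalToGlobal q) (muLoc p q) c₀
  have hx₀ : x₀ ≠ 0 := fun h0 => by
    have h := ils_isInvariant_of_smul hp2 (c := c₀) hi₀ 0 (h0.trans (zero_smul _ _).symm)
    exact hi₀ne ((huniq c₀ hi₀ h).trans (zero_mul _))
  have htop : IsLocLevel q (⊤ : Subgroup (primeLocalGaloisGroup q)) :=
    ⟨⊥, Levels.all.bot, fun _ _ => trivial⟩
  have hspan : ∀ y, ∃ t : ZMod p, t • x₀ = y := fun y => by
    obtain ⟨t, ht⟩ := exists_smul_eq_of_finrank_eq_one (LocalInst.finrank_H2 (p := p) htop)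
      (fun h => hx₀ (LocalInst.topMap_injective (h.trans (map_zero _).symm)))
      (LocalInst.topMap p y)
    exact ⟨t, LocalInst.topMap_injective (by rw [map_smul, ht])⟩
  let e := (LinearEquiv.ofBijective (LinearMap.toSpanSingleton (ZMod p) _ x₀)
    ⟨fun a b hab => smul_left_injective (ZMod p) hx₀ hab, hspan⟩).symm
  have he1 : e x₀ = 1 := by
    rw [LinearEquiv.symm_apply_eq]
    exact (one_smul (ZMod p) x₀).symm
  refine ⟨c₀, i₀, e, hi₀ne, he1, hi₀, fun c => ils_isInvariant_of_smul hp2 hi₀ _ ?_⟩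
  exact (e.symm_apply_apply _).symm

include hp2 in
/-- The invariant exists. -/
theorem invLoc_spec' (huniq : ∀ (c : ↥(Z2 Levels.all (primeLocalToGlobal q) (muLoc p q))) {i j : ZMod p},
      IsInvariant p q c i → IsInvariant p q c j → i = j)
    (c : ↥(Z2 Levels.all (primeLocalToGlobal q) (muLoc p q))) :
    IsInvariant p q c (invLoc p q (H2cπ _ _ _ c)) := by
  obtain ⟨c₀, i₀, e, -, -, -, he⟩ := ils_span hp2 huniq
  have hex : ∃ F : H2c Levels.all (primeLocalToGlobal q) (muLoc p q) →ₗ[ZMod p] ZMod p,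
      ∀ c, IsInvariant p q c (F (H2cπ _ _ _ c)) :=
    ⟨(LinearMap.mulRight (ZMod p) i₀).comp e.toLinearMap, he⟩
  rw [invLoc, dif_pos hex]
  exact hex.choose_spec c

include hp2 in
/-- The invariant is bijective. -/
theorem invLoc_bijective' (huniq : ∀ (c : ↥(Z2 Levels.all (primeLocalToGlobal q) (muLoc p q))) {i j : ZMod p},
      IsInvariant p q c i → IsInvariant p q c j → i = j) :
    Function.Bijective (invLoc p q) := by
  obtain ⟨c₀, i₀, e, hi₀, -, -, he⟩ := ils_span hp2 huniq
  have : ∀ y, invLoc p q y = e y * i₀ := fun y => by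
    obtain ⟨c, rfl⟩ := Submodule.mkQ_surjective _ y
    exact huniq c (invLoc_spec' hp2 huniq c) (he c)
  rw [show ⇑(invLoc p q) = fun y => e y * i₀ from funext this]
  exact (mulRight_bijective₀ i₀ hi₀).comp e.bijective

end Fermat.Agent.CFT.Recip
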