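import Fermat.Agent.CFT.Recip.LocalSymbolP

/-!
# The change of level

The carry class of `b` at level `n` is that of `b ^ (p ^ k)` at level `n + k`; as the symbol kills
the classes which split, the invariant of a class is independent of the level.
-/

set_option autoImplicit false
set_option linter.style.haveILetI false

noncomputable section

namespace Fermat.Agent.CFT.Recip

open CategoryTheory groupCohomology ExtCitation Fermat.Agent.CFT

variable {p : ℕ} [Fact p.Prime] (hp2 : p ≠ 2)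

/-! ### Change of level -/

lemma castHom_cyclo {n N : ℕ} (h : n ≤ N) (g : GQ) :
    Units.map (ZMod.castHom (pow_dvd_pow p (by omega : n + 1 ≤ N + 1))
      (ZMod (p ^ (n + 1)))).toMonoidHom (cyclo p N g) = cyclo p n g := by
  have := neZeroPow p (n + 1)
  have := neZeroPow p (N + 1)
  refine Units.ext (cyclo_eq_of_apply n g fun ζ hζ => ?_).symm
  have hN : ζ ^ p ^ (N + 1) = 1 := by
    rw [show p ^ (N + 1) = p ^ (n + 1) * p ^ (N - n) by rw [← pow_add]; congr 1; omega, pow_mul, hζ,
      one_pow]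
  rw [val_cyclo_spec N g hN]
  refine (pow_eq_pow_mod _ hζ).trans (congrArg (ζ ^ ·) ?_)
  show _ = (ZMod.castHom _ (ZMod (p ^ (n + 1))) ((cyclo p N g : (ZMod (p ^ (N + 1)))ˣ) :
    ZMod (p ^ (N + 1)))).val
  rw [ZMod.castHom_apply, ← ZMod.natCast_val, ZMod.val_natCast]

include hp2 in
lemma castHom_tower {n N : ℕ} (h : n ≤ N) (g : GQ) :
    ZMod.castHom (pow_dvd_pow p h) (ZMod (p ^ n)) (tower p N g) = tower p n g := by
  rw [tower, tower, ← theta_castHom hp2 h, castHom_cyclo h]

include hp2 in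
lemma castHom_phiLoc {n N : ℕ} (h : n ≤ N) (q : Nat.Primes) (b : (ℚ_[(q : ℕ)])ˣ) :
    ZMod.castHom (pow_dvd_pow p h) (ZMod (p ^ n)) (phiLoc p N q b) = phiLoc p n q b := by
  have := neZeroPow p (n + 1)
  have := neZeroPow p (N + 1)
  by_cases hq : (q : ℕ) = p
  · rw [phiLoc_of_eq N hq, phiLoc_of_eq n hq, map_neg, ← theta_castHom hp2 h]
    congr 2
    refine Units.ext ?_
    show ZMod.castHom (pow_dvd_pow p (by omega : n + 1 ≤ N + 1)) (ZMod (p ^ (n + 1)))
      (redP p N hq (unitPart b : ℤ_[(q : ℕ)])) = redP p n hq (unitPart b : ℤ_[(q : ℕ)])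
    simp only [redP, RingHom.comp_apply]
    rw [← PadicInt.zmod_cast_comp_toZModPow (p := (q : ℕ)) (n + 1) (N + 1) (by omega)]
    simp only [RingHom.comp_apply]
    generalize PadicInt.toZModPow (p := (q : ℕ)) (N + 1) (unitPart b : ℤ_[(q : ℕ)]) = z
    exact RingHom.congr_fun (RingHom.ext_zmod
      ((ZMod.castHom (pow_dvd_pow p (by omega : n + 1 ≤ N + 1)) (ZMod (p ^ (n + 1)))).comp
        (ZMod.castHom (dvd_of_eq (by rw [hq] : p ^ (N + 1) = (q : ℕ) ^ (N + 1)))
          (ZMod (p ^ (N + 1)))))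
      ((ZMod.castHom (dvd_of_eq (by rw [hq] : p ^ (n + 1) = (q : ℕ) ^ (n + 1)))
        (ZMod (p ^ (n + 1)))).comp (ZMod.castHom (pow_dvd_pow (q : ℕ) (by omega : n + 1 ≤ N + 1))
          (ZMod ((q : ℕ) ^ (n + 1)))))) z
  · rw [phiLoc_of_ne N hq, phiLoc_of_ne n hq, zsmul_eq_mul, zsmul_eq_mul, map_mul, map_intCast,
      ← theta_castHom hp2 h]
    congr 2
    refine Units.ext ?_
    show ZMod.castHom _ _ ((qUnit p N hq : (ZMod (p ^ (N + 1)))ˣ) : ZMod (p ^ (N + 1))) = _
    rw [val_qUnit, map_natCast, val_qUnit]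

lemma natCast_mul_eq_of_castHom {n k : ℕ} (x : ZMod (p ^ (n + k))) (y : ℕ)
    (hxy : ZMod.castHom (pow_dvd_pow p (Nat.le_add_right n k)) (ZMod (p ^ n)) x = (y : ZMod (p ^ n))) :
    ((p ^ k : ℕ) : ZMod (p ^ (n + k))) * x = ((p ^ k * y : ℕ) : ZMod (p ^ (n + k))) := by
  have := neZeroPow p (n + k)
  have h1 : ((x.val : ℕ) : ZMod (p ^ n)) = (y : ZMod (p ^ n)) := by
    rw [← hxy, ZMod.castHom_apply, ZMod.natCast_val]
  rw [ZMod.natCast_eq_natCast_iff] at h1
  conv_lhs => rw [← ZMod.natCast_zmod_val x, ← Nat.cast_mul]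
  rw [ZMod.natCast_eq_natCast_iff]
  have h2 := h1.mul_left' (p ^ k)
  rwa [← pow_add, add_comm k n] at h2

include hp2 in
/-- An invariant can be computed at any higher level. -/
theorem exists_invariant_level {q : Nat.Primes}
    (c : ↥(Z2 Levels.all (primeLocalToGlobal q) (muLoc p q))) {i : ZMod p}
    (hc : IsInvariant p q c i) :
    ∃ n₀, 1 ≤ n₀ ∧ ∀ N, n₀ ≤ N → ∃ (b : (ℚ_[(q : ℕ)])ˣ) (f : primeLocalGaloisGroup q → (Omega q)ˣ),
      IsConst₁ Levels.all (primeLocalToGlobal q) f ∧
      phiLoc p N q b = ((p ^ (N - 1) * i.val : ℕ) : ZMod (p ^ N)) ∧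
      ∀ s t, (iota q (muInc p (c.1 (s, t))) : Omega q) =
        locAct q s (f t) / f (s * t) * f s *
          algebraMap ℚ_[(q : ℕ)] (Omega q) b ^
            CFT.carry p N (primeLocalToGlobal q s, primeLocalToGlobal q t) := by
  obtain ⟨n, hn, b, f, hf, hφ, hid⟩ := hc
  refine ⟨n, hn, fun N hN => ?_⟩
  obtain ⟨k, rfl⟩ := Nat.exists_eq_add_of_le hN
  have := neZeroPow p n
  have := neZeroPow p (n + k)
  let B : (Omega q)ˣ := Units.map (algebraMap ℚ_[(q : ℕ)] (Omega q)).toMonoidHom b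
  let e : primeLocalGaloisGroup q → ℕ := fun s =>
    (tower p (n + k) (primeLocalToGlobal q s)).val / p ^ n
  have hT : ∀ g : GQ,
      (tower p (n + k) g).val = (tower p n g).val + p ^ n * ((tower p (n + k) g).val / p ^ n) := by
    intro g
    conv_lhs => rw [← Nat.mod_add_div (tower p (n + k) g).val (p ^ n)]
    rw [← castHom_tower hp2 (Nat.le_add_right n k) g, ZMod.castHom_apply, ← ZMod.natCast_val,
      ZMod.val_natCast]
  have hcarry : ∀ s t, CFT.carry p n (primeLocalToGlobal q s, primeLocalToGlobal q t) +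
      e s + e t = p ^ k * CFT.carry p (n + k) (primeLocalToGlobal q s, primeLocalToGlobal q t) +
        e (s * t) := by
    intro s t
    refine Nat.eq_of_mul_eq_mul_left (Nat.pow_pos (n := n) (Fact.out : p.Prime).pos) ?_
    have h1 := hT (primeLocalToGlobal q s)
    have h2 := hT (primeLocalToGlobal q t)
    have h3 := hT (primeLocalToGlobal q (s * t))
    have hc1 : ∀ (M : ℕ) (g h : GQ), (tower p M (g * h)).val + p ^ M * CFT.carry p M (g, h) =
        (tower p M g).val + (tower p M h).val := fun M g h => by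
      have := neZeroPow p M
      rw [tower_mul' hp2]
      show _ + p ^ M * (if p ^ M ≤ (tower p M g).val + (tower p M h).val then 1 else 0) = _
      split_ifs with hle
      · rw [mul_one, ZMod.val_add_val_of_le hle, add_comm]
      · rw [mul_zero, add_zero, ZMod.val_add_of_lt (not_le.1 hle)]
    have h4 := hc1 n (primeLocalToGlobal q s) (primeLocalToGlobal q t)
    have h5 := hc1 (n + k) (primeLocalToGlobal q s) (primeLocalToGlobal q t)
    rw [← map_mul, h3] at h5
    rw [← map_mul] at h4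
    rw [show ∀ c, p ^ (n + k) * c = p ^ n * (p ^ k * c) from fun c => by
      rw [pow_add, mul_assoc]] at h5
    simp only [e]
    linarith
  refine ⟨b ^ p ^ k, fun s => f s * (B ^ e s)⁻¹, ?_, ?_, fun s t => ?_⟩
  · obtain ⟨F, hF, h⟩ := tower_levelConst' hp2 (n + k)
    have he : IsConst₁ Levels.all (primeLocalToGlobal q) e :=
      ⟨F, hF.1, fun g s hs => by simp only [e, map_mul, h _ _ hs]⟩
    exact (hf.prodMk he).comp fun z => z.1 * (B ^ z.2)⁻¹
  · have hpow : ∀ j : ℕ, phiLoc p (n + k) q (b ^ j) = j * phiLoc p (n + k) q b := by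
      intro j
      induction j with
      | zero =>
        have h0 := phiLoc_mul' hp2 (n + k) q 1 1
        rw [mul_one] at h0
        rw [pow_zero, Nat.cast_zero, zero_mul]
        exact add_eq_left.1 h0.symm
      | succ j ih => rw [pow_succ, phiLoc_mul' hp2, ih]; push_cast; ring
    rw [hpow, natCast_mul_eq_of_castHom _ (p ^ (n - 1) * i.val)
      ((castHom_phiLoc hp2 (Nat.le_add_right n k) q b).trans hφ), ← mul_assoc, ← pow_add,
      show k + (n - 1) = n + k - 1 by omega]
  · rw [hid s t]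
    have hBfix : ∀ j : ℕ, locAct q s ((B : Omega q) ^ j) = (B : Omega q) ^ j := fun j => by
      rw [map_pow]
      exact congrArg (· ^ j) ((locAct q s).commutes _)
    have hB : algebraMap ℚ_[(q : ℕ)] (Omega q) b = (B : Omega q) := rfl
    have hB0 : (B : Omega q) ≠ 0 := B.ne_zero
    have hkey := congrArg (fun j => (B : Omega q) ^ j) (hcarry s t)
    simp only [pow_add, pow_mul] at hkey
    rw [Units.val_pow_eq_pow_val, map_pow, hB]
    simp only [Units.val_mul, Units.val_inv_eq_inv_val, map_mul, map_inv₀, hBfix,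
      Units.val_pow_eq_pow_val]
    field_simp
    linear_combination hkey

include hp2 in
/-- The invariant is unique. -/
theorem isInvariant_unique' (q : Nat.Primes)
    (c : ↥(Z2 Levels.all (primeLocalToGlobal q) (muLoc p q))) {i j : ZMod p}
    (hi : IsInvariant p q c i) (hj : IsInvariant p q c j) : i = j := by
  obtain ⟨n₁, hn₁, h₁⟩ := exists_invariant_level hp2 c hi
  obtain ⟨n₂, hn₂, h₂⟩ := exists_invariant_level hp2 c hj
  obtain ⟨b, f, hf, hφ, hid⟩ := h₁ (max n₁ n₂) (le_max_left _ _)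
  obtain ⟨b', f', hf', hφ', hid'⟩ := h₂ (max n₁ n₂) (le_max_right _ _)
  set N := max n₁ n₂ with hNdef
  have hN : 1 ≤ N := hn₁.trans (le_max_left _ _)
  have := neZeroPow p N
  haveI : NeZero p := ⟨(Fact.out : p.Prime).ne_zero⟩
  have h0 : phiLoc p N q (b' / b) = 0 := by
    refine phiLoc_eq_zero_of_carry hp2 N q (b' / b) (f := fun s => f s / f' s)
      ((hf.prodMk hf').comp fun z => z.1 / z.2) fun s t => ?_
    have e := (hid s t).symm.trans (hid' s t)
    have hb : algebraMap ℚ_[(q : ℕ)] (Omega q) b ≠ 0 := (map_ne_zero _).2 b.ne_zero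
    simp only [Units.val_div_eq_div_val, map_div₀, div_pow]
    field_simp at e ⊢
    linear_combination e
  have h1 : phiLoc p N q b' = phiLoc p N q (b' / b) + phiLoc p N q b := by
    rw [← phiLoc_mul' hp2, div_mul_cancel]
  rw [h0, zero_add, hφ, hφ', ZMod.natCast_eq_natCast_iff', Nat.mod_eq_of_lt, Nat.mod_eq_of_lt] at h1
  · exact (ZMod.val_injective p (Nat.eq_of_mul_eq_mul_left
      (Nat.pow_pos (Fact.out : p.Prime).pos) h1)).symm
  all_goals
    calc _ < p ^ (N - 1) * p :=
          Nat.mul_lt_mul_of_pos_left (ZMod.val_lt _) (Nat.pow_pos (Fact.out : p.Prime).pos)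
      _ = p ^ N := by rw [← pow_succ, Nat.sub_add_cancel hN]

end Fermat.Agent.CFT.Recip
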