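import Fermat.Agent.CFT.Recip.Theta
import Fermat.Agent.CFT.Local.CyclicNorm
import Fermat.Agent.CFT.LocalInst.Defs
import Fermat.Agent.CFT.LocalInst.Fields
import Fermat.Agent.CFT.LocalInst.Residue

/-!
# The symbol vanishes on norms

The kernel `W` of `tower p n` on the local group cuts out a cyclic extension `L` of `ℚ_q`.
For `q ≠ p` it is unramified and norms have valuation divisible by `[L : ℚ_q]`; for `q = p` the
kernel of the symbol is made of norms and has the index of the norm group, so equals it.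
-/

set_option autoImplicit false
set_option linter.unusedSectionVars false

open ExtCitation

noncomputable section

namespace Fermat.Agent.CFT.NormKernel

open Recip LocalInst
open Fermat.Agent.CFT.Local (normGroup normGroup_index ramIdx resDeg ord_norm ramIdx_mul_resDeg)

variable {p : ℕ} [Fact p.Prime] (hp2 : p ≠ 2) (n : ℕ) (q : Nat.Primes)

include hp2 in
/-- The tower character on the local group. -/
def locTower : primeLocalGaloisGroup q →* Multiplicative (ZMod (p ^ n)) :=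
  (towerHom hp2 n).comp (primeLocalToGlobal q)

include hp2 in
/-- Its kernel. -/
def kerW : Subgroup (primeLocalGaloisGroup q) := (locTower hp2 n q).ker

include hp2 in
instance kerW_normal : (kerW hp2 n q).Normal := MonoidHom.normal_ker _

include hp2 in
lemma mem_kerW {τ : primeLocalGaloisGroup q} :
    τ ∈ kerW hp2 n q ↔ tower p n (primeLocalToGlobal q τ) = 0 := Iff.rfl

include hp2 in
lemma kerW_level : IsLocLevel q (kerW hp2 n q) := by
  obtain ⟨F, hF, h⟩ := tower_levelConst' hp2 n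
  refine ⟨F, hF.1, fun s hs => (mem_kerW hp2 n q).2 ?_⟩
  have := h 1 _ hs
  rwa [one_mul, tower_one hp2] at this

/-- A product over the cosets of `V` is an iterated product. -/
lemma finprod_coset_step {q : Nat.Primes} {V W : Subgroup (primeLocalGaloisGroup q)}
    [Finite (primeLocalGaloisGroup q ⧸ V)] (hVW : V ≤ W) {a : Omega q}
    (ha : ∀ τ ∈ V, locAct q τ a = a) :
    ∏ᶠ x : primeLocalGaloisGroup q ⧸ V, locAct q (Quotient.out x) a =
      ∏ᶠ y : primeLocalGaloisGroup q ⧸ W, locAct q (Quotient.out y)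
        (∏ᶠ z : ↥W ⧸ V.subgroupOf W,
          locAct q ((Quotient.out z : ↥W) : primeLocalGaloisGroup q) a) := by
  classical
  set e := Subgroup.quotientEquivProdOfLE hVW
  have : Finite ((primeLocalGaloisGroup q ⧸ W) × (↥W ⧸ V.subgroupOf W)) := Finite.of_equiv _ e
  have : Finite (primeLocalGaloisGroup q ⧸ W) :=
    Finite.of_surjective (fun x => (e x).1) fun y => ⟨e.symm (y, QuotientGroup.mk 1), by simp⟩
  have : Finite (↥W ⧸ V.subgroupOf W) :=
    Finite.of_surjective (fun x => (e x).2) fun z => ⟨e.symm (QuotientGroup.mk 1, z), by simp⟩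
  have := Fintype.ofFinite (primeLocalGaloisGroup q ⧸ V)
  have := Fintype.ofFinite (primeLocalGaloisGroup q ⧸ W)
  have := Fintype.ofFinite (↥W ⧸ V.subgroupOf W)
  simp only [finprod_eq_prod_of_fintype, map_prod]
  refine (Fintype.prod_equiv e _ (fun t => locAct q (Quotient.out t.1)
    (locAct q ((Quotient.out t.2 : ↥W) : primeLocalGaloisGroup q) a)) fun x => ?_).trans
    (Fintype.prod_prod_type _)
  obtain ⟨⟨y, z⟩, rfl⟩ := e.symm.surjective x
  rw [Equiv.apply_symm_apply]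
  have hout : ∀ g : primeLocalGaloisGroup q,
      locAct q (Quotient.out (QuotientGroup.mk g : primeLocalGaloisGroup q ⧸ V)) a =
        locAct q g a := by
    intro g
    obtain ⟨v, hv⟩ := QuotientGroup.mk_out_eq_mul V g
    rw [hv]
    exact congrArg (locAct q g) (ha v v.2)
  induction z using QuotientGroup.induction_on with
  | H w =>
    have hz : e.symm (y, (w : ↥W ⧸ V.subgroupOf W)) =
        QuotientGroup.mk (Quotient.out y * (w : primeLocalGaloisGroup q)) := rfl
    rw [hz, hout]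
    obtain ⟨v, hv⟩ := QuotientGroup.mk_out_eq_mul (V.subgroupOf W) w
    rw [hv]
    exact congrArg (fun t => locAct q (Quotient.out y) (locAct q (w : primeLocalGaloisGroup q) t))
      (ha _ v.2).symm

/-- The relative norm of an element fixed by `V` is fixed by `W`. -/
lemma step_fixed {q : Nat.Primes} {V W : Subgroup (primeLocalGaloisGroup q)}
    [Finite (↥W ⧸ V.subgroupOf W)] {a : Omega q}
    (ha : ∀ τ ∈ V, locAct q τ a = a) {w : primeLocalGaloisGroup q} (hw : w ∈ W) :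
    locAct q w (∏ᶠ z : ↥W ⧸ V.subgroupOf W,
        locAct q ((Quotient.out z : ↥W) : primeLocalGaloisGroup q) a) =
      ∏ᶠ z : ↥W ⧸ V.subgroupOf W,
        locAct q ((Quotient.out z : ↥W) : primeLocalGaloisGroup q) a := by
  classical
  have := Fintype.ofFinite (↥W ⧸ V.subgroupOf W)
  simp only [finprod_eq_prod_of_fintype, map_prod]
  refine Fintype.prod_equiv (MulAction.toPerm (⟨w, hw⟩ : ↥W)) _ _ fun z => ?_
  induction z using QuotientGroup.induction_on with
  | H u =>
    obtain ⟨v, hv⟩ := QuotientGroup.mk_out_eq_mul (V.subgroupOf W) u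
    obtain ⟨v', hv'⟩ := QuotientGroup.mk_out_eq_mul (V.subgroupOf W) (⟨w, hw⟩ * u)
    simp only [MulAction.toPerm_apply, MulAction.Quotient.smul_mk, smul_eq_mul]
    rw [hv, hv']
    exact congrArg (fun t => locAct q w (locAct q (u : primeLocalGaloisGroup q) t))
      ((ha _ v.2).trans (ha _ v'.2).symm)

variable {n} {q}

/-- A normal level gives a Galois extension. -/
lemma fld_isGalois {W : Subgroup (primeLocalGaloisGroup q)} (hW : IsLocLevel q W) (hn : W.Normal) :
    IsGalois ℚ_[(q : ℕ)] (fld W) := by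
  rw [← InfiniteGalois.normal_iff_isGalois, fixingSubgroup_fld hW]
  exact hn

/-- Restriction to the fixed field of a normal level. -/
def fldRes (W : Subgroup (primeLocalGaloisGroup q)) [Normal ℚ_[(q : ℕ)] (fld W)] :
    primeLocalGaloisGroup q →* Gal((fld W)/ℚ_[(q : ℕ)]) :=
  AlgEquiv.restrictNormalHom (fld W)

lemma fldRes_surjective (W : Subgroup (primeLocalGaloisGroup q)) [Normal ℚ_[(q : ℕ)] (fld W)] :
    Function.Surjective (fldRes W) :=
  AlgEquiv.restrictNormalHom_surjective (E := Omega q)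

lemma fldRes_apply (W : Subgroup (primeLocalGaloisGroup q)) [Normal ℚ_[(q : ℕ)] (fld W)]
    (g : primeLocalGaloisGroup q) (x : fld W) :
    ((fldRes W g x : fld W) : Omega q) = locAct q g (x : Omega q) :=
  AlgEquiv.restrictNormal_commutes (locAct q g) (fld W) x

lemma fldRes_ker {W : Subgroup (primeLocalGaloisGroup q)} (hW : IsLocLevel q W)
    [Normal ℚ_[(q : ℕ)] (fld W)] : (fldRes W).ker = W := by
  exact (IntermediateField.restrictNormalHom_ker (fld W)).trans (fixingSubgroup_fld hW)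

/-- The norm of the fixed field is the product over cosets. -/
lemma norm_fld_eq {W : Subgroup (primeLocalGaloisGroup q)} (hW : IsLocLevel q W) (hn : W.Normal)
    (c : fld W) :
    algebraMap ℚ_[(q : ℕ)] (Omega q) (Algebra.norm ℚ_[(q : ℕ)] c) =
      ∏ᶠ y : primeLocalGaloisGroup q ⧸ W, locAct q (Quotient.out y) (c : Omega q) := by
  classical
  have := finiteDimensional_fld hW
  have := fld_isGalois hW hn
  have hbij : Function.Bijective
      (fun y : primeLocalGaloisGroup q ⧸ W => fldRes W (Quotient.out y)) := by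
    constructor
    · intro a b hab
      rw [← QuotientGroup.out_eq' a, ← QuotientGroup.out_eq' b]
      refine QuotientGroup.eq.2 ((fldRes_ker hW).le ?_)
      rw [MonoidHom.mem_ker, map_mul, map_inv]
      exact inv_mul_eq_one.2 hab
    · intro g
      obtain ⟨v, rfl⟩ := fldRes_surjective W g
      refine ⟨(v : primeLocalGaloisGroup q ⧸ W), ?_⟩
      obtain ⟨w, hw⟩ := QuotientGroup.mk_out_eq_mul W v
      have h1 : fldRes W (w : primeLocalGaloisGroup q) = 1 := by
        rw [← MonoidHom.mem_ker, fldRes_ker hW]; exact w.2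
      show fldRes W (Quotient.out (v : primeLocalGaloisGroup q ⧸ W)) = fldRes W v
      rw [hw, map_mul, h1, mul_one]
  rw [show algebraMap ℚ_[(q : ℕ)] (Omega q) (Algebra.norm ℚ_[(q : ℕ)] c) =
      (fld W).val (algebraMap ℚ_[(q : ℕ)] (fld W) (Algebra.norm ℚ_[(q : ℕ)] c)) from rfl,
    Algebra.norm_eq_prod_automorphisms, map_prod, ← finprod_eq_prod_of_fintype]
  exact (finprod_eq_of_bijective _ hbij fun y => (fldRes_apply W _ c).symm).symm

lemma padicPlace_lies (q : Nat.Primes) : (padicPlace (q : ℕ)).LiesOverPrime (q : ℕ) :=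
  Galois.padicPlace_liesOverPrime (q : ℕ)

variable (n)

include hp2 in
lemma inertia_mem_kerW (hq : (q : ℕ) ≠ p) {τ : primeLocalGaloisGroup q}
    (hτ : ∀ x : Omega q, ‖x‖ ≤ 1 → ‖locAct q τ x - x‖ < 1) : τ ∈ kerW hp2 n q := by
  have := neZeroPow p (n + 1)
  have hI : primeLocalToGlobal q τ ∈ (padicPlace (q : ℕ)).inertiaSubgroupIn ℚ :=
    (Galois.localGaloisToGlobal_mem_inertia_iff (q : ℕ) τ).2 hτ
  have hc : cyclo p n (primeLocalToGlobal q τ) = 1 :=
    Units.ext (cyclo_eq_of_apply n _ fun ζ hζ => by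
      rw [Galois.inertia_apply_rootOfUnity (padicPlace_lies q) q.2 hI
        (fun hd => hq ((Nat.prime_dvd_prime_iff_eq q.2 Fact.out).1 (q.2.dvd_of_dvd_pow hd))) hζ,
        Units.val_one, ZMod.val_one_eq_one_mod]
      exact (pow_one ζ).symm.trans (pow_eq_pow_mod 1 hζ))
  rw [mem_kerW, tower, hc, theta_one hp2]

lemma ramIdx_fld_eq_one {W : Subgroup (primeLocalGaloisGroup q)} (hW : IsLocLevel q W)
    (hI : ∀ τ : primeLocalGaloisGroup q,
      (∀ x : Omega q, ‖x‖ ≤ 1 → ‖locAct q τ x - x‖ < 1) → τ ∈ W)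
    [FiniteDimensional ℚ_[(q : ℕ)] (fld W)] [ProperSpace (fld W)]:
    ramIdx ℚ_[(q : ℕ)] (fld W) = 1 := ramIdx_eq_one_of_fix (fld W) fun τ hτ => by
    rw [fixingSubgroup_fld hW]
    exact hI τ hτ

lemma resDeg_fld_eq {W : Subgroup (primeLocalGaloisGroup q)} (hW : IsLocLevel q W)
    [FiniteDimensional ℚ_[(q : ℕ)] (fld W)] [IsGalois ℚ_[(q : ℕ)] (fld W)] [ProperSpace (fld W)]
    (he : ramIdx ℚ_[(q : ℕ)] (fld W) = 1) : resDeg ℚ_[(q : ℕ)] (fld W) = W.index := by
    have h := ramIdx_mul_resDeg ℚ_[(q : ℕ)] (fld W)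
    rw [he, one_mul, finrank_fld hW] at h
    exact h

lemma valuation_norm_of_resDeg {W : Subgroup (primeLocalGaloisGroup q)}
    [FiniteDimensional ℚ_[(q : ℕ)] (fld W)] [IsGalois ℚ_[(q : ℕ)] (fld W)] [ProperSpace (fld W)]
    (hres : resDeg ℚ_[(q : ℕ)] (fld W) = W.index) (c : fld W) (hc : c ≠ 0) :
    (W.index : ℤ) ∣ Padic.valuation (Algebra.norm ℚ_[(q : ℕ)] c) := by
  have hord := ord_norm ℚ_[(q : ℕ)] (fld W) hc
  rw [hres] at hord
  have hN : Algebra.norm ℚ_[(q : ℕ)] c ≠ 0 := Algebra.norm_ne_zero_iff.2 hc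
  have h1 := Local.norm_eq_zpow_ord hN
  rw [hord, Padic.norm_eq_zpow_neg_valuation hN,
    Padic.norm_eq_zpow_neg_valuation (Local.unif_ne_zero _), ← zpow_mul] at h1
  have h2 := zpow_right_injective₀ (by exact_mod_cast q.2.pos)
    (by exact_mod_cast q.2.one_lt.ne') h1
  refine ⟨Local.ord c * Padic.valuation (Local.unif ℚ_[(q : ℕ)]), ?_⟩
  linarith [h2]

/-- Fixed fields containing no inertia have norms of valuation divisible by the degree. -/
lemma valuation_norm_dvd {W : Subgroup (primeLocalGaloisGroup q)} (hW : IsLocLevel q W)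
    (hn : W.Normal)
    (hI : ∀ τ : primeLocalGaloisGroup q,
      (∀ x : Omega q, ‖x‖ ≤ 1 → ‖locAct q τ x - x‖ < 1) → τ ∈ W)
    (c : fld W) (hc : c ≠ 0) :
    (W.index : ℤ) ∣ Padic.valuation (Algebra.norm ℚ_[(q : ℕ)] c) := by
  have := finiteDimensional_fld hW
  have := fld_isGalois hW hn
  have := FiniteDimensional.proper ℚ_[(q : ℕ)] (fld W)
  exact valuation_norm_of_resDeg (resDeg_fld_eq hW (ramIdx_fld_eq_one hW hI)) c hc

lemma exists_local_frobenius :
    ∃ g : primeLocalGaloisGroup q,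
      (padicPlace (q : ℕ)).IsFrobeniusAt (primeLocalToGlobal q g) (q : ℕ) := by
  obtain ⟨σ, hσ⟩ := Galois.exists_isFrobeniusAt (padicPlace_lies q) q.2
  obtain ⟨g, hg⟩ := Galois.exists_localGalois_of_decomposition (q : ℕ) hσ.1
  exact ⟨g, by rw [show primeLocalToGlobal q g = σ from hg]; exact hσ⟩

include hp2 in
lemma index_smul_theta (hq : (q : ℕ) ≠ p) :
    (kerW hp2 n q).index • theta p n (qUnit p n hq) = 0 := by
  obtain ⟨g, hg⟩ := exists_local_frobenius (q := q)
  have hq0 : ((q : ℕ) : ℚ_[(q : ℕ)]) ≠ 0 := by exact_mod_cast q.2.ne_zero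
  have h := phiLoc_natCast_eq_tower' n hq _ (padicPlace_lies q) hg (Units.mk0 _ hq0) rfl
  rw [phiLoc_of_ne n hq, Units.val_mk0, Padic.valuation_natCast, padicValNat.self q.2.one_lt,
    Nat.cast_one, one_zsmul] at h
  rw [h]
  have hm : locTower hp2 n q (g ^ (kerW hp2 n q).index) = 1 :=
    Subgroup.pow_index_mem (kerW hp2 n q) g
  rw [map_pow] at hm
  have := congrArg Multiplicative.toAdd hm
  rw [toAdd_pow, toAdd_one] at this
  exact this

include hp2 in
lemma norm_symbol_ne (hq : (q : ℕ) ≠ p) (c : (fld (kerW hp2 n q))ˣ) (b : (ℚ_[(q : ℕ)])ˣ)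
    (hb : (b : ℚ_[(q : ℕ)]) = Algebra.norm ℚ_[(q : ℕ)] (c : fld (kerW hp2 n q))) :
    phiLoc p n q b = 0 := by
  obtain ⟨k, hk⟩ := valuation_norm_dvd (kerW_level hp2 n q) (kerW_normal hp2 n q)
    (fun τ hτ => inertia_mem_kerW hp2 n hq hτ) (c : fld (kerW hp2 n q)) c.ne_zero
  rw [phiLoc_of_ne n hq, hb, hk, mul_comm, mul_smul, natCast_zsmul, index_smul_theta, smul_zero]

section AtP

include hp2 in
lemma locTower_surjective (hq : (q : ℕ) = p) : Function.Surjective (locTower hp2 n q) := by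
  subst hq
  have := neZeroPow (q : ℕ) (n + 1)
  intro x
  obtain ⟨u, hu⟩ := theta_surjective hp2 (n := n) (Multiplicative.toAdd x)
  obtain ⟨σ, hσ, hχ⟩ := Galois.exists_inertia_modularCyclotomicCharacter_eq (padicPlace_lies q) q.2
    (n + 1) (HasEnoughRootsOfUnity.natCard_rootsOfUnity _ _) u
  obtain ⟨g, hg⟩ : σ ∈ (primeLocalToGlobal q).range := by
    show σ ∈ (localGaloisToGlobal (q : ℕ)).range
    rw [Galois.localGaloisToGlobal_range]
    exact Galois.inertia_le_decomposition _ hσ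
  refine ⟨g, ?_⟩
  show Multiplicative.ofAdd (theta (q : ℕ) n (cyclo (q : ℕ) n (primeLocalToGlobal q g))) = x
  rw [hg, show cyclo (q : ℕ) n σ = u from hχ, hu]
  rfl

include hp2 in
lemma kerW_index (hq : (q : ℕ) = p) : (kerW hp2 n q).index = p ^ n := by
  rw [kerW, Subgroup.index_ker, MonoidHom.range_eq_top.2 (locTower_surjective hp2 n hq),
    Subgroup.card_top, Nat.card_congr Multiplicative.toAdd, Nat.card_zmod]

include hp2 in
/-- The generator of the norm group coming from roots of unity. -/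
lemma prime_mem_normGroup (hq : (q : ℕ) = p) (pu : (ℚ_[(q : ℕ)])ˣ)
    (hpu : (pu : ℚ_[(q : ℕ)]) = (p : ℚ_[(q : ℕ)])) :
    pu ∈ normGroup ℚ_[(q : ℕ)] (fld (kerW hp2 n q)) := by
  classical
  have := neZeroPow p (n + 1)
  have := neZeroPow p n
  have hW := kerW_level hp2 n q
  obtain ⟨ζ₀, hζ₀⟩ := HasEnoughRootsOfUnity.exists_primitiveRoot (AlgebraicClosure ℚ) (p ^ (n + 1))
  set ζ : Omega q := padicEmbedding (q : ℕ) ζ₀
  have hζ : IsPrimitiveRoot ζ (p ^ (n + 1)) :=
    hζ₀.map_of_injective (padicEmbedding (q : ℕ)).injective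
  have hact : ∀ (g : primeLocalGaloisGroup q) (u : (ZMod (p ^ (n + 1)))ˣ),
      locAct q g (1 - ζ ^ (u : ZMod (p ^ (n + 1))).val) =
        1 - ζ ^ ((cyclo p n (primeLocalToGlobal q g) * u : (ZMod (p ^ (n + 1)))ˣ) :
          ZMod (p ^ (n + 1))).val := by
    intro g u
    have h1 : locAct q g ζ =
        ζ ^ ((cyclo p n (primeLocalToGlobal q g) : (ZMod (p ^ (n + 1)))ˣ) :
          ZMod (p ^ (n + 1))).val :=
      (apply_padicEmbedding g ζ₀).trans
        ((congrArg _ (val_cyclo_spec n _ hζ₀.pow_eq_one)).trans (map_pow _ _ _))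
    rw [map_sub, map_one, map_pow, h1, ← pow_mul, Units.val_mul, ZMod.val_mul]
    exact congrArg (1 - ·) (pow_eq_pow_mod _ hζ.pow_eq_one)
  let Y : ZMod (p ^ n) → Omega q := fun t =>
    ∏ u ∈ (Finset.univ : Finset (ZMod (p ^ (n + 1)))ˣ).filter (fun u => theta p n u = t),
      (1 - ζ ^ (u : ZMod (p ^ (n + 1))).val)
  have hY : ∀ g : primeLocalGaloisGroup q,
      locAct q g (Y 0) = Y (tower p n (primeLocalToGlobal q g)) := by
    intro g
    simp only [Y, map_prod, hact]
    refine Finset.prod_nbij' (fun u => cyclo p n (primeLocalToGlobal q g) * u)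
      (fun u => (cyclo p n (primeLocalToGlobal q g))⁻¹ * u) ?_ ?_ ?_ ?_ (fun _ _ => rfl)
    · intro u hu
      simp only [Finset.mem_filter, Finset.mem_univ, true_and] at hu ⊢
      rw [theta_mul hp2, hu, add_zero]
      rfl
    · intro u hu
      simp only [Finset.mem_filter, Finset.mem_univ, true_and] at hu ⊢
      have h := theta_mul hp2 (cyclo p n (primeLocalToGlobal q g))
        ((cyclo p n (primeLocalToGlobal q g))⁻¹ * u)
      rw [mul_inv_cancel_left, hu] at h
      exact left_eq_add.1 h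
    · intro u _; simp
    · intro u _; simp
  have hY0 : Y 0 ∈ fld (kerW hp2 n q) := mem_fld_iff.2 fun τ hτ => by
    rw [hY, (mem_kerW hp2 n q).1 hτ]
  have := finiteDimensional_fld hW
  set y : fld (kerW hp2 n q) := ⟨Y 0, hY0⟩
  have hnorm : Algebra.norm ℚ_[(q : ℕ)] y = (p : ℚ_[(q : ℕ)]) := by
    apply (algebraMap ℚ_[(q : ℕ)] (Omega q)).injective
    rw [norm_fld_eq hW (kerW_normal hp2 n q), map_natCast]
    have hbij : Function.Bijective (fun x : primeLocalGaloisGroup q ⧸ kerW hp2 n q =>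
        tower p n (primeLocalToGlobal q (Quotient.out x))) := by
      constructor
      · intro a b hab
        rw [← QuotientGroup.out_eq' a, ← QuotientGroup.out_eq' b]
        refine QuotientGroup.eq.2 ?_
        show locTower hp2 n q (_ * _) = 1
        rw [map_mul, map_inv]
        exact inv_mul_eq_one.2 (congrArg Multiplicative.ofAdd hab)
      · intro t
        obtain ⟨g, hg⟩ := locTower_surjective hp2 n hq (Multiplicative.ofAdd t)
        refine ⟨(g : primeLocalGaloisGroup q ⧸ kerW hp2 n q), ?_⟩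
        obtain ⟨w, hw⟩ := QuotientGroup.mk_out_eq_mul (kerW hp2 n q) g
        show tower p n (primeLocalToGlobal q (Quotient.out (g : _ ⧸ kerW hp2 n q))) = t
        rw [hw, map_mul, tower_mul' hp2, (mem_kerW hp2 n q).1 w.2, add_zero]
        exact congrArg Multiplicative.toAdd hg
    rw [finprod_eq_of_bijective _ hbij (g := Y) (fun x => hY _), finprod_eq_prod_of_fintype,
      Finset.prod_fiberwise]
    have hcyc : Polynomial.eval (1 : Omega q) (Polynomial.cyclotomic (p ^ (n + 1)) (Omega q)) =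
        (p : Omega q) := Polynomial.eval_one_cyclotomic_prime_pow n
    rw [← hcyc, Polynomial.cyclotomic_eq_prod_X_sub_primitiveRoots hζ, Polynomial.eval_prod]
    simp only [Polynomial.eval_sub, Polynomial.eval_X, Polynomial.eval_C]
    have hpos : 0 < p ^ (n + 1) := pow_pos (Fact.out : p.Prime).pos _
    refine Finset.prod_bij (fun u _ => ζ ^ (u : ZMod (p ^ (n + 1))).val)
      (fun u _ => (mem_primitiveRoots hpos).2 (hζ.pow_of_coprime _ (ZMod.val_coe_unit_coprime u)))
      (fun u _ v _ h => Units.ext (ZMod.val_injective _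
        (hζ.pow_inj (ZMod.val_lt _) (ZMod.val_lt _) h)))
      (fun μ hμ => ?_) (fun u _ => rfl)
    obtain ⟨i, hi, hcop, rfl⟩ := (hζ.isPrimitiveRoot_iff).1 ((mem_primitiveRoots hpos).1 hμ)
    exact ⟨ZMod.unitOfCoprime i hcop, Finset.mem_univ _, by
      rw [ZMod.coe_unitOfCoprime, ZMod.val_natCast_of_lt hi]⟩
  have hy0 : y ≠ 0 := by
    intro h
    rw [h, Algebra.norm_zero] at hnorm
    exact (Fact.out : p.Prime).ne_zero (by exact_mod_cast hnorm.symm)
  exact ⟨Units.mk0 y hy0, Units.ext (hnorm.trans hpu.symm)⟩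

include hp2 in
/-- A unit with `theta = 0` at a deeper level is a `p ^ n`-th power there. -/
lemma exists_pow_eq {N : ℕ} (hN : n ≤ N) (hn : n ≠ 0) (w : (ZMod (p ^ (N + 1)))ˣ)
    (hw : ZMod.castHom (pow_dvd_pow p hN) (ZMod (p ^ n)) (theta p N w) = 0) :
    ∃ x, x ^ p ^ n = w := by
  obtain ⟨i, hi⟩ := mem_powers_gen hp2 w
  rw [theta_eq hp2 hi, map_natCast, ZMod.natCast_eq_zero_iff] at hw
  obtain ⟨j, rfl⟩ := hw
  have hco : Nat.Coprime (p - 1) (p ^ n) :=
    Nat.Coprime.pow_right _ (Nat.coprime_of_lt_prime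
      (Nat.sub_ne_zero_of_lt (Fact.out : p.Prime).one_lt)
      (Nat.sub_lt (Fact.out : p.Prime).pos one_pos) Fact.out).symm
  obtain ⟨m, -, hm⟩ := Nat.exists_mul_mod_eq_one_of_coprime hco
    (Nat.one_lt_pow hn (Fact.out : p.Prime).one_lt)
  have hd := Nat.div_add_mod ((p - 1) * m) (p ^ n)
  rw [hm] at hd
  set d := (p - 1) * m / p ^ n
  refine ⟨gen p N ^ (j * m) * (w ^ d)⁻¹, ?_⟩
  rw [mul_pow, inv_pow, ← pow_mul, ← pow_mul, mul_inv_eq_iff_eq_mul,
    show j * m * p ^ n = p ^ n * j * m by ring, pow_mul (gen p N) (p ^ n * j) m, ← hi, ← pow_mul,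
    ← hd]
  exact (pow_succ' w _).trans (congrArg (fun t => w * w ^ t) (mul_comm _ _))

include hp2 in
lemma redP_castHom {N : ℕ} (hN : n ≤ N) (hq : (q : ℕ) = p) (u : ℤ_[(q : ℕ)]) :
    ZMod.castHom (pow_dvd_pow p (by omega : n + 1 ≤ N + 1)) (ZMod (p ^ (n + 1)))
      (redP p N hq u) = redP p n hq u := by
  subst hq
  simp only [redP, RingHom.comp_apply, ZMod.castHom_apply, ZMod.cast_id]
  exact RingHom.congr_fun (PadicInt.zmod_cast_comp_toZModPow (n + 1) (N + 1) (by omega)) u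

include hp2 in
lemma exists_padic_pow (hq : (q : ℕ) = p) (hn : n ≠ 0) (u : ℤ_[(q : ℕ)]ˣ)
    (hu : theta p n (Units.map (redP p n hq).toMonoidHom u) = 0) :
    ∃ x : ℤ_[(q : ℕ)], x ^ p ^ n = (u : ℤ_[(q : ℕ)]) := by
  subst hq
  have hcl : IsClosed (Set.range fun x : ℤ_[(q : ℕ)] => x ^ (q : ℕ) ^ n) :=
    (isCompact_range (continuous_pow _)).isClosed
  refine hcl.closure_subset (Metric.mem_closure_iff.2 fun ε hε => ?_)
  obtain ⟨m, hm⟩ := PadicInt.exists_pow_neg_lt (q : ℕ) hε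
  set N := m + n
  have hN : n ≤ N := Nat.le_add_left _ _
  have := neZeroPow (q : ℕ) (N + 1)
  have hu' := theta_castHom hp2 hN (Units.map (redP (q : ℕ) N rfl).toMonoidHom u)
  have hcast : Units.map (ZMod.castHom (pow_dvd_pow (q : ℕ) (by omega : n + 1 ≤ N + 1))
      (ZMod ((q : ℕ) ^ (n + 1)))).toMonoidHom (Units.map (redP (q : ℕ) N rfl).toMonoidHom u) =
      Units.map (redP (q : ℕ) n rfl).toMonoidHom u :=
    Units.ext (redP_castHom hp2 n hN rfl _)
  rw [hcast, hu] at hu'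
  obtain ⟨x, hx⟩ := exists_pow_eq hp2 n hN hn _ hu'.symm
  refine ⟨_, ⟨((x : ZMod ((q : ℕ) ^ (N + 1))).val : ℤ_[(q : ℕ)]), rfl⟩, ?_⟩
  rw [dist_eq_norm]
  refine lt_of_le_of_lt ?_ hm
  refine le_trans ((PadicInt.norm_le_pow_iff_mem_span_pow _ (N + 1)).2 ?_) ?_
  · rw [← PadicInt.ker_toZModPow, RingHom.mem_ker, map_sub, map_pow, map_natCast,
      ZMod.natCast_zmod_val, sub_eq_zero, ← Units.val_pow_eq_pow_val, hx]
    simp [redP]
  · exact zpow_le_zpow_right₀ (by exact_mod_cast q.2.one_lt.le) (by omega)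

/-- The symbol as a homomorphism. -/
def phiHom (q : Nat.Primes) : (ℚ_[(q : ℕ)])ˣ →* Multiplicative (ZMod (p ^ n)) :=
  MonoidHom.mk' (fun b => Multiplicative.ofAdd (phiLoc p n q b))
    fun a b => congrArg Multiplicative.ofAdd (phiLoc_mul' hp2 n q a b)

include hp2 in
lemma phiHom_surjective (hq : (q : ℕ) = p) : Function.Surjective (phiHom hp2 n q) := by
  subst hq
  have := neZeroPow (q : ℕ) (n + 1)
  intro x
  obtain ⟨u, hu⟩ := theta_surjective hp2 (n := n) (- Multiplicative.toAdd x)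
  have hnd : ¬ (q : ℕ) ∣ (u : ZMod ((q : ℕ) ^ (n + 1))).val := fun h =>
    q.2.one_lt.ne' (Nat.dvd_one.1 ((ZMod.val_coe_unit_coprime u) ▸
      Nat.dvd_gcd h (dvd_pow_self _ n.succ_ne_zero)))
  have h0 : ((u : ZMod ((q : ℕ) ^ (n + 1))).val : ℚ_[(q : ℕ)]) ≠ 0 :=
    Nat.cast_ne_zero.2 fun h => hnd (h ▸ dvd_zero _)
  refine ⟨Units.mk0 _ h0, ?_⟩
  show Multiplicative.ofAdd (phiLoc (q : ℕ) n q _) = x
  rw [phiLoc_of_eq n rfl]
  have hv : Units.map (redP (q : ℕ) n rfl).toMonoidHom (unitPart (Units.mk0 _ h0)) = u := by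
    refine Units.ext ?_
    have hc : (unitPart (Units.mk0 _ h0) : ℤ_[(q : ℕ)]) =
        ((u : ZMod ((q : ℕ) ^ (n + 1))).val : ℤ_[(q : ℕ)]) := Subtype.ext (by
      rw [val_unitPart, Units.val_mk0, Padic.valuation_natCast,
        padicValNat.eq_zero_of_not_dvd hnd, Nat.cast_zero, neg_zero, zpow_zero, mul_one]
      rfl)
    show redP (q : ℕ) n rfl (unitPart (Units.mk0 _ h0) : ℤ_[(q : ℕ)]) = _
    rw [hc, map_natCast, ZMod.natCast_zmod_val]
  rw [hv, hu, neg_neg]
  rfl

include hp2 in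
lemma norm_symbol_eq (hq : (q : ℕ) = p) (hn : n ≠ 0) (c : (fld (kerW hp2 n q))ˣ)
    (b : (ℚ_[(q : ℕ)])ˣ)
    (hb : (b : ℚ_[(q : ℕ)]) = Algebra.norm ℚ_[(q : ℕ)] (c : fld (kerW hp2 n q))) :
    phiLoc p n q b = 0 := by
  have hW := kerW_level hp2 n q
  have := finiteDimensional_fld hW
  have := fld_isGalois hW (kerW_normal hp2 n q)
  have := FiniteDimensional.proper ℚ_[(q : ℕ)] (fld (kerW hp2 n q))
  set N := normGroup ℚ_[(q : ℕ)] (fld (kerW hp2 n q))
  have hfin : Module.finrank ℚ_[(q : ℕ)] (fld (kerW hp2 n q)) = p ^ n := (finrank_fld hW).trans (kerW_index hp2 n hq)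
  have : IsCyclic Gal((fld (kerW hp2 n q))/ℚ_[(q : ℕ)]) := by
    have e : primeLocalGaloisGroup q ⧸ kerW hp2 n q ≃* Gal((fld (kerW hp2 n q))/ℚ_[(q : ℕ)]) :=
      (QuotientGroup.quotientMulEquivOfEq (fldRes_ker hW).symm).trans
        (QuotientGroup.quotientKerEquivOfSurjective _ (fldRes_surjective _))
    exact isCyclic_of_injective
      ((QuotientGroup.kerLift (locTower hp2 n q)).comp e.symm.toMonoidHom)
      ((QuotientGroup.kerLift_injective _).comp e.symm.injective)
  obtain ⟨σ, hσ⟩ := IsCyclic.exists_generator (α := Gal((fld (kerW hp2 n q))/ℚ_[(q : ℕ)]))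
  have hNidx : N.index = p ^ n := (normGroup_index ℚ_[(q : ℕ)] (fld (kerW hp2 n q)) σ hσ).trans hfin
  have hKidx : (phiHom hp2 n q).ker.index = p ^ n := by
    rw [Subgroup.index_ker, MonoidHom.range_eq_top.2 (phiHom_surjective hp2 n hq),
      Subgroup.card_top, Nat.card_congr Multiplicative.toAdd, Nat.card_zmod]
  have hKN : (phiHom hp2 n q).ker ≤ N := by
    intro z hz
    replace hz : phiLoc p n q z = 0 := hz
    rw [phiLoc_of_eq n hq, neg_eq_zero] at hz
    obtain ⟨x, hx⟩ := exists_padic_pow hp2 n hq hn _ hz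
    have hq0 : ((q : ℕ) : ℚ_[(q : ℕ)]) ≠ 0 := by exact_mod_cast q.2.ne_zero
    have hx0 : (x : ℚ_[(q : ℕ)]) ≠ 0 := by
      intro h
      refine (unitPart z).ne_zero ?_
      rw [← hx, (Subtype.ext h : x = 0), zero_pow (pow_ne_zero _ (Fact.out : p.Prime).ne_zero)]
    have hz' : z = Units.mk0 (x : ℚ_[(q : ℕ)]) hx0 ^ p ^ n *
        Units.mk0 _ hq0 ^ Padic.valuation (z : ℚ_[(q : ℕ)]) := by
      refine Units.ext ?_
      rw [Units.val_mul, Units.val_zpow_eq_zpow_val, Units.val_pow_eq_pow_val, Units.val_mk0,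
        Units.val_mk0, ← PadicInt.coe_pow, hx, val_unitPart, mul_assoc,
        ← zpow_add₀ hq0, neg_add_cancel, zpow_zero, mul_one]
    rw [hz']
    refine N.mul_mem ⟨Units.map (algebraMap ℚ_[(q : ℕ)] (fld (kerW hp2 n q))).toMonoidHom (Units.mk0 _ hx0),
      Units.ext ?_⟩ (N.zpow_mem ?_ _)
    · show Algebra.norm ℚ_[(q : ℕ)] (algebraMap ℚ_[(q : ℕ)] (fld (kerW hp2 n q)) (x : ℚ_[(q : ℕ)])) = _
      rw [Algebra.norm_algebraMap, hfin, Units.val_pow_eq_pow_val, Units.val_mk0]
    · exact prime_mem_normGroup hp2 n hq _ ((Units.val_mk0 hq0).trans (congrArg Nat.cast hq))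
  have h := Subgroup.relIndex_mul_index hKN
  rw [hKidx, hNidx] at h
  have h1 : (phiHom hp2 n q).ker.relIndex N = 1 :=
    Nat.eq_of_mul_eq_mul_right (pow_pos (Fact.out : p.Prime).pos n) (h.trans (one_mul _).symm)
  exact (Subgroup.relIndex_eq_one.1 h1) (show b ∈ N from ⟨c, Units.ext hb.symm⟩)

end AtP

include hp2 in
/-- Norms from a level-`n` local field lie in the kernel of the symbol. -/
theorem phiLoc_norm_eq_zero' (q : Nat.Primes) {V : Subgroup (primeLocalGaloisGroup q)}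
    (hV : IsLevelSubgroup Levels.all (primeLocalToGlobal q) V)
    (htower : ∀ τ ∈ V, tower p n (primeLocalToGlobal q τ) = 0) (a : (Omega q)ˣ)
    (ha : ∀ τ ∈ V, locAct q τ (a : Omega q) = a) (b : (ℚ_[(q : ℕ)])ˣ)
    (hb : algebraMap ℚ_[(q : ℕ)] (Omega q) b =
      ∏ᶠ x : primeLocalGaloisGroup q ⧸ V, locAct q (Quotient.out x) (a : Omega q)) :
    phiLoc p n q b = 0 := by
  rcases eq_or_ne n 0 with rfl | hn
  · exact Subsingleton.elim (α := ZMod 1) _ _
  have hW := kerW_level hp2 n q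
  have hVW : V ≤ kerW hp2 n q := fun τ hτ => (mem_kerW hp2 n q).2 (htower τ hτ)
  have := hV.finite_quotient
  have : Finite (↥(kerW hp2 n q) ⧸ V.subgroupOf (kerW hp2 n q)) :=
    Finite.of_surjective (fun x => (Subgroup.quotientEquivProdOfLE hVW x).2) fun z =>
      ⟨(Subgroup.quotientEquivProdOfLE hVW).symm (QuotientGroup.mk 1, z), by
        simp only [Equiv.apply_symm_apply]⟩
  set c : Omega q := ∏ᶠ z : ↥(kerW hp2 n q) ⧸ V.subgroupOf (kerW hp2 n q),
    locAct q ((Quotient.out z : ↥(kerW hp2 n q)) : primeLocalGaloisGroup q) (a : Omega q)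
  have hc : c ∈ fld (kerW hp2 n q) := mem_fld_iff.2 fun w hw => step_fixed ha hw
  have hbn : (b : ℚ_[(q : ℕ)]) = Algebra.norm ℚ_[(q : ℕ)] (⟨c, hc⟩ : fld (kerW hp2 n q)) := by
    apply (algebraMap ℚ_[(q : ℕ)] (Omega q)).injective
    rw [norm_fld_eq hW (kerW_normal hp2 n q), hb, finprod_coset_step hVW ha]
  have := finiteDimensional_fld hW
  have hc0 : (⟨c, hc⟩ : fld (kerW hp2 n q)) ≠ 0 := fun h => b.ne_zero (by
    rw [hbn, h, Algebra.norm_zero])
  by_cases hq : (q : ℕ) = p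
  · exact norm_symbol_eq hp2 n hq hn (Units.mk0 _ hc0) b hbn
  · exact norm_symbol_ne hp2 n hq (Units.mk0 _ hc0) b hbn

end Fermat.Agent.CFT.NormKernel
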