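/-
Level-constant multiplicative cochains of a Galois group acting on a field, computed at finite
levels: Hilbert 90 and the carry cocycles of cyclic characters.
-/
import Fermat.Agent.CFT.Setup
import Fermat.Agent.CFT.Class.Carry
import Fermat.Agent.CFT.GlobalFinite

set_option autoImplicit false

noncomputable section

namespace Fermat.Agent.CFT.Recip

open Fermat.Agent.CFT groupCohomology

/-- A group acting on a field compatibly with an embedding of `ℚ̄`, with smooth action. -/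
structure EmbData (Γ Ω : Type) [Group Γ] [Field Ω] [MulSemiringAction Γ Ω] where
  r : Γ →* GQ
  ι : AlgebraicClosure ℚ →+* Ω
  comm : ∀ g x, ι (r g x) = g • ι x
  smooth : ∀ a : Ω, ∃ F : IntermediateField ℚ (AlgebraicClosure ℚ), FiniteDimensional ℚ F ∧
    ∀ g, r g ∈ F.fixingSubgroup → g • a = a

variable {Γ Ω : Type} [Group Γ] [Field Ω] [MulSemiringAction Γ Ω]

namespace EmbData

variable (D : EmbData Γ Ω)

/-- The subgroup of a field. -/
def lev (F : IntermediateField ℚ (AlgebraicClosure ℚ)) : Subgroup Γ := F.fixingSubgroup.comap D.r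

lemma mem_lev {F : IntermediateField ℚ (AlgebraicClosure ℚ)} {g : Γ} :
    g ∈ D.lev F ↔ D.r g ∈ F.fixingSubgroup := Iff.rfl

lemma lev_antitone {F F' : IntermediateField ℚ (AlgebraicClosure ℚ)} (h : F ≤ F') :
    D.lev F' ≤ D.lev F := Subgroup.comap_mono (IntermediateField.fixingSubgroup_antitone h)

/-- Stable under the Galois group. -/
def Stable (F : IntermediateField ℚ (AlgebraicClosure ℚ)) : Prop :=
  ∀ σ : GQ, ∀ x ∈ F, σ x ∈ F

lemma normal_fixingSubgroup {F : IntermediateField ℚ (AlgebraicClosure ℚ)} (h : Stable F) :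
    F.fixingSubgroup.Normal := by
  refine ⟨fun s hs g => ?_⟩
  rw [IntermediateField.mem_fixingSubgroup_iff] at hs ⊢
  intro x hx
  simp only [AlgEquiv.mul_apply]
  rw [hs _ (h g⁻¹ x hx), ← AlgEquiv.mul_apply, mul_inv_cancel]
  rfl

lemma finiteIndex_fixingSubgroup' (F : IntermediateField ℚ (AlgebraicClosure ℚ))
    (hF : FiniteDimensional ℚ F) : F.fixingSubgroup.FiniteIndex :=
  Fermat.Agent.CFT.finiteIndex_fixingSubgroup F

lemma normal_lev {F : IntermediateField ℚ (AlgebraicClosure ℚ)} (h : Stable F) :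
    (D.lev F).Normal :=
  haveI := normal_fixingSubgroup h
  Subgroup.Normal.comap inferInstance D.r

lemma finiteIndex_lev {F : IntermediateField ℚ (AlgebraicClosure ℚ)} (h : Stable F)
    (hF : FiniteDimensional ℚ F) : (D.lev F).FiniteIndex := by
  have := normal_fixingSubgroup h
  have := finiteIndex_fixingSubgroup' F hF
  refine ⟨fun h0 => ?_⟩
  rw [lev, Subgroup.index_comap] at h0
  exact Subgroup.FiniteIndex.index_ne_zero
    (zero_dvd_iff.1 (h0 ▸ Subgroup.relIndex_dvd_index_of_normal F.fixingSubgroup D.r.range))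

lemma exists_normal (F : IntermediateField ℚ (AlgebraicClosure ℚ)) (hF : FiniteDimensional ℚ F) :
    ∃ F' : IntermediateField ℚ (AlgebraicClosure ℚ), FiniteDimensional ℚ F' ∧ Stable F' ∧
      F ≤ F' := by
  haveI : FiniteDimensional ℚ F := hF
  haveI : ∀ f : F →ₐ[ℚ] AlgebraicClosure ℚ, FiniteDimensional ℚ f.fieldRange := fun f =>
    inferInstanceAs (FiniteDimensional ℚ (LinearMap.range f.toLinearMap))
  refine ⟨⨆ f : F →ₐ[ℚ] AlgebraicClosure ℚ, f.fieldRange,
    IntermediateField.finiteDimensional_iSup_of_finite, fun σ x hx => ?_, ?_⟩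
  · have hmem : σ x ∈ (⨆ f : F →ₐ[ℚ] AlgebraicClosure ℚ, f.fieldRange).map σ.toAlgHom :=
      (IntermediateField.mem_map _).2 ⟨x, hx, rfl⟩
    rw [(IntermediateField.gc_map_comap _).l_iSup] at hmem
    refine (iSup_le fun f => ?_ : (⨆ f : F →ₐ[ℚ] AlgebraicClosure ℚ,
      f.fieldRange.map σ.toAlgHom) ≤ ⨆ f : F →ₐ[ℚ] AlgebraicClosure ℚ, f.fieldRange) hmem
    rw [AlgHom.map_fieldRange]
    exact le_iSup (fun f : F →ₐ[ℚ] AlgebraicClosure ℚ => f.fieldRange) _
  · exact le_trans (le_of_eq F.fieldRange_val.symm)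
      (le_iSup (fun f : F →ₐ[ℚ] AlgebraicClosure ℚ => f.fieldRange) F.val)

lemma exists_lev_finset (s : Finset Ω) :
    ∃ F : IntermediateField ℚ (AlgebraicClosure ℚ), FiniteDimensional ℚ F ∧
      ∀ a ∈ s, ∀ g, D.r g ∈ F.fixingSubgroup → g • a = a := by
  classical
  induction s using Finset.induction with
  | empty => exact ⟨⊥, inferInstance, by simp⟩
  | @insert a s _ ih =>
    obtain ⟨F, hF, h⟩ := ih
    obtain ⟨F', hF', h'⟩ := D.smooth a
    refine ⟨F ⊔ F', inferInstance, fun b hb g hg => ?_⟩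
    rcases Finset.mem_insert.1 hb with rfl | hb
    · exact h' g (IntermediateField.fixingSubgroup_antitone le_sup_right hg)
    · exact h b hb g (IntermediateField.fixingSubgroup_antitone le_sup_left hg)

/-- A normal level inside which given finitely many values are fixed. -/
lemma exists_level {X : Type} [Finite X] (v : X → Ω)
    (F₀ : IntermediateField ℚ (AlgebraicClosure ℚ)) (hF₀ : FiniteDimensional ℚ F₀) :
    ∃ F : IntermediateField ℚ (AlgebraicClosure ℚ), FiniteDimensional ℚ F ∧ Stable F ∧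
      F₀ ≤ F ∧ ∀ x, ∀ g ∈ D.lev F, g • v x = v x := by
  classical
  cases nonempty_fintype X
  obtain ⟨F₁, hF₁, h₁⟩ := D.exists_lev_finset (Finset.univ.image v)
  obtain ⟨F, hF, hn, hle⟩ := exists_normal (F₀ ⊔ F₁) inferInstance
  exact ⟨F, hF, hn, le_sup_left.trans hle, fun x g hg =>
    h₁ _ (Finset.mem_image_of_mem v (Finset.mem_univ x)) g
      (IntermediateField.fixingSubgroup_antitone (le_sup_right.trans hle) hg)⟩

end EmbData

variable (W : Subgroup Γ)

/-- Units fixed by a subgroup. -/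
def fixU : Subgroup Ωˣ where
  carrier := {a | ∀ g ∈ W, g • (a : Ω) = a}
  one_mem' g _ := by simp
  mul_mem' {a b} ha hb g hg := by simp [smul_mul', ha g hg, hb g hg]
  inv_mem' {a} ha g hg := by simp [ha g hg]

lemma mem_fixU {a : Ωˣ} : a ∈ fixU W ↔ ∀ g ∈ W, g • (a : Ω) = a := Iff.rfl

variable {W}

lemma EmbData.faithful (D : EmbData Γ Ω) (F : IntermediateField ℚ (AlgebraicClosure ℚ)) {g : Γ}
    (h : ∀ a ∈ fixU (Ω := Ω) (D.lev F), g • (a : Ω) = a) : g ∈ D.lev F := by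
  rw [D.mem_lev, IntermediateField.mem_fixingSubgroup_iff]
  intro x hx
  rcases eq_or_ne x 0 with rfl | hx0
  · exact map_zero _
  refine D.ι.injective ?_
  rw [D.comm]
  refine h (Units.mk0 (D.ι x) ((map_ne_zero _).2 hx0)) fun k hk => ?_
  rw [Units.val_mk0, ← D.comm, (IntermediateField.mem_fixingSubgroup_iff _ _).1 hk x hx]

variable [W.Normal]

omit [W.Normal] in
lemma smul_eq_of_div_mem {a : Ωˣ} (ha : a ∈ fixU W) {g g' : Γ} (h : g⁻¹ * g' ∈ W) :
    g • (a : Ω) = g' • (a : Ω) := by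
  rw [show g' = g * (g⁻¹ * g') by group, mul_smul, ha _ h]

/-- The quotient group acts on the fixed units. -/
def fixUEnd (g : Γ) : ↥(fixU (Ω := Ω) W) →* ↥(fixU (Ω := Ω) W) where
  toFun a := ⟨Units.map (MulDistribMulAction.toMonoidHom Ω g) a.1, fun k hk => by
    change k • g • (a.1 : Ω) = g • (a.1 : Ω)
    rw [smul_smul, show k * g = g * (g⁻¹ * k * g) by group, mul_smul, a.2 _ (by
      simpa using (inferInstance : W.Normal).conj_mem k hk g⁻¹)]⟩
  map_one' := by ext; simp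
  map_mul' a b := by ext; simp

lemma coe_fixUEnd (g : Γ) (a : ↥(fixU (Ω := Ω) W)) :
    ((fixUEnd g a : Ωˣ) : Ω) = g • ((a : Ωˣ) : Ω) := rfl

instance fixUAction : MulDistribMulAction (Γ ⧸ W) ↥(fixU (Ω := Ω) W) where
  smul q a := Quotient.liftOn' q (fun g => fixUEnd g a) fun g g' h => by
    ext
    exact smul_eq_of_div_mem a.2 (QuotientGroup.leftRel_apply.1 h)
  one_smul a := by
    ext
    exact one_smul Γ ((a : Ωˣ) : Ω)
  mul_smul q q' a := by
    induction q using QuotientGroup.induction_on with | H g => ?_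
    induction q' using QuotientGroup.induction_on with | H g' => ?_
    ext
    exact mul_smul g g' ((a : Ωˣ) : Ω)
  smul_one q := by
    induction q using QuotientGroup.induction_on with | H g => ?_
    exact map_one (fixUEnd g)
  smul_mul q a b := by
    induction q using QuotientGroup.induction_on with | H g => ?_
    exact map_mul (fixUEnd g) a b

lemma coe_mk_smul (g : Γ) (a : ↥(fixU (Ω := Ω) W)) :
    (((QuotientGroup.mk g : Γ ⧸ W) • a : ↥(fixU (Ω := Ω) W)) : Ωˣ).val =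
      g • ((a : Ωˣ) : Ω) := rfl

/-- Hilbert 90 at a finite level. -/
theorem h1Triv_fixU [W.FiniteIndex]
    (hf : ∀ g : Γ, (∀ a ∈ fixU (Ω := Ω) W, g • (a : Ω) = a) → g ∈ W)
    (H : Subgroup (Γ ⧸ W)) : Class.H1Triv H ↥(fixU (Ω := Ω) W) := by
  intro f hfc
  let χ : H → (↥(fixU (Ω := Ω) W) →* Ω) := fun h =>
    (Units.coeHom Ω).comp ((fixU (Ω := Ω) W).subtype.comp
      (MulDistribMulAction.toMonoidHom ↥(fixU (Ω := Ω) W) (h : Γ ⧸ W)))
  have hinj : Function.Injective χ := by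
    intro h h' he
    refine Subtype.ext ?_
    obtain ⟨g, hg⟩ := QuotientGroup.mk_surjective (h : Γ ⧸ W)
    obtain ⟨g', hg'⟩ := QuotientGroup.mk_surjective (h' : Γ ⧸ W)
    rw [← hg, ← hg', QuotientGroup.eq]
    refine hf _ fun a ha => ?_
    have := DFunLike.congr_fun he ⟨a, ha⟩
    simp only [χ, MonoidHom.coe_comp, Function.comp_apply, Subgroup.coe_subtype,
      Units.coeHom_apply, MulDistribMulAction.toMonoidHom_apply, ← hg, ← hg', coe_mk_smul] at this
    rw [mul_smul, ← this, inv_smul_smul]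
  let _i : Fintype H := Fintype.ofFinite H
  have hli := (linearIndependent_monoidHom ↥(fixU (Ω := Ω) W) Ω).comp χ hinj
  obtain ⟨a, ha⟩ : ∃ a, (∑ h : H, ((f h : Ωˣ) : Ω) * χ h a) ≠ 0 := by
    by_contra! hne
    have h0 := Fintype.linearIndependent_iff.1 hli (fun h => ((f h : Ωˣ) : Ω)) (by
      funext a
      simpa [Finset.sum_apply, Pi.smul_apply, smul_eq_mul] using hne a) 1
    exact Units.ne_zero _ h0
  set y := ∑ h : H, ((f h : Ωˣ) : Ω) * χ h a with hy
  have hfix : Units.mk0 y ha ∈ fixU (Ω := Ω) W := fun k hk => by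
    simp only [Units.val_mk0, hy, Finset.smul_sum, smul_mul']
    refine Finset.sum_congr rfl fun h _ => ?_
    rw [(f h).2 k hk]
    congr 1
    exact ((h : Γ ⧸ W) • a).2 k hk
  set Y : ↥(fixU (Ω := Ω) W) := ⟨Units.mk0 y ha, hfix⟩ with hY
  refine ⟨Y⁻¹, fun k => ?_⟩
  obtain ⟨g, hg⟩ := QuotientGroup.mk_surjective (k : Γ ⧸ W)
  have key : g • y * ((f k : Ωˣ) : Ω) = y := by
    rw [hy, Finset.smul_sum, Finset.sum_mul]
    refine Fintype.sum_equiv (Equiv.mulLeft k) _ _ fun h => ?_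
    have h1 := congrArg (fun u : ↥(fixU (Ω := Ω) W) => ((u : Ωˣ) : Ω)) (hfc k h)
    simp only [Subgroup.coe_mul, Units.val_mul] at h1
    have h2 : χ (k * h) a = g • χ h a := by
      simp only [χ, MonoidHom.coe_comp, Function.comp_apply, Subgroup.coe_subtype,
        Units.coeHom_apply, MulDistribMulAction.toMonoidHom_apply, Subgroup.coe_mul, mul_smul,
        ← hg, coe_mk_smul]
    change g • (((f h : Ωˣ) : Ω) * χ h a) * ((f k : Ωˣ) : Ω) =
      ((f (k * h) : Ωˣ) : Ω) * χ (k * h) a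
    rw [h1, h2, smul_mul',
      show ((((k • f h : ↥(fixU (Ω := Ω) W))) : Ωˣ) : Ω) = g • ((f h : Ωˣ) : Ω) by
        change ((((k : Γ ⧸ W) • f h : ↥(fixU (Ω := Ω) W)) : Ωˣ) : Ω) = _
        rw [← hg, coe_mk_smul]]
    ring
  ext
  simp only [Subgroup.coe_div, Units.val_div_eq_div_val]
  change ((((k : Γ ⧸ W) • Y⁻¹ : ↥(fixU (Ω := Ω) W)) : Ωˣ) : Ω) / _ = _
  rw [← hg, coe_mk_smul]
  simp only [hY, InvMemClass.coe_inv, Units.val_inv_eq_inv_val, Units.val_mk0, smul_inv'']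
  have hgy : g • y ≠ 0 := (smul_ne_zero_iff_ne g).2 ha
  field_simp
  linear_combination -key

/-! ### Descending level-constant cochains -/

namespace EmbData

variable (D : EmbData Γ Ω)

lemma exists_level_cochains {X₁ X₂ : Type} [Finite X₁] [Finite X₂]
    (b : X₁ → Ω) (F₀ : IntermediateField ℚ (AlgebraicClosure ℚ)) (hF₀ : FiniteDimensional ℚ F₀)
    (c : X₂ → Ω) :
    ∃ F : IntermediateField ℚ (AlgebraicClosure ℚ), FiniteDimensional ℚ F ∧ Stable F ∧
      F₀ ≤ F ∧ (∀ x, ∀ g ∈ D.lev F, g • b x = b x) ∧ ∀ x, ∀ g ∈ D.lev F, g • c x = c x := by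
  obtain ⟨F, hF, hs, hle, h⟩ := D.exists_level (Sum.elim b c) F₀ hF₀
  exact ⟨F, hF, hs, hle, fun x => h (Sum.inl x), fun x => h (Sum.inr x)⟩

/-- The values of a level-constant cochain lie at a finite level. -/
lemma exists_level₁ {V : Subgroup Γ} (f : V → Ωˣ) (hf : IsConst₁ Levels.all (D.r.comp V.subtype) f)
    (F₀ : IntermediateField ℚ (AlgebraicClosure ℚ)) (hF₀ : FiniteDimensional ℚ F₀) :
    ∃ F : IntermediateField ℚ (AlgebraicClosure ℚ), FiniteDimensional ℚ F ∧ Stable F ∧ F₀ ≤ F ∧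
      (∀ v : V, f v ∈ fixU (D.lev F)) ∧
      ∀ v w : V, (v : Γ)⁻¹ * w ∈ D.lev F → f v = f w := by
  obtain ⟨F₁, hF₁, hf⟩ := hf
  have hF₁' : FiniteDimensional ℚ F₁ := hF₁
  obtain ⟨F₂, hF₂, hs₂, hle₂⟩ := exists_normal F₁ hF₁'
  have := finiteIndex_lev D hs₂ hF₂
  classical
  let v : Γ ⧸ D.lev F₂ → Ω := fun x =>
    if h : ∃ w : V, (QuotientGroup.mk (w : Γ) : Γ ⧸ D.lev F₂) = x then f h.choose else 1
  have hconst : ∀ a b : V, (a : Γ)⁻¹ * b ∈ D.lev F₂ → f a = f b := by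
    intro a b hab
    have := hf a (a⁻¹ * b) (IntermediateField.fixingSubgroup_antitone hle₂ hab)
    rw [mul_inv_cancel_left] at this
    exact this.symm
  obtain ⟨F, hF, hs, hle, hv⟩ := D.exists_level v (F₀ ⊔ F₂) inferInstance
  refine ⟨F, hF, hs, le_sup_left.trans hle, fun a g hg => ?_, fun a b hab => hconst a b
    (D.lev_antitone (le_sup_right.trans hle) hab)⟩
  have hex : ∃ w : V, (QuotientGroup.mk (w : Γ) : Γ ⧸ D.lev F₂) = QuotientGroup.mk (a : Γ) :=
    ⟨a, rfl⟩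
  have := hv (QuotientGroup.mk (a : Γ)) g hg
  simp only [v, dif_pos hex] at this
  rwa [hconst _ _ (QuotientGroup.eq.1 hex.choose_spec)] at this

/-- The values of a level-constant 2-cochain lie at a finite level. -/
lemma exists_level₂ (c : Γ × Γ → Ωˣ) (hc : IsConst₂ Levels.all D.r c)
    (F₀ : IntermediateField ℚ (AlgebraicClosure ℚ)) (hF₀ : FiniteDimensional ℚ F₀) :
    ∃ F : IntermediateField ℚ (AlgebraicClosure ℚ), FiniteDimensional ℚ F ∧ Stable F ∧ F₀ ≤ F ∧
      (∀ g, c g ∈ fixU (D.lev F)) ∧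
      ∀ a a' b b', a⁻¹ * a' ∈ D.lev F → b⁻¹ * b' ∈ D.lev F → c (a, b) = c (a', b') := by
  obtain ⟨F₁, hF₁, hc⟩ := hc
  have hF₁' : FiniteDimensional ℚ F₁ := hF₁
  obtain ⟨F₂, hF₂, hs₂, hle₂⟩ := exists_normal F₁ hF₁'
  have := finiteIndex_lev D hs₂ hF₂
  let v : (Γ ⧸ D.lev F₂) × (Γ ⧸ D.lev F₂) → Ω := fun x =>
    ((c (Quotient.out x.1, Quotient.out x.2) : Ωˣ) : Ω)
  have hconst : ∀ a a' b b', a⁻¹ * a' ∈ D.lev F₂ → b⁻¹ * b' ∈ D.lev F₂ →
      c (a, b) = c (a', b') := by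
    intro a a' b b' ha hb
    have := hc a b (a⁻¹ * a') (b⁻¹ * b') (IntermediateField.fixingSubgroup_antitone hle₂ ha)
      (IntermediateField.fixingSubgroup_antitone hle₂ hb)
    rw [mul_inv_cancel_left, mul_inv_cancel_left] at this
    exact this.symm
  obtain ⟨F, hF, hs, hle, hv⟩ := D.exists_level v (F₀ ⊔ F₂) inferInstance
  refine ⟨F, hF, hs, le_sup_left.trans hle, fun g k hk => ?_, fun a a' b b' ha hb =>
    hconst a a' b b' (D.lev_antitone (le_sup_right.trans hle) ha)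
      (D.lev_antitone (le_sup_right.trans hle) hb)⟩
  have := hv (QuotientGroup.mk g.1, QuotientGroup.mk g.2) k hk
  simp only [v] at this
  rwa [hconst _ g.1 _ g.2 (QuotientGroup.eq.1 (QuotientGroup.out_eq' _))
    (QuotientGroup.eq.1 (QuotientGroup.out_eq' _))] at this

include D in
/-- Hilbert 90 for level-constant cocycles on a subgroup. -/
theorem h90 {V : Subgroup Γ} {f : V → Ωˣ} (hf : IsConst₁ Levels.all (D.r.comp V.subtype) f)
    (hco : ∀ s t : V, (f (s * t) : Ω) = (s : Γ) • (f t : Ω) * f s) :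
    ∃ a : Ωˣ, ∀ v : V, (f v : Ω) = (v : Γ) • (a : Ω) / a := by
  obtain ⟨F, hF, hs, -, hval, hconst⟩ := D.exists_level₁ f hf ⊥ inferInstance
  have := normal_lev D hs
  have := finiteIndex_lev D hs hF
  let H : Subgroup (Γ ⧸ D.lev F) := V.map (QuotientGroup.mk' _)
  have hsur : ∀ h : H, ∃ v : V, (QuotientGroup.mk (v : Γ) : Γ ⧸ D.lev F) = h := fun h => by
    obtain ⟨v, hv, e⟩ := h.2
    exact ⟨⟨v, hv⟩, e⟩
  choose sec hsec using hsur
  let fb : H → ↥(fixU (Ω := Ω) (D.lev F)) := fun h => ⟨f (sec h), hval _⟩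
  have hfb : ∀ v : V, fb ⟨QuotientGroup.mk (v : Γ), Subgroup.mem_map_of_mem _ v.2⟩ =
      ⟨f v, hval v⟩ := fun v => Subtype.ext (hconst _ _ (QuotientGroup.eq.1 (hsec _)))
  have hcob : IsMulCocycle₁ fb := by
    intro g h
    have e : g * h = ⟨QuotientGroup.mk ((sec g * sec h : V) : Γ),
        Subgroup.mem_map_of_mem _ (sec g * sec h).2⟩ := Subtype.ext (by
      simp only [Subgroup.coe_mul, QuotientGroup.mk_mul, hsec])
    rw [e, hfb]
    refine Subtype.ext (Units.ext ?_)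
    simp only [Subgroup.coe_mul, Units.val_mul, hco]
    congr 1
    change _ = ((((g : Γ ⧸ D.lev F) • fb h : ↥(fixU (Ω := Ω) (D.lev F))) : Ωˣ) : Ω)
    rw [← hsec g, coe_mk_smul]
  obtain ⟨a, ha⟩ := h1Triv_fixU (fun g hg => D.faithful F hg) H fb hcob
  refine ⟨a, fun v => ?_⟩
  have := congrArg (fun u : ↥(fixU (Ω := Ω) (D.lev F)) => ((u : Ωˣ) : Ω))
    ((ha ⟨QuotientGroup.mk (v : Γ), Subgroup.mem_map_of_mem _ v.2⟩).trans (hfb v))
  simp only [Subgroup.coe_div, Units.val_div_eq_div_val] at this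
  rw [← this]
  rfl

variable {m : ℕ} [NeZero m] {χ : Γ →* Multiplicative (ZMod m)}
  (hχ : ∃ F₀ : IntermediateField ℚ (AlgebraicClosure ℚ), FiniteDimensional ℚ F₀ ∧
    D.lev F₀ ≤ χ.ker)
  {σ : Γ} (hσ : χ σ = Multiplicative.ofAdd 1)

section Quot

variable {W : Subgroup Γ} [W.Normal] (hW : W ≤ χ.ker)

/-- The character on the quotient. -/
def chiQ : Γ ⧸ W →* Multiplicative (ZMod m) := QuotientGroup.lift W χ hW

omit [NeZero m] in
lemma chiQ_mk (g : Γ) : chiQ hW (QuotientGroup.mk g) = χ g := rfl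

lemma coe_pow_smul (g : Γ) (i : ℕ) (a : ↥(fixU (Ω := Ω) W)) :
    ((((QuotientGroup.mk g : Γ ⧸ W) ^ i • a : ↥(fixU (Ω := Ω) W)) : Ωˣ) : Ω) =
      g ^ i • ((a : Ωˣ) : Ω) := by
  rw [← QuotientGroup.mk_pow, coe_mk_smul]

end Quot

include D hχ hσ in
/-- If `b ∪ δχ` vanishes, `b` is a norm from the kernel of `χ`. -/
theorem exists_norm {b : Ωˣ} (hb : ∀ g : Γ, g • (b : Ω) = b) {f : Γ → Ωˣ}
    (hf : IsConst₁ Levels.all D.r f)
    (hδ : ∀ s t, s • (f t : Ω) / f (s * t) * f s = (b : Ω) ^ Class.carry χ s t) :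
    ∃ y : Ωˣ, (∀ k ∈ χ.ker, k • (y : Ω) = y) ∧
      ∏ i ∈ Finset.range m, σ ^ i • (y : Ω) = b := by
  obtain ⟨F₀, hF₀, hle₀⟩ := hχ
  have hf' : IsConst₁ Levels.all (D.r.comp (⊤ : Subgroup Γ).subtype)
      (fun v : (⊤ : Subgroup Γ) => f v) := by
    obtain ⟨F₁, hF₁, h⟩ := hf
    exact ⟨F₁, hF₁, fun g s hs => h g s hs⟩
  obtain ⟨F, hF, hs, hle, hval, hconst⟩ := D.exists_level₁ _ hf' F₀ hF₀
  have := normal_lev D hs
  have := finiteIndex_lev D hs hF
  have hW : D.lev F ≤ χ.ker := (D.lev_antitone hle).trans hle₀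
  let bb : Class.fixedSubgroup (Γ ⧸ D.lev F) ↥(fixU (Ω := Ω) (D.lev F)) :=
    ⟨⟨b, fun g _ => hb g⟩, fun q => by
      induction q using QuotientGroup.induction_on with | H g => ?_
      exact Subtype.ext (Units.ext (hb g))⟩
  have hcls : Class.carryH2 (chiQ hW) bb = 1 := by
    refine (Class.cls_eq_one_iff _).2
      ⟨fun q => ⟨f (Quotient.out q), hval ⟨_, Subgroup.mem_top _⟩⟩, funext fun ⟨q, q'⟩ => ?_⟩
    induction q using QuotientGroup.induction_on with | H g => ?_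
    induction q' using QuotientGroup.induction_on with | H g' => ?_
    have hout : ∀ x : Γ, f (Quotient.out (QuotientGroup.mk x : Γ ⧸ D.lev F)) = f x := fun x =>
      hconst ⟨_, Subgroup.mem_top _⟩ ⟨x, Subgroup.mem_top _⟩
        (QuotientGroup.eq.1 (QuotientGroup.out_eq' _))
    refine Subtype.ext (Units.ext ?_)
    simp only [Class.delta1_apply, Subgroup.coe_mul, Units.val_mul, Subgroup.coe_div,
      Units.val_div_eq_div_val, coe_mk_smul, ← QuotientGroup.mk_mul, hout, hδ,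
      Class.carryZ2_apply, SubgroupClass.coe_pow, Units.val_pow_eq_pow_val]
    rfl
  obtain ⟨y, hy, hyN⟩ := Class.exists_norm_of_carryH2_eq_one (χ := chiQ hW)
    (σ := QuotientGroup.mk σ) hσ
    (h1Triv_fixU (fun g hg => D.faithful F hg) _).kill bb hcls
  refine ⟨y, fun k hk => ?_, ?_⟩
  · have := congrArg (fun u : ↥(fixU (Ω := Ω) (D.lev F)) => ((u : Ωˣ) : Ω))
      (hy (QuotientGroup.mk k) hk)
    exact this
  · have := congrArg (fun u : ↥(fixU (Ω := Ω) (D.lev F)) => ((u : Ωˣ) : Ω)) hyN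
    simp only [Class.normPow, SubmonoidClass.coe_finsetProd, Units.coe_prod, coe_pow_smul,
      pow_one] at this
    exact this

include D hχ hσ in
/-- Norms from the kernel of `χ` give trivial classes. -/
theorem exists_cochain_of_norm {b : Ωˣ} (hb : ∀ g : Γ, g • (b : Ω) = b) {y : Ωˣ}
    (hy : ∀ k ∈ χ.ker, k • (y : Ω) = y)
    (hN : ∏ i ∈ Finset.range m, σ ^ i • (y : Ω) = b) :
    ∃ f : Γ → Ωˣ, IsConst₁ Levels.all D.r f ∧
      ∀ s t, s • (f t : Ω) / f (s * t) * f s = (b : Ω) ^ Class.carry χ s t := by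
  obtain ⟨F₀, hF₀, hle₀⟩ := hχ
  obtain ⟨F, hF, hs, hle⟩ := exists_normal F₀ hF₀
  have := normal_lev D hs
  have := finiteIndex_lev D hs hF
  have hW : D.lev F ≤ χ.ker := (D.lev_antitone hle).trans hle₀
  let bb : Class.fixedSubgroup (Γ ⧸ D.lev F) ↥(fixU (Ω := Ω) (D.lev F)) :=
    ⟨⟨b, fun g _ => hb g⟩, fun q => by
      induction q using QuotientGroup.induction_on with | H g => ?_
      exact Subtype.ext (Units.ext (hb g))⟩
  let yy : ↥(fixU (Ω := Ω) (D.lev F)) := ⟨y, fun k hk => hy k (hW hk)⟩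
  have hcls := Class.carryH2_eq_one_of_norm (χ := chiQ hW) (σ := QuotientGroup.mk σ) hσ bb
    (y := yy) (fun q hq => by
      induction q using QuotientGroup.induction_on with | H g => ?_
      exact Subtype.ext (Units.ext (hy g hq)))
    (Subtype.ext (Units.ext (by
      simp only [Class.normPow, SubmonoidClass.coe_finsetProd, Units.coe_prod, coe_pow_smul]
      exact hN)))
  obtain ⟨x, hx⟩ := (Class.cls_eq_one_iff _).1 hcls
  refine ⟨fun g => (x (QuotientGroup.mk g) : Ωˣ), ⟨F, hF, fun g k hk => ?_⟩, fun s t => ?_⟩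
  · simp only [QuotientGroup.mk_mul_of_mem g (show k ∈ D.lev F from hk)]
  · have := congrArg (fun u : ↥(fixU (Ω := Ω) (D.lev F)) => ((u : Ωˣ) : Ω))
      (congrFun hx (QuotientGroup.mk s, QuotientGroup.mk t))
    simp only [Class.delta1_apply, Subgroup.coe_mul, Units.val_mul, Subgroup.coe_div,
      Units.val_div_eq_div_val, coe_mk_smul, ← QuotientGroup.mk_mul,
      Class.carryZ2_apply, SubgroupClass.coe_pow, Units.val_pow_eq_pow_val] at this
    exact this

include D hχ hσ in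
/-- A class trivial on the kernel of `χ` is `b ∪ δχ`. -/
theorem exists_carry {c : Γ × Γ → Ωˣ} (hc : IsConst₂ Levels.all D.r c)
    (hco : ∀ g h j, (c (g * h, j) : Ω) * c (g, h) = g • (c (h, j) : Ω) * c (g, h * j))
    {g₀ : χ.ker → Ωˣ} (hg₀ : IsConst₁ Levels.all (D.r.comp χ.ker.subtype) g₀)
    (hres : ∀ s t : χ.ker, (c (s, t) : Ω) = (s : Γ) • (g₀ t : Ω) / g₀ (s * t) * g₀ s) :
    ∃ (b : Ωˣ) (f : Γ → Ωˣ), (∀ g : Γ, g • (b : Ω) = b) ∧ IsConst₁ Levels.all D.r f ∧
      ∀ s t, (c (s, t) : Ω) =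
        s • (f t : Ω) / f (s * t) * f s * (b : Ω) ^ Class.carry χ s t := by
  obtain ⟨F₀, hF₀, hle₀⟩ := hχ
  obtain ⟨F₁, hF₁, hs₁, hle₁, hval₁, hconst₁⟩ := D.exists_level₁ g₀ hg₀ F₀ hF₀
  obtain ⟨F, hF, hs, hle, hval, hconst⟩ := D.exists_level₂ c hc F₁ hF₁
  have := normal_lev D hs
  have := finiteIndex_lev D hs hF
  have hW : D.lev F ≤ χ.ker := (D.lev_antitone (hle₁.trans hle)).trans hle₀
  have hout : ∀ x : Γ, x⁻¹ * Quotient.out (QuotientGroup.mk x : Γ ⧸ D.lev F) ∈ D.lev F :=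
    fun x => QuotientGroup.eq.1 (QuotientGroup.out_eq' _).symm
  let d : Class.Z2 (Γ ⧸ D.lev F) ↥(fixU (Ω := Ω) (D.lev F)) :=
    ⟨fun p => ⟨c (Quotient.out p.1, Quotient.out p.2), hval _⟩, fun q q' q'' => by
      induction q using QuotientGroup.induction_on with | H g => ?_
      induction q' using QuotientGroup.induction_on with | H h => ?_
      induction q'' using QuotientGroup.induction_on with | H j => ?_
      refine Subtype.ext (Units.ext ?_)
      simp only [Subgroup.coe_mul, Units.val_mul, coe_mk_smul, ← QuotientGroup.mk_mul,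
        ← hconst _ _ _ _ (hout _) (hout _), hco]⟩
  have hker : ∀ k : (chiQ hW).ker, Quotient.out (k : Γ ⧸ D.lev F) ∈ χ.ker := fun k => by
    rw [MonoidHom.mem_ker, ← chiQ_mk hW, QuotientGroup.out_eq']
    exact k.2
  have hg₁ : ∀ v : χ.ker, g₀ v ∈ fixU (D.lev F) :=
    fun v k hk => hval₁ v k (D.lev_antitone hle hk)
  have hres' : Class.resH2 (chiQ hW).ker (Class.cls d) = 1 := by
    refine (Class.cls_eq_one_iff _).2
      ⟨fun k => ⟨g₀ ⟨_, hker k⟩, hg₁ _⟩, funext fun ⟨k, k'⟩ => Subtype.ext (Units.ext ?_)⟩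
    simp only [Class.delta1_apply, Subgroup.coe_mul, Units.val_mul, Subgroup.coe_div,
      Units.val_div_eq_div_val]
    refine Eq.trans ?_ (hres ⟨_, hker k⟩ ⟨_, hker k'⟩).symm
    congr 2
    · congr 1
      change ((((k : Γ ⧸ D.lev F) • _ : ↥(fixU (Ω := Ω) (D.lev F))) : Ωˣ) : Ω) = _
      conv_lhs => rw [← QuotientGroup.out_eq' (k : Γ ⧸ D.lev F), coe_mk_smul]
    · refine congrArg (fun u : Ωˣ => (u : Ω)) (hconst₁ _ _ (D.lev_antitone hle ?_))
      refine QuotientGroup.eq.1 ?_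
      simp only [Subgroup.coe_mul, QuotientGroup.mk_mul, QuotientGroup.out_eq']
  obtain ⟨bb, hbb⟩ := Class.exists_carryH2_eq (χ := chiQ hW) (σ := QuotientGroup.mk σ) hσ
    (h1Triv_fixU (fun g hg => D.faithful F hg) _).kill (Class.cls d) hres'
  rw [pow_one, Class.carryH2_eq, Class.cls_eq_cls_iff] at hbb
  obtain ⟨x, hx⟩ := hbb
  refine ⟨((bb : ↥(fixU (Ω := Ω) (D.lev F))) : Ωˣ),
    fun g => ((x (QuotientGroup.mk g))⁻¹ : ↥(fixU (Ω := Ω) (D.lev F))), fun g => ?_,
    ⟨F, hF, fun g k hk => ?_⟩, fun s t => ?_⟩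
  · exact congrArg (fun u : ↥(fixU (Ω := Ω) (D.lev F)) => ((u : Ωˣ) : Ω))
      (bb.2 (QuotientGroup.mk g))
  · simp only [QuotientGroup.mk_mul_of_mem g (show k ∈ D.lev F from hk)]
  · have := congrArg (fun u : ↥(fixU (Ω := Ω) (D.lev F)) => ((u : Ωˣ) : Ω))
      (congrFun hx (QuotientGroup.mk s, QuotientGroup.mk t))
    simp only [Pi.mul_apply, Class.delta1_apply, Subgroup.coe_mul, Units.val_mul, Subgroup.coe_div,
      Units.val_div_eq_div_val, coe_mk_smul, ← QuotientGroup.mk_mul, d,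
      Class.carryZ2_apply, SubgroupClass.coe_pow, Units.val_pow_eq_pow_val,
      ← hconst _ _ _ _ (hout _) (hout _)] at this
    simp only [InvMemClass.coe_inv, Units.val_inv_eq_inv_val, smul_inv'']
    change _ = _ * (((bb : ↥(fixU (Ω := Ω) (D.lev F))) : Ωˣ) : Ω) ^
      Class.carry (chiQ hW) (QuotientGroup.mk s) (QuotientGroup.mk t)
    rw [this]
    have h1 : s • (((x (QuotientGroup.mk t) : ↥(fixU (Ω := Ω) (D.lev F))) : Ωˣ) : Ω) ≠ 0 :=
      (smul_ne_zero_iff_ne s).2 (Units.ne_zero _)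
    field_simp

end EmbData

end Fermat.Agent.CFT.Recip
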