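/-
The logarithm `theta`, the cyclotomic tower characters and the local symbol `phiLoc`.
-/
import Fermat.Agent.CFT.Setup
import Fermat.Agent.Galois.Cyclotomic
import Fermat.Prelude.Def_EllipticCurve_FrobeniusTrace
import Mathlib.RingTheory.ZMod.UnitsCyclic

set_option autoImplicit false

noncomputable section

namespace Fermat.Agent.CFT.Recip

open ExtCitation Fermat.Agent.CFT

variable {p : ℕ} [Fact p.Prime] (hp2 : p ≠ 2) {n : ℕ}

lemma neZeroPow (p : ℕ) [Fact p.Prime] (m : ℕ) : NeZero (p ^ m) :=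
  ⟨pow_ne_zero _ (Fact.out : p.Prime).ne_zero⟩

variable (p n) in
/-- The unit `1 + p`. -/
def gen : (ZMod (p ^ (n + 1)))ˣ :=
  ((ZMod.isUnit_iff_coprime (1 + p) (p ^ (n + 1))).2
    (Nat.Coprime.pow_right _ (Nat.coprime_add_self_left.2 (Nat.coprime_one_left p)))).unit

omit [Fact p.Prime] in
lemma val_gen : (gen p n : ZMod (p ^ (n + 1))) = 1 + (p : ZMod (p ^ (n + 1))) := by
  simp [gen]

include hp2 in
lemma orderOf_gen : orderOf (gen p n) = p ^ n := by
  rw [← orderOf_units, val_gen]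
  exact ZMod.orderOf_one_add_prime Fact.out hp2 n

include hp2 in
lemma mem_powers_gen (u : (ZMod (p ^ (n + 1)))ˣ) : ∃ i : ℕ, u ^ (p - 1) = gen p n ^ i := by
  have := neZeroPow p (n + 1)
  have hcyc := ZMod.isCyclic_units_of_prime_pow p Fact.out hp2 (n + 1)
  classical
  set s := (Finset.univ : Finset (ZMod (p ^ (n + 1)))ˣ).filter (fun x => x ^ p ^ n = 1) with hs
  have h1 : s.card ≤ p ^ n :=
    IsCyclic.card_pow_eq_one_le (pow_pos (Fact.out : p.Prime).pos n)
  set t := (Finset.range (p ^ n)).image (fun i => gen p n ^ i) with ht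
  have h2 : t.card = p ^ n := by
    rw [ht, Finset.card_image_of_injOn, Finset.card_range]
    intro a ha b hb
    rw [← orderOf_gen hp2 (n := n)] at ha hb
    exact pow_injOn_Iio_orderOf (by simpa using ha) (by simpa using hb)
  have h3 : t ⊆ s := by
    intro x hx
    obtain ⟨i, _, rfl⟩ := Finset.mem_image.1 hx
    rw [hs, Finset.mem_filter]
    refine ⟨Finset.mem_univ _, ?_⟩
    rw [← pow_mul, mul_comm, pow_mul, ← orderOf_gen hp2 (n := n), pow_orderOf_eq_one, one_pow]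
  have h4 : t = s := Finset.eq_of_subset_of_card_le h3 (by omega)
  have h5 : u ^ (p - 1) ∈ t := by
    rw [h4, hs, Finset.mem_filter]
    refine ⟨Finset.mem_univ _, ?_⟩
    rw [← pow_mul, show (p - 1) * p ^ n = (p ^ (n + 1)).totient by
      rw [Nat.totient_prime_pow_succ (Fact.out : p.Prime), mul_comm]]
    exact ZMod.pow_totient u
  obtain ⟨i, _, hi⟩ := Finset.mem_image.1 h5
  exact ⟨i, hi.symm⟩

include hp2 in
lemma theta_eq {u : (ZMod (p ^ (n + 1)))ˣ} {i : ℕ} (h : u ^ (p - 1) = gen p n ^ i) :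
    theta p n u = (i : ZMod (p ^ n)) := by
  have hex : ∃ j : ℕ, (u : ZMod (p ^ (n + 1))) ^ (p - 1) = (1 + (p : ZMod (p ^ (n + 1)))) ^ j :=
    ⟨i, by rw [← val_gen, ← Units.val_pow_eq_pow_val, h, Units.val_pow_eq_pow_val]⟩
  rw [theta, dif_pos hex, ZMod.natCast_eq_natCast_iff]
  have hj := hex.choose_spec
  have hj' : u ^ (p - 1) = gen p n ^ hex.choose := Units.ext (by simpa [val_gen] using hj)
  rw [h, pow_eq_pow_iff_modEq, orderOf_gen hp2] at hj'
  exact hj'.symm

include hp2 in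
lemma theta_mul (u v : (ZMod (p ^ (n + 1)))ˣ) :
    theta p n (u * v) = theta p n u + theta p n v := by
  obtain ⟨i, hi⟩ := mem_powers_gen hp2 u
  obtain ⟨j, hj⟩ := mem_powers_gen hp2 v
  rw [theta_eq hp2 hi, theta_eq hp2 hj, theta_eq hp2 (i := i + j)
    (by rw [mul_pow, hi, hj]; exact (pow_add _ _ _).symm), Nat.cast_add]

include hp2 in
lemma theta_one : theta p n 1 = 0 := by
  simpa using theta_eq hp2 (n := n) (u := 1) (i := 0) (by simp)

include hp2 in
lemma theta_eq_zero_iff (u : (ZMod (p ^ (n + 1)))ˣ) : theta p n u = 0 ↔ u ^ (p - 1) = 1 := by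
  obtain ⟨i, hi⟩ := mem_powers_gen hp2 u
  rw [theta_eq hp2 hi, hi, ZMod.natCast_eq_zero_iff, ← orderOf_gen hp2 (n := n),
    orderOf_dvd_iff_pow_eq_one]

include hp2 in
lemma theta_gen : theta p n (gen p n) = (p - 1 : ℕ) := theta_eq hp2 rfl

include hp2 in
lemma theta_pow (u : (ZMod (p ^ (n + 1)))ˣ) (k : ℕ) : theta p n (u ^ k) = k * theta p n u := by
  induction k with
  | zero => simp [theta_one hp2]
  | succ k ih => rw [pow_succ, theta_mul hp2, ih]; push_cast; ring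

include hp2 in
/-- `theta` is onto. -/
lemma theta_surjective : Function.Surjective (theta p n) := by
  intro x
  have := neZeroPow p n
  have hu : IsUnit ((p - 1 : ℕ) : ZMod (p ^ n)) := (ZMod.isUnit_iff_coprime _ _).2
    (Nat.Coprime.pow_right _ (Nat.coprime_of_lt_prime (Nat.sub_ne_zero_of_lt (Fact.out : p.Prime).one_lt)
      (Nat.sub_lt (Fact.out : p.Prime).pos one_pos) Fact.out).symm)
  obtain ⟨c, hc⟩ := hu
  refine ⟨gen p n ^ (x * ↑c⁻¹ : ZMod (p ^ n)).val, ?_⟩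
  rw [theta_pow hp2, theta_gen hp2, ZMod.natCast_zmod_val, ← hc, Units.inv_mul_cancel_right]

include hp2 in
/-- Compatibility between levels. -/
lemma theta_castHom {m : ℕ} (hmn : m ≤ n) (u : (ZMod (p ^ (n + 1)))ˣ) :
    theta p m (Units.map (ZMod.castHom (pow_dvd_pow p (by omega : m + 1 ≤ n + 1))
      (ZMod (p ^ (m + 1)))).toMonoidHom u) =
      ZMod.castHom (pow_dvd_pow p hmn) (ZMod (p ^ m)) (theta p n u) := by
  obtain ⟨i, hi⟩ := mem_powers_gen hp2 u
  rw [theta_eq hp2 hi, map_natCast]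
  refine theta_eq hp2 ?_
  rw [← map_pow, hi, map_pow]
  congr 1
  ext
  simp only [Units.coe_map, RingHom.toMonoidHom_eq_coe, MonoidHom.coe_coe, val_gen, map_add,
    map_one, map_natCast]

include hp2 in
/-- The tower characters are additive. -/
theorem tower_mul' (n : ℕ) (s t : GQ) : tower p n (s * t) = tower p n s + tower p n t := by
  rw [tower, tower, tower, map_mul, theta_mul hp2]

include hp2 in
lemma tower_one (n : ℕ) : tower p n (1 : GQ) = 0 := by rw [tower, map_one, theta_one hp2]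

include hp2 in
/-- The tower character as a homomorphism. -/
def towerHom (n : ℕ) : GQ →* Multiplicative (ZMod (p ^ n)) where
  toFun σ := Multiplicative.ofAdd (tower p n σ)
  map_one' := by rw [tower_one hp2]; rfl
  map_mul' s t := by rw [tower_mul' hp2]; rfl

lemma val_cyclo_spec (n : ℕ) (σ : GQ) {ζ : AlgebraicClosure ℚ} (hζ : ζ ^ p ^ (n + 1) = 1) :
    σ ζ = ζ ^ ((cyclo p n σ : (ZMod (p ^ (n + 1)))ˣ) : ZMod (p ^ (n + 1))).val := by
  have := neZeroPow p (n + 1)
  have h0 : ζ ≠ 0 := fun h => by simp [h, zero_pow (pow_ne_zero _ (Fact.out : p.Prime).ne_zero)] at hζ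
  exact modularCyclotomicCharacter.spec
    (L := AlgebraicClosure ℚ)
    (hn := HasEnoughRootsOfUnity.natCard_rootsOfUnity (AlgebraicClosure ℚ) (p ^ (n + 1)))
    (g := (σ : AlgebraicClosure ℚ ≃+* AlgebraicClosure ℚ)) (t := Units.mk0 ζ h0)
    ((mem_rootsOfUnity' _ _).2 hζ)

lemma cyclo_eq_of_apply (n : ℕ) (σ : GQ) {c : ZMod (p ^ (n + 1))}
    (h : ∀ ζ : AlgebraicClosure ℚ, ζ ^ p ^ (n + 1) = 1 → σ ζ = ζ ^ c.val) :
    ((cyclo p n σ : (ZMod (p ^ (n + 1)))ˣ) : ZMod (p ^ (n + 1))) = c := by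
  have := neZeroPow p (n + 1)
  exact (modularCyclotomicCharacter.unique (AlgebraicClosure ℚ) _ _ fun t ht =>
    h _ ((mem_rootsOfUnity' _ _).1 ht)).symm

/-- The cyclotomic field of level `n`. -/
def cycField (p n : ℕ) : IntermediateField ℚ (AlgebraicClosure ℚ) :=
  IntermediateField.adjoin ℚ {ζ | ζ ^ p ^ (n + 1) = 1}

lemma finiteDimensional_cycField (p n : ℕ) [Fact p.Prime] : FiniteDimensional ℚ (cycField p n) := by
  have hfin : {ζ : AlgebraicClosure ℚ | ζ ^ p ^ (n + 1) = 1}.Finite := by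
    refine ((Polynomial.nthRoots (p ^ (n + 1)) (1 : AlgebraicClosure ℚ)).toFinset.finite_toSet).subset
      fun ζ hζ => ?_
    simpa [Polynomial.mem_nthRoots (pow_pos (Fact.out : p.Prime).pos _)] using hζ
  have := hfin.to_subtype
  exact IntermediateField.finiteDimensional_adjoin fun x _ => Algebra.IsIntegral.isIntegral x

lemma cyclo_eq_one_of_mem {n : ℕ} {s : GQ} (hs : s ∈ (cycField p n).fixingSubgroup) :
    cyclo p n s = 1 := by
  have := neZeroPow p (n + 1)
  refine Units.ext (cyclo_eq_of_apply n s fun ζ hζ => ?_)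
  rw [(IntermediateField.mem_fixingSubgroup_iff _ _).1 hs ζ
    (IntermediateField.subset_adjoin ℚ _ hζ), Units.val_one, ZMod.val_one_eq_one_mod]
  exact (pow_one ζ).symm.trans (pow_eq_pow_mod 1 hζ)

variable (p) in
lemma cycField_unramified (n : ℕ) : (cycField p n).IsUnramifiedOutside {pPrime p} := by
  refine ⟨finiteDimensional_cycField p n, fun q hq A hA σ hσ => ?_⟩
  have hqp : ¬ (q : ℕ) ∣ p ^ (n + 1) := fun hd => hq (by
    rw [Finset.mem_singleton]
    exact Subtype.ext ((Nat.prime_dvd_prime_iff_eq q.2 Fact.out).1 (q.2.dvd_of_dvd_pow hd)))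
  rw [cycField, IntermediateField.mem_fixingSubgroup_iff]
  intro x hx
  induction hx using IntermediateField.adjoin_induction with
  | mem x hx => exact Fermat.Agent.Galois.inertia_apply_rootOfUnity hA q.2 hσ hqp hx
  | algebraMap r => exact σ.commutes r
  | add a b _ _ iha ihb => rw [map_add, iha, ihb]
  | inv a _ iha => rw [map_inv₀, iha]
  | mul a b _ _ iha ihb => rw [map_mul, iha, ihb]

include hp2 in
/-- The tower character has level `cycField`. -/
theorem tower_levelConst' (n : ℕ) :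
    ∃ F : IntermediateField ℚ (AlgebraicClosure ℚ), F.IsUnramifiedOutside {pPrime p} ∧
      ∀ g s, s ∈ F.fixingSubgroup → tower p n (g * s) = tower p n g :=
  ⟨cycField p n, cycField_unramified p n, fun g s hs => by
    rw [tower_mul' hp2, tower, tower, cyclo_eq_one_of_mem hs, theta_one hp2, add_zero]⟩

/-! ### The symbol -/

variable (p) in
/-- The image of `q ≠ p` in the units modulo `p ^ (n + 1)`. -/
def qUnit (n : ℕ) {q : Nat.Primes} (hq : (q : ℕ) ≠ p) : (ZMod (p ^ (n + 1)))ˣ :=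
  ((ZMod.isUnit_iff_coprime (q : ℕ) (p ^ (n + 1))).2
    (Nat.Coprime.pow_right _ ((Nat.coprime_primes q.2 Fact.out).2 hq))).unit

lemma val_qUnit (n : ℕ) {q : Nat.Primes} (hq : (q : ℕ) ≠ p) :
    (qUnit p n hq : ZMod (p ^ (n + 1))) = ((q : ℕ) : ZMod (p ^ (n + 1))) := by simp [qUnit]

lemma phiLoc_of_ne (n : ℕ) {q : Nat.Primes} (hq : (q : ℕ) ≠ p) (b : (ℚ_[(q : ℕ)])ˣ) :
    phiLoc p n q b = Padic.valuation (b : ℚ_[(q : ℕ)]) • theta p n (qUnit p n hq) := by
  simp only [phiLoc, dif_neg hq]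
  have hu : IsUnit ((q : ℕ) : ZMod (p ^ (n + 1))) := val_qUnit n hq ▸ (qUnit p n hq).isUnit
  rw [dif_pos hu]
  congr 2

lemma norm_unitPart {q : Nat.Primes} (b : (ℚ_[(q : ℕ)])ˣ) :
    ‖(b : ℚ_[(q : ℕ)]) * ((q : ℕ) : ℚ_[(q : ℕ)]) ^ (-Padic.valuation (b : ℚ_[(q : ℕ)]))‖ = 1 := by
  rw [norm_mul, norm_zpow, Padic.norm_p, Padic.norm_eq_zpow_neg_valuation b.ne_zero, inv_zpow',
    neg_neg, ← zpow_add₀ (by exact_mod_cast q.2.ne_zero), neg_add_cancel, zpow_zero]

/-- The unit part of an element of `ℚ_qˣ`. -/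
def unitPart {q : Nat.Primes} (b : (ℚ_[(q : ℕ)])ˣ) : ℤ_[(q : ℕ)]ˣ :=
  PadicInt.mkUnits (norm_unitPart b)

lemma val_unitPart {q : Nat.Primes} (b : (ℚ_[(q : ℕ)])ˣ) :
    ((unitPart b : ℤ_[(q : ℕ)]) : ℚ_[(q : ℕ)]) =
      (b : ℚ_[(q : ℕ)]) * ((q : ℕ) : ℚ_[(q : ℕ)]) ^ (-Padic.valuation (b : ℚ_[(q : ℕ)])) := rfl

lemma unitPart_mul {q : Nat.Primes} (a b : (ℚ_[(q : ℕ)])ˣ) :
    unitPart (a * b) = unitPart a * unitPart b := by
  refine Units.ext (Subtype.ext ?_)
  change ((unitPart (a * b) : ℤ_[(q : ℕ)]) : ℚ_[(q : ℕ)]) =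
    ((unitPart a : ℤ_[(q : ℕ)]) : ℚ_[(q : ℕ)]) * ((unitPart b : ℤ_[(q : ℕ)]) : ℚ_[(q : ℕ)])
  rw [val_unitPart, val_unitPart, val_unitPart, Units.val_mul,
    Padic.valuation_mul a.ne_zero b.ne_zero, neg_add, zpow_add₀ (by exact_mod_cast q.2.ne_zero)]
  ring

variable (p) in
/-- Reduction `ℤ_q → ℤ/p^(n+1)` for `q = p`. -/
def redP (n : ℕ) {q : Nat.Primes} (hq : (q : ℕ) = p) : ℤ_[(q : ℕ)] →+* ZMod (p ^ (n + 1)) :=
  (ZMod.castHom (dvd_of_eq (by rw [hq] : p ^ (n + 1) = (q : ℕ) ^ (n + 1))) _).comp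
    (PadicInt.toZModPow (n + 1))

lemma phiLoc_of_eq (n : ℕ) {q : Nat.Primes} (hq : (q : ℕ) = p) (b : (ℚ_[(q : ℕ)])ˣ) :
    phiLoc p n q b = - theta p n (Units.map (redP p n hq).toMonoidHom (unitPart b)) := by
  have := neZeroPow (q : ℕ) (n + 1)
  unfold phiLoc
  dsimp only
  rw [dif_pos hq, dif_pos (le_of_eq (norm_unitPart b))]
  have hw : (((PadicInt.toZModPow (n + 1) (unitPart b : ℤ_[(q : ℕ)])).val : ℕ) :
      ZMod (p ^ (n + 1))) = redP p n hq (unitPart b : ℤ_[(q : ℕ)]) := by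
    rw [redP, RingHom.comp_apply, ZMod.castHom_apply, ZMod.natCast_val]
  have hu : IsUnit (((PadicInt.toZModPow (n + 1) (unitPart b : ℤ_[(q : ℕ)])).val : ℕ) :
      ZMod (p ^ (n + 1))) := hw.symm ▸ (unitPart b).isUnit.map _
  refine (dif_pos hu).trans ?_
  exact congrArg (fun x => - theta p n x) (Units.ext (hu.unit_spec.trans hw))

include hp2 in
/-- The symbol is additive. -/
theorem phiLoc_mul' (n : ℕ) (q : Nat.Primes) (a b : (ℚ_[(q : ℕ)])ˣ) :
    phiLoc p n q (a * b) = phiLoc p n q a + phiLoc p n q b := by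
  by_cases hq : (q : ℕ) = p
  · rw [phiLoc_of_eq n hq, phiLoc_of_eq n hq, phiLoc_of_eq n hq, unitPart_mul, map_mul,
      theta_mul hp2, neg_add]
  · rw [phiLoc_of_ne n hq, phiLoc_of_ne n hq, phiLoc_of_ne n hq, Units.val_mul,
      Padic.valuation_mul a.ne_zero b.ne_zero, add_smul]

theorem phiLoc_natCast_eq_tower' (n : ℕ) {q : Nat.Primes} (hq : (q : ℕ) ≠ p)
    (A : ValuationSubring (AlgebraicClosure ℚ)) (hA : A.LiesOverPrime (q : ℕ)) {σ : GQ}
    (hσ : A.IsFrobeniusAt σ (q : ℕ)) (u : (ℚ_[(q : ℕ)])ˣ)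
    (hu : (u : ℚ_[(q : ℕ)]) = (q : ℕ)) : phiLoc p n q u = tower p n σ := by
  have := neZeroPow p (n + 1)
  rw [phiLoc_of_ne n hq, hu, Padic.valuation_natCast, padicValNat.self q.2.one_lt, Nat.cast_one,
    one_zsmul, tower]
  congr 1
  refine Units.ext ?_
  rw [val_qUnit]
  exact (Fermat.Agent.Galois.modularCyclotomicCharacter_frobenius hA q.2 hσ
    (fun hd => hq ((Nat.prime_dvd_prime_iff_eq q.2 Fact.out).1 (q.2.dvd_of_dvd_pow hd))) _).symm

section Product

variable (p)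

/-- The symbol of a rational number. -/
def phiRat (n : ℕ) (q : Nat.Primes) (b : ℚˣ) : ZMod (p ^ n) :=
  phiLoc p n q (Units.map (Rat.castHom ℚ_[(q : ℕ)]).toMonoidHom b)

variable {p}

include hp2 in
lemma phiRat_mul (n : ℕ) (q : Nat.Primes) (a b : ℚˣ) :
    phiRat p n q (a * b) = phiRat p n q a + phiRat p n q b := by
  rw [phiRat, map_mul, phiLoc_mul' hp2]; rfl

lemma valuation_castHom (q : Nat.Primes) (b : ℚˣ) :
    Padic.valuation ((Units.map (Rat.castHom ℚ_[(q : ℕ)]).toMonoidHom b : (ℚ_[(q : ℕ)])ˣ) :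
      ℚ_[(q : ℕ)]) = padicValRat (q : ℕ) (b : ℚ) :=
  Padic.valuation_ratCast _

include hp2 in
lemma phiRat_natPrime (n : ℕ) (r : Nat.Primes) (q : Nat.Primes) :
    phiRat p n q (Units.mk0 ((r : ℕ) : ℚ) (by exact_mod_cast r.2.ne_zero)) =
      if hq : (q : ℕ) = p then
        (if hr : (r : ℕ) = p then 0 else - theta p n (qUnit p n hr))
      else (if q = r then theta p n (qUnit p n hq) else 0) := by
  have := neZeroPow p (n + 1)
  rw [phiRat]
  set u := Units.map (Rat.castHom ℚ_[(q : ℕ)]).toMonoidHom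
    (Units.mk0 ((r : ℕ) : ℚ) (by exact_mod_cast r.2.ne_zero)) with hu
  have hval : (u : ℚ_[(q : ℕ)]) = ((r : ℕ) : ℚ_[(q : ℕ)]) := by simp [hu]
  have hv : Padic.valuation (u : ℚ_[(q : ℕ)]) = if q = r then 1 else 0 := by
    rw [hval, Padic.valuation_natCast]
    split_ifs with h
    · subst h; exact_mod_cast padicValNat.self q.2.one_lt
    · have := Fact.mk r.2
      exact_mod_cast padicValNat_primes fun he => h (Subtype.ext he)
  split_ifs with hq hr hr'
  · have hqr : q = r := Subtype.ext (hq.trans hr.symm)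
    rw [phiLoc_of_eq n hq]
    have hone : unitPart u = 1 := by
      refine Units.ext (Subtype.ext ?_)
      rw [val_unitPart, hv, if_pos hqr, hval, zpow_neg_one, hqr,
        mul_inv_cancel₀ (by exact_mod_cast r.2.ne_zero)]
      rfl
    rw [hone, map_one, theta_one hp2, neg_zero]
  · rw [phiLoc_of_eq n hq]
    congr 2
    refine Units.ext ?_
    have hne : ¬ q = r := fun he => hr (by rw [← he]; exact hq)
    have hc : (unitPart u : ℤ_[(q : ℕ)]) = ((r : ℕ) : ℤ_[(q : ℕ)]) := Subtype.ext (by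
      rw [val_unitPart, hv, if_neg hne, hval, neg_zero, zpow_zero, mul_one]
      rfl)
    rw [val_qUnit]
    change redP p n hq (unitPart u : ℤ_[(q : ℕ)]) = _
    rw [hc, map_natCast]
  · rw [phiLoc_of_ne n hq, hv, if_pos hr', one_zsmul]
  · rw [phiLoc_of_ne n hq, hv, if_neg hr', zero_zsmul]

include hp2 in
lemma phiRat_neg_one (n : ℕ) (q : Nat.Primes) : phiRat p n q (-1) = 0 := by
  have h2 : phiRat p n q 1 = 0 := by
    have h1 := phiRat_mul hp2 n q 1 1
    rw [mul_one] at h1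
    simpa using h1
  have h3 := phiRat_mul hp2 n q (-1) (-1)
  rw [neg_mul_neg, mul_one, h2, ← two_mul] at h3
  have hu : IsUnit (2 : ZMod (p ^ n)) := by
    have h := (ZMod.isUnit_iff_coprime 2 (p ^ n)).2
      (Nat.Coprime.pow_right _ ((Nat.coprime_primes Nat.prime_two Fact.out).2 hp2.symm))
    simpa using h
  exact hu.mul_right_eq_zero.1 h3.symm

include hp2 in
lemma phiRat_product_nat (n : ℕ) (m : ℕ) (hm : (m : ℚ) ≠ 0) (T : Finset Nat.Primes)
    (hp : pPrime p ∈ T) (hT : ∀ q : Nat.Primes, q ∉ T → ¬ (q : ℕ) ∣ m) :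
    ∑ q ∈ T, phiRat p n q (Units.mk0 (m : ℚ) hm) = 0 := by
  induction m using Nat.recOnMul generalizing T with
  | zero => simp at hm
  | one =>
    refine Finset.sum_eq_zero fun q _ => ?_
    have h1 := phiRat_mul hp2 n q 1 1
    rw [mul_one] at h1
    convert (by simpa using h1 : phiRat p n q 1 = 0) using 2
    ext; simp
  | prime r hr =>
    obtain ⟨R, rfl⟩ : ∃ R : Nat.Primes, (R : ℕ) = r := ⟨⟨r, hr⟩, rfl⟩
    have hRT : R ∈ T := by
      by_contra h; exact hT _ h dvd_rfl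
    rw [Finset.sum_congr rfl fun q _ => phiRat_natPrime hp2 n R q,
      ← Finset.add_sum_erase _ _ hp, dif_pos (pPrime_coe p)]
    by_cases hRp : (R : ℕ) = p
    · rw [dif_pos hRp, zero_add]
      refine Finset.sum_eq_zero fun q hq => ?_
      have hqp : (q : ℕ) ≠ p := fun h => (Finset.mem_erase.1 hq).1 (Subtype.ext h)
      rw [dif_neg hqp, if_neg fun h => hqp (by rw [h]; exact hRp)]
    · rw [dif_neg hRp, Finset.sum_eq_single R, dif_neg hRp, if_pos rfl, neg_add_cancel]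
      · intro q hq hne
        have hqp : ¬ (q : ℕ) = p := fun h => (Finset.mem_erase.1 hq).1 (Subtype.ext h)
        rw [dif_neg hqp, if_neg hne]
      · intro h
        exact absurd (Finset.mem_erase.2 ⟨fun he => hRp (congrArg Subtype.val he), hRT⟩) h
  | mul a b iha ihb =>
    have ha : (a : ℚ) ≠ 0 := fun h => hm (by push_cast; rw [h, zero_mul])
    have hb : (b : ℚ) ≠ 0 := fun h => hm (by push_cast; rw [h, mul_zero])
    have he : Units.mk0 ((a * b : ℕ) : ℚ) hm = Units.mk0 (a : ℚ) ha * Units.mk0 (b : ℚ) hb := by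
      ext; simp
    simp only [he, phiRat_mul hp2, Finset.sum_add_distrib]
    rw [iha ha T hp (fun q hq hd => hT q hq (dvd_mul_of_dvd_left hd b)),
      ihb hb T hp (fun q hq hd => hT q hq (dvd_mul_of_dvd_right hd a)), add_zero]

include hp2 in
/-- Product formula. -/
theorem phiLoc_product' (n : ℕ) (b : ℚˣ) (T : Finset Nat.Primes) (hp : pPrime p ∈ T)
    (hT : ∀ q ∉ T, padicValRat (q : ℕ) (b : ℚ) = 0) :
    ∑ q ∈ T, phiLoc p n q (Units.map (Rat.castHom ℚ_[(q : ℕ)]).toMonoidHom b) = 0 := by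
  change ∑ q ∈ T, phiRat p n q b = 0
  have hden : ((b : ℚ).den : ℚ) ≠ 0 := by exact_mod_cast (b : ℚ).den_nz
  have hnum : (((b : ℚ).num.natAbs : ℕ) : ℚ) ≠ 0 := by
    exact_mod_cast Int.natAbs_ne_zero.2 (Rat.num_ne_zero.2 b.ne_zero)
  have hdiv : ∀ q : Nat.Primes, q ∉ T →
      ¬ (q : ℕ) ∣ (b : ℚ).num.natAbs ∧ ¬ (q : ℕ) ∣ (b : ℚ).den := by
    intro q hq
    have h := hT q hq
    have := Fact.mk q.2
    rw [padicValRat_def, padicValInt] at h
    have hco := (b : ℚ).reduced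
    have key : ∀ x y : ℕ, Nat.Coprime x y → x ≠ 0 →
        padicValNat (q : ℕ) x = padicValNat (q : ℕ) y → ¬ (q : ℕ) ∣ x := by
      intro x y hxy hx he hd
      have h1 : 1 ≤ padicValNat (q : ℕ) x := one_le_padicValNat_of_dvd hx hd
      have h2 : (q : ℕ) ∣ y := dvd_of_one_le_padicValNat (he ▸ h1)
      exact q.2.one_lt.ne' (Nat.dvd_one.1 (hxy ▸ Nat.dvd_gcd hd h2))
    have he : padicValNat (q : ℕ) (b : ℚ).num.natAbs = padicValNat (q : ℕ) (b : ℚ).den := by
      omega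
    exact ⟨key _ _ hco (Int.natAbs_ne_zero.2 (Rat.num_ne_zero.2 b.ne_zero)) he,
      key _ _ hco.symm (b : ℚ).den_nz he.symm⟩
  have hn := phiRat_product_nat hp2 n _ hnum T hp fun q hq => (hdiv q hq).1
  have hd := phiRat_product_nat hp2 n _ hden T hp fun q hq => (hdiv q hq).2
  have hsplit : b * Units.mk0 ((b : ℚ).den : ℚ) hden = Units.mk0 _ hnum ∨
      b * Units.mk0 ((b : ℚ).den : ℚ) hden = -1 * Units.mk0 _ hnum := by
    have h := Rat.mul_den_eq_num (q := (b : ℚ))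
    rcases Int.natAbs_eq (b : ℚ).num with h' | h'
    · left; refine Units.ext ?_
      rw [h'] at h; simpa using h
    · right; refine Units.ext ?_
      rw [h'] at h; simpa using h
  have hs : ∀ q, phiRat p n q b + phiRat p n q (Units.mk0 ((b : ℚ).den : ℚ) hden) =
      phiRat p n q (Units.mk0 _ hnum) := by
    intro q
    rcases hsplit with h | h <;> rw [← phiRat_mul hp2, h]
    rw [phiRat_mul hp2, phiRat_neg_one hp2, zero_add]
  have := Finset.sum_congr (s₁ := T) rfl fun q _ => hs q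
  rwa [Finset.sum_add_distrib, hd, hn, add_zero] at this

end Product

end Fermat.Agent.CFT.Recip
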