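/-
The local Galois groups seen through the tower characters.
-/
import Fermat.Agent.CFT.Recip.Theta
import Fermat.Agent.CFT.Recip.FiniteLevel
import Fermat.Agent.CFT.LocalInst.Fields
import Fermat.Agent.CFT.Local.UnrClass

set_option autoImplicit false

noncomputable section

namespace Fermat.Agent.CFT.Recip

open ExtCitation Fermat.Agent.CFT Fermat.Agent.CFT.Local

/-- The local Galois group acts on `Omega q`. -/
scoped instance locMSA (q : Nat.Primes) :
    MulSemiringAction (primeLocalGaloisGroup q) (Omega q) :=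
  inferInstanceAs (MulSemiringAction (LocalInst.Gq q) (Omega q))

/-- The local Galois group acts on units. -/
scoped instance locUnitsAct (q : Nat.Primes) :
    MulDistribMulAction (primeLocalGaloisGroup q) (Omega q)ˣ :=
  inferInstanceAs (MulDistribMulAction (LocalInst.Gq q) (Omega q)ˣ)

lemma val_locUnits_smul {q : Nat.Primes} (g : primeLocalGaloisGroup q) (u : (Omega q)ˣ) :
    ((g • u : (Omega q)ˣ) : Omega q) = g • (u : Omega q) := rfl

/-- `locAct` as a homomorphism. -/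
def locActHom (q : Nat.Primes) : primeLocalGaloisGroup q →* LocalInst.Gq q where
  toFun := locAct q
  map_one' := rfl
  map_mul' _ _ := rfl

lemma locSmul_eq {q : Nat.Primes} (g : primeLocalGaloisGroup q) (x : Omega q) :
    g • x = locAct q g x := rfl

/-- The local data. -/
def locData (q : Nat.Primes) : EmbData (primeLocalGaloisGroup q) (Omega q) where
  r := primeLocalToGlobal q
  ι := (padicEmbedding (q : ℕ)).toRingHom
  comm g x := (LocalInst.apply_padicEmbedding g x).symm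
  smooth a := by
    have hfd : FiniteDimensional ℚ_[(q : ℕ)] (IntermediateField.adjoin ℚ_[(q : ℕ)] ({a} : Set (Omega q))) :=
      IntermediateField.adjoin.finiteDimensional (Algebra.IsIntegral.isIntegral a)
    obtain ⟨F, hF, hle⟩ :=
      LocalInst.isLevel_fixingSubgroup (IntermediateField.adjoin ℚ_[(q : ℕ)] ({a} : Set (Omega q)))
    exact ⟨F, hF, fun g hg => (IntermediateField.mem_fixingSubgroup_iff _ _).1 (hle g hg) a
      (IntermediateField.mem_adjoin_simple_self _ a)⟩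

lemma natCast_lt_one_iff {q : ℕ} [Fact q.Prime] (z : ℤ) :
    ‖(z : ℚ_[q])‖ < 1 ↔ (q : ℤ) ∣ z := Padic.norm_intCast_lt_one_iff

/-- The residue field of `ℚ_q` has `q` elements. -/
lemma resCard_padic (q : ℕ) [Fact q.Prime] : resCard ℚ_[q] = q := by
  have : NeZero q := ⟨(Fact.out : q.Prime).ne_zero⟩
  let φ : ZMod q → IsLocalRing.ResidueField (intRing ℚ_[q]) := fun i =>
    IsLocalRing.residue (intRing ℚ_[q]) (i.val : intRing ℚ_[q])
  have hinj : Function.Injective φ := by
    intro i j hij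
    rw [residue_intRing_eq_iff] at hij
    push_cast at hij
    have : ‖(((i.val : ℤ) - (j.val : ℤ) : ℤ) : ℚ_[q])‖ < 1 := by push_cast; exact hij
    rw [natCast_lt_one_iff, ← ZMod.intCast_zmod_eq_zero_iff_dvd] at this
    push_cast at this
    rwa [ZMod.natCast_zmod_val, ZMod.natCast_zmod_val, sub_eq_zero] at this
  have hsur : Function.Surjective φ := by
    intro r
    obtain ⟨x, rfl⟩ := IsLocalRing.residue_surjective r
    set z : ℤ_[q] := ⟨(x : ℚ_[q]), mem_intRing.1 x.2⟩ with hz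
    refine ⟨PadicInt.toZMod z, ?_⟩
    rw [residue_intRing_eq_iff]
    have h := PadicInt.toZMod_spec z
    rw [PadicInt.maximalIdeal_eq_span_p, Ideal.mem_span_singleton,
      ← PadicInt.norm_lt_one_iff_dvd, ← ZMod.natCast_val, ← norm_neg, neg_sub,
      PadicInt.norm_def, PadicInt.coe_sub, PadicInt.coe_natCast] at h
    exact_mod_cast h
  rw [resCard, ← Nat.card_congr (Equiv.ofBijective φ ⟨hinj, hsur⟩), Nat.card_zmod]

variable {p : ℕ} [Fact p.Prime] (hp2 : p ≠ 2)

lemma iota_cyclo (n : ℕ) (q : Nat.Primes) (g : primeLocalGaloisGroup q)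
    {ζ : AlgebraicClosure ℚ} (hζ : ζ ^ p ^ (n + 1) = 1) :
    locAct q g (padicEmbedding (q : ℕ) ζ) = padicEmbedding (q : ℕ) ζ ^
      ((cyclo p n (primeLocalToGlobal q g) : (ZMod (p ^ (n + 1)))ˣ) : ZMod (p ^ (n + 1))).val := by
  rw [← map_pow, ← val_cyclo_spec n _ hζ]
  exact LocalInst.apply_padicEmbedding g ζ

lemma cyclo_loc_eq (n : ℕ) (q : Nat.Primes) (g : primeLocalGaloisGroup q)
    {c : ZMod (p ^ (n + 1))}
    (h : ∀ x : Omega q, x ^ p ^ (n + 1) = 1 → locAct q g x = x ^ c.val) :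
    ((cyclo p n (primeLocalToGlobal q g) : (ZMod (p ^ (n + 1)))ˣ) : ZMod (p ^ (n + 1))) = c := by
  refine cyclo_eq_of_apply n _ fun ζ hζ => (padicEmbedding (q : ℕ)).injective ?_
  rw [map_pow, ← h _ (by rw [← map_pow, hζ, map_one])]
  exact (LocalInst.apply_padicEmbedding g ζ).symm

/-- The order of `q` modulo `p ^ (n + 1)`. -/
def qOrder (p n : ℕ) [Fact p.Prime] {q : Nat.Primes} (hq : (q : ℕ) ≠ p) : ℕ :=
  orderOf (qUnit p n hq)

lemma neZero_qOrder (n : ℕ) {q : Nat.Primes} (hq : (q : ℕ) ≠ p) : NeZero (qOrder p n hq) :=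
  have := neZeroPow p (n + 1)
  ⟨(orderOf_pos (qUnit p n hq)).ne'⟩

lemma dvd_rootOrder (n : ℕ) {q : Nat.Primes} (hq : (q : ℕ) ≠ p) :
    p ^ (n + 1) ∣ rootOrder ℚ_[(q : ℕ)] (qOrder p n hq) := by
  rw [rootOrder, resCard_padic, ← Nat.modEq_iff_dvd' (Nat.one_le_pow _ _ q.2.pos),
    ← ZMod.natCast_eq_natCast_iff, Nat.cast_one, Nat.cast_pow, ← val_qUnit n hq,
    ← Units.val_pow_eq_pow_val, qOrder, pow_orderOf_eq_one, Units.val_one]

/-- The unramified character at `q ≠ p` computing the cyclotomic character. -/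
def qChar (p n : ℕ) [Fact p.Prime] {q : Nat.Primes} (hq : (q : ℕ) ≠ p) :
    primeLocalGaloisGroup q →* Multiplicative (ZMod (qOrder p n hq)) :=
  haveI := neZero_qOrder n hq
  (unrChar ℚ_[(q : ℕ)] (Omega q) (qOrder p n hq)).comp (locActHom q)

lemma apply_root (q : Nat.Primes) (m : ℕ) [NeZero m] (g : primeLocalGaloisGroup q) {x : Omega q}
    (hx : x ^ rootOrder ℚ_[(q : ℕ)] m = 1) :
    locAct q g x = x ^ resCard ℚ_[(q : ℕ)] ^
      Class.cval (unrChar ℚ_[(q : ℕ)] (Omega q) m) (locAct q g) :=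
  apply_root_of_unrChar (locAct q g) hx

lemma qChar_apply (n : ℕ) {q : Nat.Primes} (hq : (q : ℕ) ≠ p) [NeZero (qOrder p n hq)]
    (g : primeLocalGaloisGroup q) :
    qChar p n hq g = unrChar ℚ_[(q : ℕ)] (Omega q) (qOrder p n hq) (locAct q g) := rfl

lemma apply_root_qChar (n : ℕ) {q : Nat.Primes} (hq : (q : ℕ) ≠ p) (g : primeLocalGaloisGroup q)
    {x : Omega q} (hx : x ^ p ^ (n + 1) = 1) :
    locAct q g x = x ^ (q : ℕ) ^ Class.cval (qChar p n hq) g := by
  have := neZero_qOrder n hq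
  obtain ⟨d, hd⟩ := dvd_rootOrder n hq
  have hroot : x ^ rootOrder ℚ_[(q : ℕ)] (qOrder p n hq) = 1 := by rw [hd, pow_mul, hx, one_pow]
  rw [apply_root q (qOrder p n hq) g hroot, resCard_padic]
  simp only [Class.cval, qChar_apply]

lemma cyclo_loc_of_ne (n : ℕ) {q : Nat.Primes} (hq : (q : ℕ) ≠ p)
    (g : primeLocalGaloisGroup q) :
    cyclo p n (primeLocalToGlobal q g) = qUnit p n hq ^ Class.cval (qChar p n hq) g := by
  have := neZeroPow p (n + 1)
  refine Units.ext (cyclo_loc_eq n q g fun x hx => ?_)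
  rw [apply_root_qChar n hq g hx, Units.val_pow_eq_pow_val, val_qUnit, ← Nat.cast_pow,
    ZMod.val_natCast]
  exact pow_eq_pow_mod _ hx

include hp2 in
lemma tower_loc_of_ne (n : ℕ) {q : Nat.Primes} (hq : (q : ℕ) ≠ p)
    (g : primeLocalGaloisGroup q) :
    tower p n (primeLocalToGlobal q g) =
      (Class.cval (qChar p n hq) g : ℕ) * theta p n (qUnit p n hq) := by
  rw [tower, cyclo_loc_of_ne n hq, theta_pow hp2]

lemma exists_cval_qChar_eq_one (n : ℕ) {q : Nat.Primes} (hq : (q : ℕ) ≠ p) :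
    ∃ σ : primeLocalGaloisGroup q, qChar p n hq σ = Multiplicative.ofAdd 1 := by
  have := neZero_qOrder n hq
  obtain ⟨σ, -, h⟩ := exists_unrChar_eq_one (K := ℚ_[(q : ℕ)]) (Ω := Omega q) (n := qOrder p n hq)
  exact ⟨(σ : primeLocalGaloisGroup q), h⟩

lemma exists_tower_loc_of_ne (n : ℕ) {q : Nat.Primes} (hq : (q : ℕ) ≠ p) :
    ∃ σ : primeLocalGaloisGroup q,
      tower p n (primeLocalToGlobal q σ) = theta p n (qUnit p n hq) := by
  have := neZero_qOrder n hq
  obtain ⟨σ, hσ⟩ := exists_cval_qChar_eq_one n hq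
  refine ⟨σ, ?_⟩
  rw [tower, cyclo_loc_of_ne n hq]
  congr 1
  have : Class.cval (qChar p n hq) σ = 1 % qOrder p n hq := by
    simp only [Class.cval, hσ, toAdd_ofAdd, ZMod.val_one_eq_one_mod]
  rw [this, qOrder, pow_mod_orderOf, pow_one]

/-- At `p` the cyclotomic character is onto. -/
lemma exists_cyclo_loc_eq (n : ℕ) (u : (ZMod (p ^ (n + 1)))ˣ) :
    ∃ g : primeLocalGaloisGroup (pPrime p), cyclo p n (primeLocalToGlobal (pPrime p) g) = u := by
  have := neZeroPow p (n + 1)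
  obtain ⟨σ, hσ, hu⟩ := Fermat.Agent.Galois.exists_inertia_modularCyclotomicCharacter_eq
    (Fermat.Agent.Galois.padicPlace_liesOverPrime p) Fact.out (n + 1)
    (HasEnoughRootsOfUnity.natCard_rootsOfUnity (AlgebraicClosure ℚ) (p ^ (n + 1))) u
  have hd : σ ∈ (padicPlace p).decompositionSubgroup ℚ :=
    Fermat.Agent.Galois.inertia_le_decomposition _ hσ
  rw [← Fermat.Agent.Galois.localGaloisToGlobal_range] at hd
  obtain ⟨τ, hτ⟩ := hd
  refine ⟨τ, ?_⟩
  rw [← hu, ← hτ]
  rfl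

include hp2 in
lemma exists_tower_loc_self (n : ℕ) (x : ZMod (p ^ n)) :
    ∃ g : primeLocalGaloisGroup (pPrime p),
      tower p n (primeLocalToGlobal (pPrime p) g) = x := by
  obtain ⟨u, hu⟩ := theta_surjective hp2 (n := n) x
  obtain ⟨g, hg⟩ := exists_cyclo_loc_eq n u
  exact ⟨g, by rw [tower, hg, hu]⟩

end Fermat.Agent.CFT.Recip
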