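/-
A carry class of the cyclotomic tower which vanishes at `q` has trivial symbol.
-/
import Fermat.Agent.CFT.Recip.LocalData

set_option autoImplicit false

noncomputable section

namespace Fermat.Agent.CFT.Recip

open ExtCitation Fermat.Agent.CFT Fermat.Agent.CFT.Local

variable {p : ℕ} [Fact p.Prime] (hp2 : p ≠ 2)

/-- The tower character on the local group. -/
def locChar (n : ℕ) (q : Nat.Primes) :
    primeLocalGaloisGroup q →* Multiplicative (ZMod (p ^ n)) :=
  (towerHom hp2 n).comp (primeLocalToGlobal q)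

lemma cval_towerHom (n : ℕ) (s : GQ) : Class.cval (towerHom hp2 n) s = (tower p n s).val := rfl

include hp2 in
lemma carry_eq (n : ℕ) (s t : GQ) :
    CFT.carry p n (s, t) = Class.carry (towerHom hp2 n) s t := by
  have := neZeroPow p n
  have ha := ZMod.val_lt (tower p n s)
  have hb := ZMod.val_lt (tower p n t)
  rw [CFT.carry, Class.carry, cval_towerHom, cval_towerHom]
  dsimp only
  split_ifs with h
  · exact (Nat.div_eq_of_lt_le (by omega) (by omega)).symm
  · exact (Nat.div_eq_of_lt (by omega)).symm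

/-- The global data. -/
def globData : EmbData GQ (AlgebraicClosure ℚ) where
  r := MonoidHom.id GQ
  ι := RingHom.id _
  comm _ _ := rfl
  smooth a := ⟨IntermediateField.adjoin ℚ {a},
    IntermediateField.adjoin.finiteDimensional (Algebra.IsIntegral.isIntegral a),
    fun _ hg => (IntermediateField.mem_fixingSubgroup_iff _ _).1 hg a
      (IntermediateField.mem_adjoin_simple_self ℚ a)⟩

include hp2 in
lemma towerHom_level (n : ℕ) :
    (globData.lev (cycField p n)) ≤ (towerHom hp2 n).ker := by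
  intro s hs
  change Multiplicative.ofAdd (tower p n s) = 1
  rw [tower, cyclo_eq_one_of_mem (show s ∈ (cycField p n).fixingSubgroup from hs), theta_one hp2]
  rfl

include hp2 in
lemma locChar_level (n : ℕ) (q : Nat.Primes) :
    ((locData q).lev (cycField p n)) ≤ (locChar hp2 n q).ker :=
  fun _ hg => towerHom_level hp2 n hg

lemma fixed_algebraMap (q : Nat.Primes) (x : ℚ_[(q : ℕ)]) (g : primeLocalGaloisGroup q) :
    g • algebraMap ℚ_[(q : ℕ)] (Omega q) x = algebraMap ℚ_[(q : ℕ)] (Omega q) x :=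
  (locAct q g).commutes x

lemma norm_smul_loc (q : Nat.Primes) (g : primeLocalGaloisGroup q) (y : Omega q) :
    ‖g • y‖ = ‖y‖ :=
  congrArg NNReal.toReal (nnnorm_padicAlgCl_algEquiv (q : ℕ) (locAct q g) y)

lemma smul_root_eq (q : Nat.Primes) (m : ℕ) [NeZero m] {g : primeLocalGaloisGroup q}
    (hg : g ∈ (unrField ℚ_[(q : ℕ)] (Omega q) m).fixingSubgroup) {x : Omega q}
    (hx : x ^ rootOrder ℚ_[(q : ℕ)] m = 1) : locAct q g x = x :=
  (IntermediateField.mem_fixingSubgroup_iff _ _).1 hg x (mem_unrField hx)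

lemma mem_unrField_of_fixed (q : Nat.Primes) (m : ℕ) [NeZero m] {y : Omega q}
    (hy : ∀ g : primeLocalGaloisGroup q,
      g ∈ (unrField ℚ_[(q : ℕ)] (Omega q) m).fixingSubgroup → g • y = y) :
    y ∈ unrField ℚ_[(q : ℕ)] (Omega q) m := by
  rw [← InfiniteGalois.fixedField_fixingSubgroup (unrField ℚ_[(q : ℕ)] (Omega q) m)]
  exact (IntermediateField.mem_fixedField_iff _ _).2 fun g hg => hy g hg

lemma norm_prod_smul (q : Nat.Primes) (σ : primeLocalGaloisGroup q) (m : ℕ) (y : Omega q) :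
    ‖∏ i ∈ Finset.range m, σ ^ i • y‖ = ‖y‖ ^ m := by
  rw [norm_prod, Finset.prod_congr rfl fun i _ => norm_smul_loc q (σ ^ i) y, Finset.prod_const,
    Finset.card_range]

lemma exists_valuation_of_unr (q : Nat.Primes) (m : ℕ) [NeZero m] {y : Omega q} (hy0 : y ≠ 0)
    (hy : y ∈ unrField ℚ_[(q : ℕ)] (Omega q) m) :
    ∃ c : ℚ_[(q : ℕ)], c ≠ 0 ∧ ‖y‖ = ‖c‖ := by
  obtain ⟨c, hc, h⟩ := exists_norm_eq_base (x := (⟨y, hy⟩ : unrField ℚ_[(q : ℕ)] (Omega q) m))
    fun h => hy0 (congrArg Subtype.val h)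
  exact ⟨c, hc, h⟩

lemma mem_ker_qChar (n : ℕ) {q : Nat.Primes} (hq : (q : ℕ) ≠ p) [NeZero (qOrder p n hq)]
    {g : primeLocalGaloisGroup q}
    (hg : g ∈ (unrField ℚ_[(q : ℕ)] (Omega q) (qOrder p n hq)).fixingSubgroup) :
    g ∈ (qChar p n hq).ker := by
  rw [MonoidHom.mem_ker, qChar_apply]
  have h := cval_unrChar_unique (n := qOrder p n hq) (locAct q g) (i := 0) fun x hx => by
    rw [pow_zero, pow_one]; exact smul_root_eq q _ hg hx
  rw [Nat.zero_mod, Class.cval_eq_zero_iff, MonoidHom.mem_ker] at h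
  exact h

lemma valuation_eq_mul {q : Nat.Primes} {x c : ℚ_[(q : ℕ)]} (hx : x ≠ 0) (hc : c ≠ 0) {m : ℕ}
    (h : ‖x‖ = ‖c‖ ^ m) : Padic.valuation x = Padic.valuation c * m := by
  rw [Padic.norm_eq_zpow_neg_valuation hx, Padic.norm_eq_zpow_neg_valuation hc, ← zpow_natCast,
    ← zpow_mul] at h
  have := zpow_right_injective₀ (by exact_mod_cast q.2.pos)
    (by exact_mod_cast q.2.one_lt.ne') h
  linarith

include hp2 in
/-- The case `q ≠ p`. -/
theorem phiLoc_eq_zero_of_ne (n : ℕ) {q : Nat.Primes} (hq : (q : ℕ) ≠ p) (b : (ℚ_[(q : ℕ)])ˣ)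
    {f : primeLocalGaloisGroup q → (Omega q)ˣ}
    (hf : IsConst₁ Levels.all (primeLocalToGlobal q) f)
    (hδ : ∀ s t, locAct q s (f t) / f (s * t) * f s =
      algebraMap ℚ_[(q : ℕ)] (Omega q) b ^
        CFT.carry p n (primeLocalToGlobal q s, primeLocalToGlobal q t)) :
    phiLoc p n q b = 0 := by
  have := neZeroPow p n
  have := neZero_qOrder n hq
  set F := qOrder p n hq with hF
  set χ := locChar hp2 n q with hχdef
  set ψ : primeLocalGaloisGroup q →* Multiplicative (ZMod F) := qChar p n hq with hψdef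
  set t := (theta p n (qUnit p n hq)).val with ht
  have htF : ((F * t : ℕ) : ZMod (p ^ n)) = 0 := by
    rw [Nat.cast_mul, ht, ZMod.natCast_zmod_val, ← theta_pow hp2, hF, qOrder, pow_orderOf_eq_one,
      theta_one hp2]
  obtain ⟨d, hd⟩ := (ZMod.natCast_eq_zero_iff _ _).1 htF
  let a : Class.fixedSubgroup (primeLocalGaloisGroup q) (Omega q)ˣ :=
    ⟨Units.map (algebraMap ℚ_[(q : ℕ)] (Omega q)).toMonoidHom b,
      fun g => Units.ext (fixed_algebraMap q _ g)⟩
  have hcv : ∀ g, Class.cval χ g = (t * Class.cval ψ g) % p ^ n := fun g => by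
    change (tower p n (primeLocalToGlobal q g)).val = _
    rw [tower_loc_of_ne hp2 n hq, ← ZMod.natCast_zmod_val (theta p n (qUnit p n hq)), ← Nat.cast_mul,
      ZMod.val_natCast, mul_comm]
  have key := carry_change ψ χ t d hd hcv a
  let g₁ : primeLocalGaloisGroup q → (Omega q)ˣ := fun g =>
    f g * (Units.map (algebraMap ℚ_[(q : ℕ)] (Omega q)).toMonoidHom b) ^
      (t * Class.cval ψ g / p ^ n)
  have hψlev : ∃ F₀ : IntermediateField ℚ (AlgebraicClosure ℚ), FiniteDimensional ℚ F₀ ∧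
      (locData q).lev F₀ ≤ ψ.ker := by
    obtain ⟨F₀, hF₀, hle⟩ :=
      LocalInst.isLevel_fixingSubgroup (unrField ℚ_[(q : ℕ)] (Omega q) F)
    exact ⟨F₀, hF₀, fun g hg => mem_ker_qChar n hq (hle g hg)⟩
  have hg₁ : IsConst₁ Levels.all (primeLocalToGlobal q) g₁ := by
    obtain ⟨F₀, hF₀, hle⟩ := hψlev
    have h2 : IsConst₁ Levels.all (primeLocalToGlobal q) (Class.cval ψ) := by
      refine ⟨F₀, hF₀, fun g s hs => ?_⟩
      rw [Class.cval_mul, (Class.cval_eq_zero_iff ψ s).2 (hle hs), add_zero,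
        Nat.mod_eq_of_lt (Class.cval_lt ψ g)]
    exact (hf.prodMk h2).comp (fun z => z.1 *
      (Units.map (algebraMap ℚ_[(q : ℕ)] (Omega q)).toMonoidHom b) ^ (t * z.2 / p ^ n))
  obtain ⟨σ, hσ⟩ := exists_cval_qChar_eq_one n hq
  let B : (Omega q)ˣ := (Units.map (algebraMap ℚ_[(q : ℕ)] (Omega q)).toMonoidHom b) ^ d
  have hB : ∀ g : primeLocalGaloisGroup q, g • (B : Omega q) = B := fun g => by
    simp only [B, Units.val_pow_eq_pow_val, smul_pow']
    exact congrArg (· ^ d) (fixed_algebraMap q _ g)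
  obtain ⟨y, hy, hyN⟩ := (locData q).exists_norm (χ := ψ) hψlev hσ (b := B) hB hg₁ fun s u => by
    have h0 := hδ s u
    rw [carry_eq hp2] at h0
    change _ = _ ^ Class.carry χ s u at h0
    have hk := congrArg Units.val (congrFun key (s, u))
    simp only [Class.carryZ2_apply, Pi.mul_apply, Class.delta1_apply, Units.val_mul,
      Units.val_div_eq_div_val, Units.val_pow_eq_pow_val, SubgroupClass.coe_pow, val_locUnits_smul,
      smul_inv'', smul_pow', Units.val_inv_eq_inv_val, a, Units.coe_map, RingHom.toMonoidHom_eq_coe,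
      MonoidHom.coe_coe, fixed_algebraMap] at hk
    simp only [g₁, B, Units.val_mul, Units.val_pow_eq_pow_val, smul_mul', smul_pow', Units.coe_map,
      RingHom.toMonoidHom_eq_coe, MonoidHom.coe_coe, locSmul_eq, AlgEquiv.commutes]
    rw [hk] at h0
    have hne : algebraMap ℚ_[(q : ℕ)] (Omega q) b ≠ 0 := (map_ne_zero _).2 b.ne_zero
    have hf0 : (f (s * u) : Omega q) ≠ 0 := Units.ne_zero _
    field_simp at h0 ⊢
    linear_combination h0
  have hyu := mem_unrField_of_fixed q F (y := (y : Omega q)) fun g hg => hy g (mem_ker_qChar n hq hg)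
  obtain ⟨c, hc, hyc⟩ := exists_valuation_of_unr q F y.ne_zero hyu
  have hnorm : ‖(b : ℚ_[(q : ℕ)]) ^ d‖ = ‖c‖ ^ F := by
    rw [← hyc, ← norm_prod_smul q σ F, hyN]
    simp only [B, Units.val_pow_eq_pow_val, norm_pow, Units.coe_map, RingHom.toMonoidHom_eq_coe,
      MonoidHom.coe_coe, norm_algebraMap']
  have hval := valuation_eq_mul (pow_ne_zero d b.ne_zero) hc hnorm
  rw [Padic.valuation_pow] at hval
  have hmain : Padic.valuation (b : ℚ_[(q : ℕ)]) * t =
      Padic.valuation c * ((p ^ n : ℕ) : ℤ) := by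
    have hd' : (F : ℤ) * t = ((p ^ n : ℕ) : ℤ) * d := by exact_mod_cast hd
    have hF0 : (F : ℤ) ≠ 0 := by exact_mod_cast NeZero.ne F
    refine mul_right_cancel₀ hF0 ?_
    linear_combination (Padic.valuation (b : ℚ_[(q : ℕ)])) * hd' + ((p ^ n : ℕ) : ℤ) * hval
  have hz := congrArg (fun z : ℤ => (z : ZMod (p ^ n))) hmain
  simp only [Int.cast_mul, Int.cast_natCast, ZMod.natCast_self, mul_zero, ht,
    ZMod.natCast_zmod_val] at hz
  rw [phiLoc_of_ne n hq, zsmul_eq_mul]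
  exact hz

lemma phiLoc_congr (n : ℕ) {q : Nat.Primes} (hq : (q : ℕ) = p) {b b' : (ℚ_[(q : ℕ)])ˣ}
    (h : ‖(b' : ℚ_[(q : ℕ)]) - b‖ ≤
      ‖(b : ℚ_[(q : ℕ)])‖ * ((q : ℕ) : ℝ) ^ (-(n + 1 : ℕ) : ℤ)) :
    phiLoc p n q b' = phiLoc p n q b := by
  have hq1 : (1 : ℝ) < ((q : ℕ) : ℝ) := by exact_mod_cast q.2.one_lt
  have hb0 : (0 : ℝ) < ‖(b : ℚ_[(q : ℕ)])‖ := norm_pos_iff.2 b.ne_zero
  have hlt : ‖(b' : ℚ_[(q : ℕ)]) - b‖ < ‖(b : ℚ_[(q : ℕ)])‖ := by
    refine h.trans_lt ?_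
    calc _ < ‖(b : ℚ_[(q : ℕ)])‖ * 1 := by
          gcongr
          exact zpow_lt_one_of_neg₀ hq1 (by omega)
      _ = _ := mul_one _
  have hn : ‖(b' : ℚ_[(q : ℕ)])‖ = ‖(b : ℚ_[(q : ℕ)])‖ := by
    rw [← sub_add_cancel (b' : ℚ_[(q : ℕ)]) b, IsUltrametricDist.norm_add_eq_max_of_norm_ne_norm hlt.ne,
      max_eq_right hlt.le]
  have hv : Padic.valuation (b' : ℚ_[(q : ℕ)]) = Padic.valuation (b : ℚ_[(q : ℕ)]) := by
    simpa using valuation_eq_mul (m := 1) b'.ne_zero b.ne_zero (by rw [pow_one]; exact hn)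
  rw [phiLoc_of_eq n hq, phiLoc_of_eq n hq]
  congr 2
  refine Units.ext ?_
  have hu : PadicInt.toZModPow (p := (q : ℕ)) (n + 1) (unitPart b' : ℤ_[(q : ℕ)]) =
      PadicInt.toZModPow (p := (q : ℕ)) (n + 1) (unitPart b : ℤ_[(q : ℕ)]) := by
    rw [← sub_eq_zero, ← map_sub, ← RingHom.mem_ker, PadicInt.ker_toZModPow,
      ← PadicInt.norm_le_pow_iff_mem_span_pow, PadicInt.norm_def, PadicInt.coe_sub, val_unitPart,
      val_unitPart, hv, ← sub_mul, norm_mul]
    refine (mul_le_mul_of_nonneg_right h (norm_nonneg _)).trans (le_of_eq ?_)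
    have := norm_unitPart b
    rw [norm_mul] at this
    rw [mul_right_comm, this, one_mul]
  simp only [Units.coe_map, redP, RingHom.toMonoidHom_eq_coe, MonoidHom.coe_coe,
    RingHom.coe_comp, Function.comp_apply, hu]

end Fermat.Agent.CFT.Recip
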