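import Fermat.Agent.CFT.Setup
import Fermat.Agent.CFT.Cohomology.Basic
import Fermat.Agent.CFT.GlobalFinite
import Fermat.Agent.Galois.Cyclotomic
import Fermat.Agent.Galois.PadicPlace

/-!
# Classes unramified at `q` die locally

A `2`-cocycle on a local group which only depends on a level unramified at `q` is inflated from a
cyclic quotient generated by Frobenius; inflating to a cyclic group `p` times bigger kills it.
-/

set_option autoImplicit false
set_option linter.style.haveILetI false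

open CategoryTheory groupCohomology ExtCitation

noncomputable section

namespace Fermat.Agent.CFT.RecipUnr

variable {p : ℕ}

section Abstract

variable {G : Type} [Group G] {M : Rep.{0} (ZMod p) G} (K : Subgroup G) [K.Normal]
  (c : G × G → M) (g : G)

/-- The iterated sums of the cocycle along the powers of `g`. -/
def powSum : ℕ → M
  | 0 => -c (1, 1)
  | n + 1 => powSum n + c (g ^ n, g)

variable {K c}

theorem map_one_fst (hc : c ∈ cocycles₂ M) (a : G) : c (1, a) = c (1, 1) :=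
  cocycles₂_map_one_fst ⟨c, hc⟩ a

theorem map_one_snd (hc : c ∈ cocycles₂ M) (a : G) : c (a, 1) = M.ρ a (c (1, 1)) :=
  cocycles₂_map_one_snd ⟨c, hc⟩ a

theorem powSum_add (hc : c ∈ cocycles₂ M) (n k : ℕ) :
    powSum c g (n + k) = powSum c g n + M.ρ (g ^ n) (powSum c g k) + c (g ^ n, g ^ k) := by
  induction k with
  | zero =>
    rw [Nat.add_zero, pow_zero, map_one_snd hc (g ^ n)]
    simp [powSum]
  | succ k ih =>
    have h := (mem_cocycles₂_iff c).1 hc (g ^ n) (g ^ k) g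
    rw [← pow_add, ← pow_succ] at h
    rw [← Nat.add_assoc, powSum, powSum, ih, map_add, add_assoc, add_comm (c (g ^ n, g ^ k)), h]
    abel

/-- Values of a cocycle which only depends on classes modulo `K` are fixed by `K`. -/
theorem rho_apply_value (hc : c ∈ cocycles₂ M)
    (hK : ∀ a b s t, s ∈ K → t ∈ K → c (a * s, b * t) = c (a, b)) {s : G} (hs : s ∈ K) (a b : G) :
    M.ρ s (c (a, b)) = c (a, b) := by
  have hl : ∀ x y, c (s * x, y) = c (x, y) := fun x y => by
    have hx : x⁻¹ * s * x ∈ K := by simpa using Subgroup.Normal.conj_mem ‹_› s hs x⁻¹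
    simpa [mul_assoc] using hK x y _ 1 hx K.one_mem
  have h := (mem_cocycles₂_iff c).1 hc s a b
  rw [hl, show c (s, a) = c (1, a) by simpa using hl 1 a,
    show c (s, a * b) = c (1, a * b) by simpa using hl 1 (a * b),
    map_one_fst hc a, map_one_fst hc (a * b)] at h
  exact (add_right_cancel h).symm

theorem rho_apply_powSum (hc : c ∈ cocycles₂ M)
    (hK : ∀ a b s t, s ∈ K → t ∈ K → c (a * s, b * t) = c (a, b)) {s : G} (hs : s ∈ K) (n : ℕ) :
    M.ρ s (powSum c g n) = powSum c g n := by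
  induction n with
  | zero => rw [powSum, map_neg, rho_apply_value hc hK hs]
  | succ n ih => rw [powSum, map_add, ih, rho_apply_value hc hK hs]

variable [Fact p.Prime]

theorem powSum_periodic (hc : c ∈ cocycles₂ M)
    (hK : ∀ a b s t, s ∈ K → t ∈ K → c (a * s, b * t) = c (a, b)) {m : ℕ} (hm : g ^ m ∈ K)
    (n : ℕ) : powSum c g (n + p * m) = powSum c g n := by
  have hpow : ∀ j : ℕ, g ^ (j * m) ∈ K := fun j => by
    rw [mul_comm, pow_mul]; exact pow_mem hm j
  have hj : ∀ j : ℕ, powSum c g (j * m) = -c (1, 1) + j • (powSum c g m + c (1, 1)) := by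
    intro j
    induction j with
    | zero => simp [powSum]
    | succ j ih =>
      rw [Nat.succ_mul, powSum_add g hc, rho_apply_powSum g hc hK (hpow j), ih,
        show c (g ^ (j * m), g ^ m) = c (1, 1) by simpa using hK 1 1 _ _ (hpow j) hm, succ_nsmul]
      abel
  have hp : powSum c g (p * m) = -c (1, 1) := by
    rw [hj, ← Nat.cast_smul_eq_nsmul (ZMod p), ZMod.natCast_self, zero_smul, add_zero]
  rw [powSum_add g hc, hp, map_neg,
    show c (g ^ n, g ^ (p * m)) = c (g ^ n, 1) by simpa using hK (g ^ n) 1 1 _ K.one_mem (hpow p),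
    map_one_snd hc (g ^ n)]
  simp

/-- The explicit primitive of a cocycle inflated from a cyclic quotient, pulled back to a
quotient `p` times bigger. -/
theorem exists_split (hc : c ∈ cocycles₂ M)
    (hK : ∀ a b s t, s ∈ K → t ∈ K → c (a * s, b * t) = c (a, b)) {m : ℕ} (hm : g ^ m ∈ K)
    (ν : G → ℕ) (hν : ∀ a, (g ^ ν a)⁻¹ * a ∈ K)
    (hadd : ∀ a b, ν (a * b) ≡ ν a + ν b [MOD p * m]) :
    ∃ y : G → M, (∀ a b, ν a ≡ ν b [MOD p * m] → y a = y b) ∧ (d₁₂ M).hom y = c := by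
  have hper : Function.Periodic (powSum c g) (p * m) := powSum_periodic g hc hK hm
  refine ⟨fun a => -powSum c g (ν a), fun a b h => ?_, ?_⟩
  · change -powSum c g (ν a) = -powSum c g (ν b)
    rw [← hper.map_mod_nat, h, hper.map_mod_nat]
  funext x
  obtain ⟨a, b⟩ := x
  have hs : powSum c g (ν (a * b)) = powSum c g (ν a + ν b) := by
    rw [← hper.map_mod_nat, hadd a b, hper.map_mod_nat]
  have hact : M.ρ a (powSum c g (ν b)) = M.ρ (g ^ ν a) (powSum c g (ν b)) := by
    conv_lhs => rw [show a = g ^ ν a * ((g ^ ν a)⁻¹ * a) by group, map_mul, Module.End.mul_apply,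
      rho_apply_powSum g hc hK (hν a)]
  have hval : c (g ^ ν a, g ^ ν b) = c (a, b) := by
    have := hK (g ^ ν a) (g ^ ν b) _ _ (hν a) (hν b)
    simpa using this.symm
  change M.ρ a (-powSum c g (ν b)) - -powSum c g (ν (a * b)) + -powSum c g (ν a) = c (a, b)
  rw [hs, powSum_add g hc, map_neg, hact, hval]
  abel

end Abstract

variable [Fact p.Prime]

open scoped Classical in
/-- A class on a local group depending only on a level unramified at `q` is zero. -/
theorem eq_zero_of_unramified_level (q : Nat.Primes) (H : Subgroup (primeLocalGaloisGroup q))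
    (F : IntermediateField ℚ (AlgebraicClosure ℚ)) [FiniteDimensional ℚ F] [Normal ℚ F]
    (hF : (primeLocalPlace q).inertiaSubgroupIn ℚ ≤ F.fixingSubgroup)
    (hH : ∀ τ, primeLocalToGlobal q τ ∈ F.fixingSubgroup → τ ∈ H)
    (N : Rep.{0} (ZMod p) H)
    (c : ↥(Z2 Levels.all ((primeLocalToGlobal q).comp H.subtype) N))
    (hc : ∀ a b s t : H, primeLocalToGlobal q s ∈ F.fixingSubgroup →
      primeLocalToGlobal q t ∈ F.fixingSubgroup → c.1 (a * s, b * t) = c.1 (a, b)) :
    H2cπ _ _ _ c = 0 := by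
  have hpp : p.Prime := Fact.out
  haveI : F.fixingSubgroup.Normal := ⟨fun s hs g => by
    simpa using Cup.conj_mem_fixingSubgroup F hs g⁻¹⟩
  let r : H →* GQ := (primeLocalToGlobal q).comp H.subtype
  let K : Subgroup H := F.fixingSubgroup.comap r
  set A := padicPlace (q : ℕ) with hA
  have hAq : A.LiesOverPrime (q : ℕ) := Galois.padicPlace_liesOverPrime (q : ℕ)
  obtain ⟨φ, hφ⟩ := Galois.exists_isFrobeniusAt hAq q.2
  obtain ⟨γ, hγ⟩ : φ ∈ (localGaloisToGlobal (q : ℕ)).range := by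
    rw [Galois.localGaloisToGlobal_range]; exact hφ.mem_decompositionSubgroup
  let γ' : primeLocalGaloisGroup q := γ
  have hγ' : primeLocalToGlobal q γ' = φ := hγ
  -- the exponents of the powers of Frobenius inside `H`
  obtain ⟨f, hf0, -, hfF⟩ : ∃ f, 0 < f ∧ f ≤ F.fixingSubgroup.index ∧ φ ^ f ∈ F.fixingSubgroup :=
    Subgroup.exists_pow_mem_of_index_ne_zero
      (finiteIndex_fixingSubgroup F).index_ne_zero φ
  have hfH : γ' ^ f ∈ H := hH _ (by rw [map_pow, hγ']; exact hfF)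
  let Z : AddSubgroup ℤ := (H.comap (zpowersHom _ γ')).toAddSubgroup'
  obtain ⟨e₀, he₀⟩ := Int.subgroup_cyclic Z
  set e := e₀.natAbs with he
  have hmemZ : ∀ k : ℕ, γ' ^ k ∈ H ↔ e ∣ k := by
    intro k
    have : γ' ^ k ∈ H ↔ (k : ℤ) ∈ Z := by
      change _ ↔ γ' ^ ((k : ℤ)) ∈ H
      rw [zpow_natCast]
    rw [this, he₀, AddSubgroup.mem_closure_singleton, he, ← Int.natCast_dvd_natCast,
      Int.natAbs_dvd]
    simp only [smul_eq_mul, dvd_iff_exists_eq_mul_left, eq_comm]
  obtain ⟨m, hm⟩ := (hmemZ f).1 hfH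
  have hg : γ' ^ e ∈ H := (hmemZ e).2 dvd_rfl
  let g : H := ⟨γ' ^ e, hg⟩
  have he0 : 0 < e := Nat.pos_of_ne_zero fun h => hf0.ne' (by rw [hm, h, zero_mul])
  have hgm : g ^ m ∈ K := by
    change primeLocalToGlobal q ((γ' ^ e) ^ m) ∈ F.fixingSubgroup
    rw [← pow_mul, ← hm, map_pow, hγ']
    exact hfF
  -- the bigger level: roots of unity on which Frobenius has order `p * f`
  set d := p * f with hd
  have hd0 : 0 < d := Nat.mul_pos hpp.pos hf0
  set N' := (q : ℕ) ^ d - 1 with hN'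
  have hqd : 2 ≤ (q : ℕ) ^ d := q.2.two_le.trans (Nat.le_self_pow hd0.ne' _)
  have hN'0 : N' ≠ 0 := by omega
  have hqN : ¬ (q : ℕ) ∣ N' := fun h => by
    have h1 : (q : ℕ) ∣ (q : ℕ) ^ d := dvd_pow_self _ hd0.ne'
    have h2 := Nat.dvd_sub h1 h
    rw [show (q : ℕ) ^ d - N' = 1 by omega] at h2
    exact q.2.ne_one (Nat.dvd_one.1 h2)
  haveI : NeZero N' := ⟨hN'0⟩
  obtain ⟨ζ, hζ⟩ := HasEnoughRootsOfUnity.exists_primitiveRoot (AlgebraicClosure ℚ) N'
  let F' : IntermediateField ℚ (AlgebraicClosure ℚ) := F ⊔ IntermediateField.adjoin ℚ {ζ}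
  haveI : FiniteDimensional ℚ (IntermediateField.adjoin ℚ ({ζ} : Set (AlgebraicClosure ℚ))) :=
    IntermediateField.adjoin.finiteDimensional (hζ.isIntegral (Nat.pos_of_ne_zero hN'0)).tower_top
  haveI : FiniteDimensional ℚ F' := IntermediateField.finiteDimensional_sup _ _
  -- exponents
  have hpowmod : ∀ k l : ℕ, (φ ^ k) ζ = (φ ^ l) ζ → k ≡ l [MOD d] := by
    intro k l hkl
    have hφk : ∀ j : ℕ, (φ ^ j) ζ = ζ ^ (q : ℕ) ^ j := by
      intro j
      induction j with
      | zero => simp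
      | succ j ih =>
        rw [pow_succ', AlgEquiv.mul_apply, ih, map_pow,
          Galois.isFrobeniusAt_apply_rootOfUnity hAq q.2 hφ hqN hζ.pow_eq_one, ← pow_mul,
          ← pow_succ']
    rw [hφk, hφk, (IsOfFinOrder.pow_eq_pow_iff_modEq (hζ.isOfFinOrder hN'0)), ← hζ.eq_orderOf] at hkl
    have hper : ∀ j, (q : ℕ) ^ j ≡ (q : ℕ) ^ (j % d) [MOD N'] := by
      intro j
      conv_lhs => rw [← Nat.mod_add_div j d, pow_add, pow_mul]
      have h1 : (q : ℕ) ^ d ≡ 1 [MOD N'] :=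
        Nat.ModEq.symm ((Nat.modEq_iff_dvd' (by omega)).2 (by rw [← hN']))
      simpa using (h1.pow (j / d)).mul_left ((q : ℕ) ^ (j % d))
    have hlt : ∀ j, j < d → (q : ℕ) ^ j < N' ∨ N' = 1 := by
      intro j hj
      have h1 : 2 * (q : ℕ) ^ j ≤ (q : ℕ) ^ d :=
        calc 2 * (q : ℕ) ^ j ≤ (q : ℕ) * (q : ℕ) ^ j := Nat.mul_le_mul_right _ q.2.two_le
          _ = (q : ℕ) ^ (j + 1) := by rw [pow_succ']
          _ ≤ (q : ℕ) ^ d := Nat.pow_le_pow_right q.2.pos hj
      have h3 : 1 ≤ (q : ℕ) ^ j := Nat.one_le_pow _ _ q.2.pos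
      by_cases h2 : (q : ℕ) ^ j = 1
      · omega
      · left; omega
    have hkl' := ((hper k).symm.trans hkl).trans (hper l)
    rcases hlt _ (Nat.mod_lt k hd0) with h1 | h1
    · rcases hlt _ (Nat.mod_lt l hd0) with h2 | h2
      · exact Nat.pow_right_injective q.2.two_le (Nat.ModEq.eq_of_lt_of_lt hkl' h1 h2)
      · exact absurd h2 (by have := Nat.one_le_pow (k % d) _ q.2.pos; omega)
    · exfalso
      have h2 : (q : ℕ) ^ 2 ≤ (q : ℕ) ^ d :=
        Nat.pow_le_pow_right q.2.pos (le_trans hpp.two_le (Nat.le_mul_of_pos_right _ hf0))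
      have h3 : (2 : ℕ) ^ 2 ≤ (q : ℕ) ^ 2 := Nat.pow_le_pow_left q.2.two_le 2
      omega
  have hex : ∀ a : H, ∃ k : ℕ, ((φ ^ k)⁻¹ * r a) ∈ F.fixingSubgroup ∧ (φ ^ k) ζ = r a ζ := by
    intro a
    obtain ⟨k, i, hi, hki⟩ := Galois.exists_pow_inertia_fixing hAq q.2 F' hφ
      (σ := r a) (localGaloisToGlobal_mem_decompositionSubgroup (q : ℕ) (a : primeLocalGaloisGroup q))
    rw [IntermediateField.fixingSubgroup_sup] at hki
    refine ⟨k, ?_, ?_⟩
    · have h2 : i * ((φ ^ k * i)⁻¹ * r a) ∈ F.fixingSubgroup := mul_mem (hF hi) hki.1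
      rwa [show i * ((φ ^ k * i)⁻¹ * r a) = (φ ^ k)⁻¹ * r a by group] at h2
    · have h1 := (IntermediateField.mem_fixingSubgroup_iff _ _).1 hki.2 ζ
        (IntermediateField.mem_adjoin_simple_self ℚ ζ)
      conv_rhs => rw [show r a = φ ^ k * (i * ((φ ^ k * i)⁻¹ * r a)) by group]
      rw [AlgEquiv.mul_apply, AlgEquiv.mul_apply, h1,
        Galois.inertia_apply_rootOfUnity hAq q.2 hi hqN hζ.pow_eq_one]
  choose k hkF hkζ using hex
  have hek : ∀ a, e ∣ k a := fun a => by
    rw [← hmemZ]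
    have h1 : ((γ' ^ k a)⁻¹ * (a : primeLocalGaloisGroup q)) ∈ H :=
      hH _ (by rw [map_mul, map_inv, map_pow, hγ']; exact hkF a)
    have h2 := H.mul_mem a.2 (H.inv_mem h1)
    simpa [mul_inv_rev, ← mul_assoc] using h2
  choose ν hν using hek
  have hνK : ∀ a, (g ^ ν a)⁻¹ * a ∈ K := fun a => by
    show primeLocalToGlobal q (((g ^ ν a)⁻¹ * a : H) : primeLocalGaloisGroup q) ∈ F.fixingSubgroup
    rw [Subgroup.coe_mul, Subgroup.coe_inv, SubmonoidClass.coe_pow, Subgroup.coe_mk]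
    rw [← pow_mul, ← hν, map_mul, map_inv, map_pow, hγ']
    exact hkF a
  have hmod : ∀ {i j : ℕ}, e * i ≡ e * j [MOD d] → i ≡ j [MOD p * m] := by
    intro i j hij
    have hdem : d = e * (p * m) := by rw [hd, hm]; ring
    rw [hdem] at hij
    exact hij.mul_left_cancel' he0.ne'
  have hadd : ∀ a b, ν (a * b) ≡ ν a + ν b [MOD p * m] := by
    intro a b
    refine hmod (hpowmod _ _ ?_)
    rw [← hν, mul_add, ← hν, ← hν, hkζ, map_mul, AlgEquiv.mul_apply, ← hkζ b, pow_add,
      AlgEquiv.mul_apply]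
    obtain ⟨j, -, hj⟩ := hζ.eq_pow_of_pow_eq_one (ξ := (φ ^ k b) ζ)
      (by rw [← map_pow, hζ.pow_eq_one, map_one])
    rw [← hj, map_pow, map_pow, ← hkζ a]
  obtain ⟨y, hy, hdy⟩ := exists_split (K := K) g c.2.1
    (fun a b s t hs ht => hc a b s t hs ht) hgm ν hνK hadd
  refine (Submodule.Quotient.mk_eq_zero _).2 ⟨y, ⟨F', (inferInstance : FiniteDimensional ℚ F'),
    fun a s hs => ?_⟩, hdy⟩
  refine hy _ _ (hmod (hpowmod _ _ ?_))
  have hs1 : r s ζ = ζ := (IntermediateField.mem_fixingSubgroup_iff _ _).1 hs ζ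
    ((le_sup_right : IntermediateField.adjoin ℚ {ζ} ≤ F')
      (IntermediateField.mem_adjoin_simple_self ℚ ζ))
  rw [← hν, ← hν, hkζ, map_mul, AlgEquiv.mul_apply, hs1, hkζ]

theorem normalBasis_level {S : Finset Nat.Primes} {F₀ E : IntermediateField ℚ (AlgebraicClosure ℚ)}
    (hF₀ : (Levels.unr S).ok F₀) (hE : (Levels.unr S).ok E) :
    ∃ F : IntermediateField ℚ (AlgebraicClosure ℚ), (Levels.unr S).ok F ∧ Normal ℚ F ∧
      F₀ ≤ F ∧ E ≤ F := by
  obtain ⟨F, hF, hN, hle⟩ := Levels.normalBasis_unr S _ ((Levels.unr S).sup _ _ hF₀ hE)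
  exact ⟨F, hF, hN, le_sup_left.trans hle, le_sup_right.trans hle⟩

/-- A class unramified at `q` is zero at `q`. -/
theorem locS_eq_zero_of_not_mem' (S : Finset Nat.Primes) {q : Nat.Primes} (hq : q ∉ S)
    (c : H2c (Levels.unr S) (MonoidHom.id GQ) (muRep p)) : locS q (muRep p) c = 0 := by
  obtain ⟨c, rfl⟩ := Submodule.mkQ_surjective _ c
  obtain ⟨F₀, hF₀, hconst⟩ := c.2.2
  obtain ⟨F, hF, hN, hle, -⟩ := normalBasis_level hF₀ ((Levels.unr S).bot)
  haveI : FiniteDimensional ℚ F := hF.1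
  haveI := hN
  let H : Subgroup (primeLocalGaloisGroup q) := ⊤
  let N : Rep.{0} (ZMod p) H := Rep.res H.subtype (muLoc p q)
  let x : ↥(Z2 Levels.all (primeLocalToGlobal q) (muLoc p q)) :=
    mapZ2 (L := Levels.unr S) (L' := Levels.all) (r := MonoidHom.id GQ) (primeLocalToGlobal q)
      (fun F hF => ⟨F, hF.1, fun _ h => h⟩) LinearMap.id (fun _ _ => rfl) c
  change H2cπ _ _ _ x = 0
  let cH : ↥(Z2 Levels.all ((primeLocalToGlobal q).comp H.subtype) N) :=
    mapZ2 H.subtype (isLevelHom_of_eq _ fun _ => rfl) LinearMap.id (fun _ _ => rfl) x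
  have h0 : H2cπ _ _ _ cH = 0 := eq_zero_of_unramified_level q H F
    (hF.2 q hq _ (Galois.padicPlace_liesOverPrime (q : ℕ))) (fun _ _ => Subgroup.mem_top _) N cH
    (fun a b s t hs ht => by
      change c.1 (primeLocalToGlobal q ((a * s : H) : primeLocalGaloisGroup q),
        primeLocalToGlobal q ((b * t : H) : primeLocalGaloisGroup q)) =
          c.1 (primeLocalToGlobal q a, primeLocalToGlobal q b)
      rw [Subgroup.coe_mul, Subgroup.coe_mul, map_mul, map_mul]
      exact hconst _ _ _ _ (IntermediateField.fixingSubgroup_antitone hle hs)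
        (IntermediateField.fixingSubgroup_antitone hle ht))
  obtain ⟨y, ⟨F', hF', hyc⟩, hy⟩ := (Submodule.Quotient.mk_eq_zero _).1 h0
  refine (Submodule.Quotient.mk_eq_zero _).2 ⟨fun τ => y ⟨τ, Subgroup.mem_top _⟩,
    ⟨F', hF', fun a s hs => hyc ⟨a, Subgroup.mem_top _⟩ ⟨s, Subgroup.mem_top _⟩ hs⟩, ?_⟩
  funext ab
  exact congrFun hy (⟨ab.1, Subgroup.mem_top _⟩, ⟨ab.2, Subgroup.mem_top _⟩)

/-- A class on `U` with `S`-level is zero at places off `S`. -/
theorem locPlace_eq_zero_of_not_mem' (S : Finset Nat.Primes) {q : Nat.Primes} (hq : q ∉ S)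
    {U : Subgroup GQ} (hU : IsLevelSubgroup (Levels.unr S) (MonoidHom.id GQ) U)
    (c : ↥(Z2 (Levels.unr S) U.subtype (muSub p U)))
    (c' : ↥(Z2 Levels.all U.subtype (muSub p U))) (hc : c'.1 = c.1) (x : GQ ⧸ U) :
    locPlace p q U x (H2cπ _ _ _ c') = 0 := by
  obtain ⟨F₀, hF₀, hconst⟩ := c.2.2
  obtain ⟨E, hE, hEU⟩ := hU
  obtain ⟨F, hF, hN, hle, hleE⟩ := normalBasis_level hF₀ hE
  haveI : FiniteDimensional ℚ F := hF.1
  haveI := hN
  haveI hn : F.fixingSubgroup.Normal := ⟨fun s hs g => by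
    simpa using Cup.conj_mem_fixingSubgroup F hs g⁻¹⟩
  refine eq_zero_of_unramified_level q (placeStab q U x) F
    (hF.2 q hq _ (Galois.padicPlace_liesOverPrime (q : ℕ))) ?_ _
    (mapZ2 (placeHom q U x) (isLevelHom_placeHom q U x) _ _ c') ?_
  · intro τ hτ
    change primeLocalToGlobal q τ • x = x
    conv_lhs => rw [← QuotientGroup.out_eq' x]
    conv_rhs => rw [← QuotientGroup.out_eq' x]
    rw [MulAction.Quotient.smul_mk, QuotientGroup.eq]
    refine hEU _ (IntermediateField.fixingSubgroup_antitone hleE ?_)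
    have h1 : ((Quotient.out x : GQ)⁻¹ * primeLocalToGlobal q τ * Quotient.out x)⁻¹ ∈
        F.fixingSubgroup := inv_mem (by simpa using hn.conj_mem _ hτ (Quotient.out x : GQ)⁻¹)
    simpa [smul_eq_mul, mul_inv_rev, mul_assoc] using! h1
  · intro a b s t hs ht
    have key : ∀ u : placeStab q U x, primeLocalToGlobal q u ∈ F.fixingSubgroup →
        U.subtype (placeHom q U x u) ∈ F₀.fixingSubgroup := fun u hu =>
      IntermediateField.fixingSubgroup_antitone hle
        (by simpa [placeHom] using! hn.conj_mem _ hu (Quotient.out x : GQ)⁻¹)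
    change (cycloChar p (Quotient.out x) : ZMod p) • c'.1 (placeHom q U x (a * s), placeHom q U x (b * t))
      = (cycloChar p (Quotient.out x) : ZMod p) • c'.1 (placeHom q U x a, placeHom q U x b)
    rw [map_mul, map_mul, hc, hconst _ _ _ _ (key s hs) (key t ht)]

end Fermat.Agent.CFT.RecipUnr
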