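import Fermat.Agent.CFT.Recip.Kernel
import Fermat.Agent.CFT.Recip.InvLocSpec
import Fermat.Agent.CFT.Recip.Unramified
import Fermat.Agent.CFT.Interface.GlobalFields
import Fermat.Agent.CFT.GlobalPerm.Localize

/-!
# Reciprocity

Above a big enough cyclotomic level a class with values in `μ_p` is locally, hence globally,
trivial; so up to a prime-to-`p` multiple it is the carry class of a rational number, whose symbols
compute the local invariants and sum to zero by the product formula.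
-/

set_option autoImplicit false
set_option linter.style.haveILetI false

open CategoryTheory groupCohomology ExtCitation

noncomputable section

namespace Fermat.Agent.CFT.Recip

open LocalInst (muOmega muOmegaLog muOmega_add muOmega_sub muOmega_log muOmega_pow muOmega_injective)

variable {p : ℕ} [Fact p.Prime] (hp2 : p ≠ 2) {S : Finset Nat.Primes}

/-- The local cocycle of a global one. -/
def sumInvLocal (q : Nat.Primes) (c : ↥(Z2 (Levels.unr S) (MonoidHom.id GQ) (muRep p))) :
    ↥(Z2 Levels.all (primeLocalToGlobal q) (muLoc p q)) :=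
  mapZ2 (L := Levels.unr S) (L' := Levels.all) (r := MonoidHom.id GQ) (primeLocalToGlobal q) (fun F hF => ⟨F, hF.1, fun _ h => h⟩) LinearMap.id (fun _ _ => rfl) c

/-- At level `n`, the cocycle `c` is at `q` the carry class of an element of symbol
`p ^ (n - 1) * i`. -/
def SumInvAt (n : ℕ) (q : Nat.Primes) (c : GQ × GQ → ZMod p) (i : ZMod p) : Prop :=
  ∃ (b : (ℚ_[(q : ℕ)])ˣ) (f : primeLocalGaloisGroup q → (Omega q)ˣ),
    IsConst₁ Levels.all (primeLocalToGlobal q) f ∧
    phiLoc p n q b = ((p ^ (n - 1) * i.val : ℕ) : ZMod (p ^ n)) ∧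
    ∀ s t, (iota q (muInc p (c (primeLocalToGlobal q s, primeLocalToGlobal q t))) : Omega q) =
      locAct q s (f t) / f (s * t) * f s *
        algebraMap ℚ_[(q : ℕ)] (Omega q) b ^
          CFT.carry p n (primeLocalToGlobal q s, primeLocalToGlobal q t)

include hp2 in
lemma sumInvAt_of_le {q : Nat.Primes} (c : ↥(Z2 (Levels.unr S) (MonoidHom.id GQ) (muRep p))) :
    ∃ n₀, ∀ N, n₀ ≤ N →
      SumInvAt N q c.1 (invLoc p q (locS q (muRep p) (H2cπ _ _ _ c))) := by
  obtain ⟨n₀, -, h⟩ := exists_invariant_level hp2 (sumInvLocal q c)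
    (invLoc_spec' hp2 (fun c {_ _} hi hj => isInvariant_unique' hp2 q c hi hj) (sumInvLocal q c))
  exact ⟨n₀, h⟩

include hp2 in
lemma sumInvAt_of_not_mem {q : Nat.Primes} (hq : q ∉ S) (n : ℕ)
    (c : ↥(Z2 (Levels.unr S) (MonoidHom.id GQ) (muRep p))) :
    SumInvAt n q c.1 0 := by
  have h0 : H2cπ _ _ _ (sumInvLocal q c) = 0 :=
    RecipUnr.locS_eq_zero_of_not_mem' S hq (H2cπ _ _ _ c)
  obtain ⟨y, hy, hyd⟩ := (Submodule.Quotient.mk_eq_zero _).1 h0
  refine ⟨1, fun s => muOmega q (y s), hy.comp (muOmega q (p := p)), ?_, fun s t => ?_⟩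
  · have h1 := phiLoc_mul' hp2 n q 1 1
    rw [mul_one] at h1
    rw [ZMod.val_zero, mul_zero, Nat.cast_zero]
    exact add_eq_left.1 h1.symm
  · have e : (muLoc p q).ρ s (y t) - y (s * t) + y s =
        c.1 (primeLocalToGlobal q s, primeLocalToGlobal q t) := congrFun hyd (s, t)
    show ((muOmega q (c.1 (primeLocalToGlobal q s, primeLocalToGlobal q t)) : (Omega q)ˣ) :
      Omega q) = _
    rw [← e, muOmega_add, muOmega_sub, ← ils_smul_muOmega, Units.val_one, map_one, one_pow, mul_one]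
    simp only [Units.val_mul, Units.val_div_eq_div_val]
    rfl

include hp2 in
/-- Above level `n` the class splits at every place. -/
lemma locPlace_eq_zero_of_sumInvAt {q : Nat.Primes} {n : ℕ} {i : ZMod p}
    (c : ↥(Z2 (Levels.unr S) (MonoidHom.id GQ) (muRep p))) (hd : SumInvAt n q c.1 i)
    {U : Subgroup GQ} [U.Normal] (hU : ∀ g ∈ U, cyclo p n g = 1)
    (c' : ↥(Z2 Levels.all U.subtype (muSub p U)))
    (hc : ∀ s t : U, (c'.1 (s, t) : ZMod p) = c.1 ((s : GQ), (t : GQ))) (x : GQ ⧸ U) :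
    locPlace p q U x (H2cπ _ _ _ c') = 0 := by
  have hp := (Fact.out : p.Prime)
  obtain ⟨b, f, hf, -, hid⟩ := hd
  set V := placeStab q U x
  set g : GQ := Quotient.out x with hg
  have hVU : ∀ v : V, primeLocalToGlobal q (v : primeLocalGaloisGroup q) ∈ U := fun v => by
    have h := (inferInstance : U.Normal).conj_mem _ (placeStab_conj_mem (U := U) (x := x) v) g
    rwa [show g * (g⁻¹ * primeLocalToGlobal q (v : primeLocalGaloisGroup q) * g) * g⁻¹ =
      primeLocalToGlobal q (v : primeLocalGaloisGroup q) by group] at h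
  have hT : ∀ v : V, tower p n (primeLocalToGlobal q (v : primeLocalGaloisGroup q)) = 0 := fun v => by
    rw [tower, hU _ (hVU v), theta_one hp2]
  have hid' : ∀ s t : V,
      muOmega q (c.1 (primeLocalToGlobal q (s : primeLocalGaloisGroup q),
          primeLocalToGlobal q (t : primeLocalGaloisGroup q))) =
        (s : primeLocalGaloisGroup q) • f t / f (s * t) * f s := fun s t => by
    refine Units.ext ((hid s t).trans ?_)
    rw [show CFT.carry p n (primeLocalToGlobal q (s : primeLocalGaloisGroup q),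
      primeLocalToGlobal q (t : primeLocalGaloisGroup q)) = 0 by
        simp [CFT.carry, hT, hp.ne_zero], pow_zero, mul_one]
    simp only [Units.val_mul, Units.val_div_eq_div_val]
    rfl
  have hfp : ∀ s t : V, f ((s : primeLocalGaloisGroup q) * t) ^ p =
      (s : primeLocalGaloisGroup q) • f t ^ p * f s ^ p := fun s t => by
    have e := congrArg (· ^ p) (hid' s t)
    simp only [muOmega_pow, mul_pow, div_pow] at e
    rw [div_mul_eq_mul_div, eq_comm, div_eq_one] at e
    rw [smul_pow', e]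
  obtain ⟨F₀, hF₀, hf₀⟩ := hf
  obtain ⟨a, ha⟩ := (locData q).h90 (V := V) (f := fun v => f v ^ p)
    ⟨F₀, hF₀, fun u s hs => congrArg (· ^ p) (hf₀ _ _ hs)⟩
    (fun s t => congrArg Units.val (hfp s t))
  obtain ⟨X, hX⟩ := IsAlgClosed.exists_pow_nat_eq (a : Omega q) hp.pos
  have hX0 : X ≠ 0 := fun h => a.ne_zero (by rw [← hX, h, zero_pow hp.ne_zero])
  let Xu : (Omega q)ˣ := Units.mk0 X hX0
  let w : V → (Omega q)ˣ := fun v => f v / ((v : primeLocalGaloisGroup q) • Xu / Xu)
  have hXu : Xu ^ p = a := Units.ext (by simpa [Xu] using hX)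
  have hwp : ∀ v, w v ^ p = 1 := fun v => by
    simp only [w, div_pow, ← smul_pow', hXu]
    rw [div_eq_one]
    exact Units.ext ((ha v).trans (by rw [Units.val_div_eq_div_val]; rfl))
  let μ : V → ZMod p := fun v => muOmegaLog (p := p) (w v)
  have hμ : ∀ s t : V, (muRep p).ρ (primeLocalToGlobal q (s : primeLocalGaloisGroup q)) (μ t)
      - μ (s * t) + μ s = c.1 (primeLocalToGlobal q (s : primeLocalGaloisGroup q),
        primeLocalToGlobal q (t : primeLocalGaloisGroup q)) := fun s t => by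
    apply muOmega_injective (q := q)
    rw [muOmega_add, muOmega_sub, hid', show (muRep p).ρ
      (primeLocalToGlobal q (s : primeLocalGaloisGroup q)) (μ t) =
        (muLoc p q).ρ (s : primeLocalGaloisGroup q) (μ t) from rfl, ← ils_smul_muOmega,
      muOmega_log (hwp t), muOmega_log (hwp (s * t)), muOmega_log (hwp s)]
    simp only [w, Subgroup.coe_mul, smul_div', smul_smul]
    apply Additive.ofMul.injective
    simp only [ofMul_mul, ofMul_div]
    abel
  let h : GQ → ZMod p := fun τ => c.1 (g, g⁻¹ * τ * g) - c.1 (τ, g)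
  refine (Submodule.Quotient.mk_eq_zero _).2 ⟨fun v : V =>
    μ v + h (primeLocalToGlobal q (v : primeLocalGaloisGroup q)), ?_, funext fun ⟨τ, τ'⟩ => ?_⟩
  · obtain ⟨F₁, hF₁, hX₁⟩ := (locData q).smooth X
    obtain ⟨F₂, hF₂, h₂⟩ := c.2.2
    obtain ⟨F, hF, hN, hle₁, hle₂⟩ := Levels.exists_normal₂ Levels.normalBasis_all
      (F₁ := F₀ ⊔ F₁) (F₂ := F₂) (Levels.all.sup _ _ hF₀ hF₁) hF₂.1
    refine ⟨F, hF, fun u s hs => ?_⟩
    set u' := primeLocalToGlobal q (u : primeLocalGaloisGroup q) with hu'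
    set s' := primeLocalToGlobal q (s : primeLocalGaloisGroup q) with hs'
    have hs₁ := IntermediateField.fixingSubgroup_antitone hle₁ hs
    have hs₂ : s' ∈ F₂.fixingSubgroup := IntermediateField.fixingSubgroup_antitone hle₂ hs
    have hc₂ : g⁻¹ * s' * g ∈ F₂.fixingSubgroup :=
      IntermediateField.fixingSubgroup_antitone hle₂ (conj_mem_level (r := MonoidHom.id GQ) hN hs g)
    have h3 : c.1 (g, g⁻¹ * (u' * s') * g) = c.1 (g, g⁻¹ * u' * g) := by
      have := h₂ g (g⁻¹ * u' * g) 1 (g⁻¹ * s' * g) (one_mem _) hc₂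
      rwa [mul_one, show g⁻¹ * u' * g * (g⁻¹ * s' * g) = g⁻¹ * (u' * s') * g by group] at this
    have h4 : c.1 (u' * s', g) = c.1 (u', g) := by
      have := h₂ u' g s' 1 hs₂ (one_mem _)
      rwa [mul_one] at this
    have h5 : w (u * s) = w u := by
      have e1 : f ((u : primeLocalGaloisGroup q) * s) = f u :=
        hf₀ _ _ (IntermediateField.fixingSubgroup_antitone le_sup_left hs₁)
      have e2 : (s : primeLocalGaloisGroup q) • Xu = Xu :=
        Units.ext (hX₁ _ (IntermediateField.fixingSubgroup_antitone le_sup_right hs₁))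
      simp only [w, Subgroup.coe_mul, e1, mul_smul, e2]
    simp only [μ, h, h5, Subgroup.coe_mul, map_mul, ← hu', ← hs', h3, h4]
  · have e := conj_homotopy₂ c.2.1 g (primeLocalToGlobal q (τ : primeLocalGaloisGroup q))
      (primeLocalToGlobal q (τ' : primeLocalGaloisGroup q))
    rw [muRep_apply, ← hc ⟨_, placeStab_conj_mem τ⟩ ⟨_, placeStab_conj_mem τ'⟩, ← hμ] at e
    change (muRep p).ρ (primeLocalToGlobal q (τ : primeLocalGaloisGroup q))
        (μ τ' + h (primeLocalToGlobal q (τ' : primeLocalGaloisGroup q)))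
      - (μ (τ * τ') + h (primeLocalToGlobal q ((τ : primeLocalGaloisGroup q) * τ')))
      + (μ τ + h (primeLocalToGlobal q (τ : primeLocalGaloisGroup q)))
      = (cycloChar p g : ZMod p) * c'.1 (placeHom q U x τ, placeHom q U x τ')
    refine Eq.trans ?_ e.symm
    simp only [h, map_add, map_mul]
    abel

include hp2 in
/-- The cyclotomic group of level `n` is cyclic of order `p ^ n * (p - 1)`. -/
lemma exists_cyclo_char (n : ℕ) :
    ∃ (N : ℕ) (_ : NeZero N) (_ : Multiplicative (ZMod N) ≃* (ZMod (p ^ (n + 1)))ˣ),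
      N = p ^ n * (p - 1) := by
  have hp := (Fact.out : p.Prime)
  have := neZeroPow p (n + 1)
  refine ⟨Nat.card (ZMod (p ^ (n + 1)))ˣ, ⟨Nat.card_pos.ne'⟩,
    zmodCyclicMulEquiv (ZMod.isCyclic_units_of_prime_pow p hp hp2 (n + 1)), ?_⟩
  rw [Nat.card_eq_fintype_card, ZMod.card_units_eq_totient, Nat.totient_prime_pow_succ hp]

include hp2 in
/-- A prime-to-`p` multiple of a class split at all places above level `n` is globally the carry
class of a rational number. -/
lemma exists_rational_carry (hpS : pPrime p ∈ S) {n : ℕ} (hn : 1 ≤ n)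
    (c : ↥(Z2 (Levels.unr S) (MonoidHom.id GQ) (muRep p)))
    (hd : ∀ q ∈ S, ∃ i, SumInvAt n q c.1 i) :
    ∃ (d : ℕ) (b : ℚˣ) (f : GQ → (AlgebraicClosure ℚ)ˣ), ¬ p ∣ d ∧
      IsConst₁ Levels.all (MonoidHom.id GQ) f ∧ ∀ s t,
        (muInc p (c.1 (s, t)) : AlgebraicClosure ℚ) ^ d =
          s (f t : AlgebraicClosure ℚ) / f (s * t) * f s *
            algebraMap ℚ (AlgebraicClosure ℚ) b ^ CFT.carry p n (s, t) := by
  have hp := (Fact.out : p.Prime)
  have := neZeroPow p n
  obtain ⟨N, _, e, hN⟩ := exists_cyclo_char hp2 n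
  let χ : GQ →* Multiplicative (ZMod N) := e.symm.toMonoidHom.comp (cyclo p n)
  have hker : ∀ g ∈ χ.ker, cyclo p n g = 1 := fun g hg => by
    simpa [χ] using MonoidHom.mem_ker.1 hg
  have hlev : ∀ g ∈ (cycField p n).fixingSubgroup, g ∈ χ.ker := fun g hg => by
    simp [χ, cyclo_eq_one_of_mem hg]
  have hcyc : ∀ g ∈ χ.ker, cycloChar p g = 1 := fun g hg => by
    refine Units.ext (muInc_injective (Units.ext ?_))
    rw [← mul_one (cycloChar p g : ZMod p), ← gal_muInc, Units.val_one]
    have hζ : (muInc p 1 : AlgebraicClosure ℚ) ^ p ^ (n + 1) = 1 := by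
      rw [← Units.val_pow_eq_pow_val, pow_succ', pow_mul, muInc_pow_eq_one, one_pow, Units.val_one]
    have := neZeroPow p (n + 1)
    have : Fact (1 < p ^ (n + 1)) := ⟨Nat.one_lt_pow (Nat.succ_ne_zero n) hp.one_lt⟩
    rw [val_cyclo_spec n g hζ, hker g hg, Units.val_one, ZMod.val_one, pow_one]
  let cS : ↥(Z2 (Levels.unr S) χ.ker.subtype (muSub p χ.ker)) :=
    mapZ2 χ.ker.subtype (isLevelHom_of_eq _ fun _ => rfl) LinearMap.id (fun _ _ => rfl) c
  let c' : ↥(Z2 Levels.all χ.ker.subtype (muSub p χ.ker)) :=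
    mapZ2 (L := Levels.unr S) (L' := Levels.all) (r := MonoidHom.id GQ) χ.ker.subtype (fun F hF => ⟨F, hF.1, fun _ h => h⟩) LinearMap.id (fun _ _ => rfl) c
  have hUS : IsLevelSubgroup (Levels.unr S) (MonoidHom.id GQ) χ.ker :=
    ⟨cycField p n, (cycField_unramified p n).mono (Finset.singleton_subset_iff.2 hpS), hlev⟩
  obtain ⟨g₀, hg₀, hres⟩ := hasse_mu hp2
    (U := χ.ker) ⟨cycField p n, finiteDimensional_cycField p n, hlev⟩ hcyc c' fun q x => by
      by_cases hq : q ∈ S
      · obtain ⟨i, hi⟩ := hd q hq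
        exact locPlace_eq_zero_of_sumInvAt hp2 c hi hker c' (fun _ _ => rfl) x
      · exact RecipUnr.locPlace_eq_zero_of_not_mem' S hq hUS cS c' rfl x
  obtain ⟨τ, hτ⟩ := exists_cyclo_loc_eq (p := p) n (e (Multiplicative.ofAdd 1))
  have hσ : χ (primeLocalToGlobal (pPrime p) τ) = Multiplicative.ofAdd 1 := by simp [χ, hτ]
  obtain ⟨β, f, hβ, hf, hC⟩ := globData.exists_carry (χ := χ)
    ⟨cycField p n, finiteDimensional_cycField p n, fun g hg => hlev g hg⟩ hσ
    (c := fun st => muInc p (c.1 st))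
    (by
      obtain ⟨F, hF, h⟩ := c.2.2
      exact ⟨F, hF.1, fun g g' s s' hs hs' => congrArg (muInc p) (h g g' s s' hs hs')⟩)
    (fun g h j => by
      show _ = g (muInc p (c.1 (h, j)) : AlgebraicClosure ℚ) * _
      rw [gal_muInc, ← Units.val_mul, ← muInc_add, ← Units.val_mul, ← muInc_add]
      exact congrArg (fun z => ((muInc p z : (AlgebraicClosure ℚ)ˣ) : AlgebraicClosure ℚ))
        ((mem_cocycles₂_iff c.1).1 c.2.1 g h j))
    hg₀ hres
  obtain ⟨b₀, hb₀⟩ : ∃ b₀ : ℚ, algebraMap ℚ (AlgebraicClosure ℚ) b₀ = β := by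
    refine IntermediateField.mem_bot.1 ?_
    rw [← InfiniteGalois.fixedField_fixingSubgroup (⊥ : IntermediateField ℚ (AlgebraicClosure ℚ))]
    exact (IntermediateField.mem_fixedField_iff _ _).2 fun g _ => hβ g
  have hb₀0 : b₀ ≠ 0 := fun h => β.ne_zero (by rw [← hb₀, h, map_zero])
  set γ := e (Multiplicative.ofAdd 1) with hγdef
  set t₀ := (theta p n γ).val
  have hgen : ∀ u, ∃ k : ℕ, γ ^ k = u := fun u => ⟨(e.symm u).toAdd.val, by
    rw [hγdef, ← map_pow, ← ofAdd_nsmul, nsmul_one, ZMod.natCast_zmod_val, ofAdd_toAdd,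
      e.apply_symm_apply]⟩
  have htow : ∀ g, (tower p n g).val = t₀ * Class.cval χ g % p ^ n := fun g => by
    have h1 : γ ^ Class.cval χ g = cyclo p n g := by
      rw [hγdef, ← map_pow, ← ofAdd_nsmul, nsmul_one, Class.cval, ZMod.natCast_zmod_val, ofAdd_toAdd]
      simp [χ]
    rw [tower, ← h1, theta_pow hp2, ← ZMod.natCast_zmod_val (theta p n γ), ← Nat.cast_mul,
      ZMod.val_natCast, mul_comm]
  have ht₀ : ¬ p ∣ t₀ := fun hdvd => by
    obtain ⟨u, hu⟩ := theta_surjective hp2 (n := n) 1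
    obtain ⟨k, rfl⟩ := hgen u
    rw [theta_pow hp2, ← ZMod.natCast_zmod_val (theta p n γ)] at hu
    have h2 := congrArg (ZMod.castHom (dvd_pow_self p (show n ≠ 0 by omega)) (ZMod p)) hu
    simp only [map_mul, map_natCast, map_one, (ZMod.natCast_eq_zero_iff t₀ p).2 hdvd, mul_zero,
      zero_ne_one, t₀] at h2
  set d := (p - 1) * t₀ with hddef
  let e' : GQ → ℕ := fun g => t₀ * Class.cval χ g / p ^ n
  have hid : ∀ s t, e' s + e' t + CFT.carry p n (s, t) = e' (s * t) + d * Class.carry χ s t := by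
    intro s t
    refine Nat.eq_of_mul_eq_mul_left (NeZero.pos (p ^ n)) ?_
    have hm : ∀ g, (tower p n g).val + p ^ n * e' g = t₀ * Class.cval χ g := fun g => by
      rw [htow]; exact Nat.mod_add_div _ _
    have h1 : Class.cval χ (s * t) + p ^ n * (p - 1) * Class.carry χ s t =
        Class.cval χ s + Class.cval χ t := by
      rw [← hN, Class.cval_mul, Class.carry]; exact Nat.mod_add_div _ _
    have h2 : (tower p n (s * t)).val + p ^ n * CFT.carry p n (s, t) =
        (tower p n s).val + (tower p n t).val := by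
      rw [carry_eq hp2, ← cval_towerHom hp2, ← cval_towerHom hp2, ← cval_towerHom hp2,
        Class.cval_mul, Class.carry]
      exact Nat.mod_add_div _ _
    rw [hddef]
    linear_combination hm s + hm t - hm (s * t) + h2 - t₀ * h1
  refine ⟨d, Units.mk0 b₀ hb₀0, fun g => f g ^ d * β ^ e' g,
    fun hdvd => ?_, ?_, fun s t => ?_⟩
  · rcases hp.dvd_mul.1 hdvd with h | h
    · have := Nat.le_of_dvd (Nat.sub_pos_of_lt hp.one_lt) h
      have := hp.one_lt
      omega
    · exact ht₀ h
  · have he : IsConst₁ Levels.all (MonoidHom.id GQ) e' :=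
      ⟨cycField p n, finiteDimensional_cycField p n, fun g s hs => by
        simp only [e', Class.cval_mul, (Class.cval_eq_zero_iff χ s).2 (hlev s hs), add_zero,
          Nat.mod_eq_of_lt (Class.cval_lt χ g)]⟩
    exact (hf.prodMk he).comp fun z => z.1 ^ d * β ^ z.2
  · have hC' : (muInc p (c.1 (s, t)) : AlgebraicClosure ℚ) =
        s (f t : AlgebraicClosure ℚ) / f (s * t) * f s *
          (β : AlgebraicClosure ℚ) ^ Class.carry χ s t := hC s t
    have hkey := congrArg (fun j => (β : AlgebraicClosure ℚ) ^ j) (hid s t)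
    simp only [pow_add, pow_mul] at hkey
    have hβs : s (β : AlgebraicClosure ℚ) = β := hβ s
    rw [hC', Units.val_mk0, hb₀]
    simp only [Units.val_mul, Units.val_pow_eq_pow_val, map_mul, map_pow, hβs, mul_pow, div_pow,
      ← pow_mul]
    rw [mul_comm (Class.carry χ s t) d]
    field_simp
    rw [← pow_mul] at hkey
    linear_combination -hkey

include hp2 in
/-- The symbol of the rational number computes the invariant. -/
lemma phiLoc_eq_of_sumInvAt {q : Nat.Primes} {n d : ℕ} {i : ZMod p} {c : GQ × GQ → ZMod p}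
    (hd : SumInvAt n q c i) {b : ℚˣ} {f : GQ → (AlgebraicClosure ℚ)ˣ}
    (hf : IsConst₁ Levels.all (MonoidHom.id GQ) f)
    (hid : ∀ s t, (muInc p (c (s, t)) : AlgebraicClosure ℚ) ^ d =
      s (f t : AlgebraicClosure ℚ) / f (s * t) * f s *
        algebraMap ℚ (AlgebraicClosure ℚ) b ^ CFT.carry p n (s, t)) :
    phiLoc p n q (Units.map (Rat.castHom ℚ_[(q : ℕ)]).toMonoidHom b) =
      ((p ^ (n - 1) * (d * i.val) : ℕ) : ZMod (p ^ n)) := by
  obtain ⟨b', f', hf', hphi, hid'⟩ := hd
  set bq := Units.map (Rat.castHom ℚ_[(q : ℕ)]).toMonoidHom b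
  have h0 : phiLoc p n q (bq / b' ^ d) = 0 := by
    refine phiLoc_eq_zero_of_carry hp2 n q _
      (f := fun s => f' s ^ d / iota q (f (primeLocalToGlobal q s)))
      ((hf'.prodMk (hf.pull (isLevelHom_of_eq (L := Levels.all) (r := MonoidHom.id GQ)
        (primeLocalToGlobal q) fun _ => rfl))).comp fun z => z.1 ^ d / iota q z.2) fun s t => ?_
    have e := congrArg (padicEmbedding (q : ℕ))
      (hid (primeLocalToGlobal q s) (primeLocalToGlobal q t))
    simp only [map_mul, map_div₀, map_pow, ← iota_smul, padicEmbedding_rat] at e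
    have e' := congrArg (· ^ d) (hid' s t)
    simp only [mul_pow, div_pow] at e'
    have h1 : ∀ z : (AlgebraicClosure ℚ)ˣ, (iota q z : Omega q) = padicEmbedding (q : ℕ) z :=
      fun _ => rfl
    have h2 : padicEmbedding (q : ℕ) (f (primeLocalToGlobal q t) : AlgebraicClosure ℚ) ≠ 0 :=
      (map_ne_zero _).2 (Units.ne_zero _)
    have h3 : padicEmbedding (q : ℕ) (f (primeLocalToGlobal q (s * t)) : AlgebraicClosure ℚ) ≠ 0 :=
      (map_ne_zero _).2 (Units.ne_zero _)
    have h4 : padicEmbedding (q : ℕ) (f (primeLocalToGlobal q s) : AlgebraicClosure ℚ) ≠ 0 :=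
      (map_ne_zero _).2 (Units.ne_zero _)
    have h5 : algebraMap ℚ_[(q : ℕ)] (Omega q) (b' : ℚ_[(q : ℕ)]) ≠ 0 :=
      (map_ne_zero _).2 b'.ne_zero
    have h6 : locAct q s (padicEmbedding (q : ℕ) (f (primeLocalToGlobal q t) : AlgebraicClosure ℚ)) ≠ 0 :=
      (map_ne_zero _).2 h2
    rw [← map_mul, locSmul_eq] at e
    rw [h1, ← pow_mul, mul_comm _ d, pow_mul] at e'
    simp only [Units.val_div_eq_div_val, Units.val_pow_eq_pow_val, h1, map_div₀, map_pow, div_pow]
    have hbq : ((bq : (ℚ_[(q : ℕ)])ˣ) : ℚ_[(q : ℕ)]) = ((b : ℚ) : ℚ_[(q : ℕ)]) := rfl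
    rw [hbq]
    have e3 := e.symm.trans e'
    simp only [← pow_mul] at e3 ⊢
    field_simp at e3 ⊢
    linear_combination -e3
  have h1 : phiLoc p n q bq = phiLoc p n q (bq / b' ^ d) + phiLoc p n q (b' ^ d) := by
    rw [← phiLoc_mul' hp2, div_mul_cancel]
  have hpow : ∀ j : ℕ, phiLoc p n q (b' ^ j) = j * phiLoc p n q b' := by
    intro j
    induction j with
    | zero =>
      have h0 := phiLoc_mul' hp2 n q 1 1
      rw [mul_one] at h0
      rw [pow_zero, Nat.cast_zero, zero_mul]
      exact add_eq_left.1 h0.symm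
    | succ j ih => rw [pow_succ, phiLoc_mul' hp2, ih]; push_cast; ring
  rw [h1, h0, zero_add, hpow, hphi, ← Nat.cast_mul, mul_left_comm]

include hp2 in
/-- Reciprocity: the local invariants of a global class sum to zero. -/
theorem sum_invLoc_eq_zero' (S : Finset Nat.Primes) (hpS : pPrime p ∈ S)
    (x : H2c (Levels.unr S) (MonoidHom.id GQ) (muRep p)) :
    ∑ q ∈ S, invLoc p q (locS q (muRep p) x) = 0 := by
  classical
  have hp := (Fact.out : p.Prime)
  obtain ⟨c, rfl⟩ := Submodule.mkQ_surjective _ x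
  choose n₀ hn₀ using fun q => sumInvAt_of_le hp2 (q := q) c
  set n := (∑ q ∈ S, n₀ q) + 1
  let i : Nat.Primes → ZMod p := fun q => invLoc p q (locS q (muRep p) (H2cπ _ _ _ c))
  have hout : ∀ q ∉ S, i q = 0 := fun q hq => by
    simp only [i, RecipUnr.locS_eq_zero_of_not_mem' S hq, map_zero]
  have hd : ∀ q, SumInvAt n q c.1 (i q) := fun q => by
    by_cases hq : q ∈ S
    · exact hn₀ q n ((Finset.single_le_sum (fun _ _ => Nat.zero_le _) hq).trans (Nat.le_succ _))
    · rw [hout q hq]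
      exact sumInvAt_of_not_mem hp2 hq n c
  obtain ⟨d, b, f, hpd, hf, hid⟩ :=
    exists_rational_carry hp2 hpS (Nat.le_add_left 1 _ : 1 ≤ n) c fun q _ => ⟨_, hd q⟩
  obtain ⟨T, hT⟩ := exists_support (b : ℚ) b.ne_zero
  have hprod := phiLoc_product' hp2 n b (S ∪ T) (Finset.mem_union_left _ hpS)
    fun q hq => hT q fun h => hq (Finset.mem_union_right _ h)
  rw [Finset.sum_congr rfl fun q _ => phiLoc_eq_of_sumInvAt hp2 (hd q) hf hid, ← Nat.cast_sum,
    ← Finset.mul_sum, ← Finset.mul_sum, ZMod.natCast_eq_zero_iff] at hprod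
  have h1 : p ∣ d * ∑ q ∈ S ∪ T, (i q).val := by
    refine Nat.dvd_of_mul_dvd_mul_left (pow_pos hp.pos (n - 1)) ?_
    rwa [← pow_succ, Nat.sub_add_cancel (Nat.le_add_left 1 _ : 1 ≤ n)]
  have h2 := (ZMod.natCast_eq_zero_iff (∑ q ∈ S ∪ T, (i q).val) p).2
    ((hp.dvd_mul.1 h1).resolve_left hpd)
  rw [Nat.cast_sum] at h2
  simp only [ZMod.natCast_zmod_val] at h2
  rw [← h2]
  exact Finset.sum_subset Finset.subset_union_left fun q _ hq => hout q hq

end Fermat.Agent.CFT.Recip
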