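/-
A carry class of the cyclotomic tower which vanishes at `p` has trivial symbol: approximate by a
global norm and use the product formula.
-/
import Fermat.Agent.CFT.Recip.LocalSymbol
import Fermat.Agent.CFT.MuInc

set_option autoImplicit false

noncomputable section

namespace Fermat.Agent.CFT.Recip

open ExtCitation Fermat.Agent.CFT Fermat.Agent.CFT.Local Polynomial

variable {p : ℕ} [Fact p.Prime] (hp2 : p ≠ 2)

lemma padicEmbedding_rat (q : Nat.Primes) (r : ℚ) :
    padicEmbedding (q : ℕ) (algebraMap ℚ (AlgebraicClosure ℚ) r) =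
      algebraMap ℚ_[(q : ℕ)] (Omega q) (r : ℚ_[(q : ℕ)]) := by
  rw [eq_ratCast, map_ratCast, map_ratCast]

/-- A finite set of primes outside which the valuation vanishes. -/
lemma exists_support (b : ℚ) (hb : b ≠ 0) : ∃ T : Finset Nat.Primes,
    ∀ q ∉ T, padicValRat (q : ℕ) b = 0 := by
  refine ⟨((b.num.natAbs * b.den).primeFactors).subtype Nat.Prime, fun q hq => ?_⟩
  have hne : b.num.natAbs * b.den ≠ 0 :=
    mul_ne_zero (Int.natAbs_ne_zero.2 (Rat.num_ne_zero.2 hb)) b.den_nz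
  have hnd : ¬ (q : ℕ) ∣ b.num.natAbs * b.den := fun h =>
    hq (Finset.mem_subtype.2 (Nat.mem_primeFactors.2 ⟨q.2, h, hne⟩))
  have h1 : ¬ (q : ℤ) ∣ b.num := fun h => hnd (dvd_mul_of_dvd_left (Int.natCast_dvd.1 h) _)
  have h2 : ¬ (q : ℕ) ∣ b.den := fun h => hnd (dvd_mul_of_dvd_right h _)
  rw [padicValRat_def, padicValInt.eq_zero_of_not_dvd h1, padicValNat.eq_zero_of_not_dvd h2]
  simp

lemma iota_smul (q : Nat.Primes) (g : primeLocalGaloisGroup q) (x : AlgebraicClosure ℚ) :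
    g • padicEmbedding (q : ℕ) x = padicEmbedding (q : ℕ) (primeLocalToGlobal q g x) :=
  LocalInst.apply_padicEmbedding g x

include hp2 in
/-- Global norms from the tower have trivial symbol at `p`. -/
lemma phiLoc_globalNorm (n : ℕ) {σ : GQ} (hσ : towerHom hp2 n σ = Multiplicative.ofAdd 1)
    {α : (AlgebraicClosure ℚ)ˣ} (hα : ∀ g ∈ (towerHom hp2 n).ker, g • (α : AlgebraicClosure ℚ) = α)
    {b : ℚˣ} (hb : ∏ i ∈ Finset.range (p ^ n), σ ^ i • (α : AlgebraicClosure ℚ) =
      algebraMap ℚ (AlgebraicClosure ℚ) b) :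
    phiLoc p n (pPrime p) (Units.map (Rat.castHom ℚ_[p]).toMonoidHom b) = 0 := by
  have := neZeroPow p n
  let B : (AlgebraicClosure ℚ)ˣ := Units.map (algebraMap ℚ (AlgebraicClosure ℚ)).toMonoidHom b
  obtain ⟨f, hf, hδ⟩ := globData.exists_cochain_of_norm (χ := towerHom hp2 n)
    ⟨cycField p n, finiteDimensional_cycField p n, towerHom_level hp2 n⟩ hσ (b := B)
    (fun g => g.commutes _) hα hb
  obtain ⟨T₀, hT₀⟩ := exists_support (b : ℚ) b.ne_zero
  classical
  have hsum := phiLoc_product' hp2 n b (insert (pPrime p) T₀) (Finset.mem_insert_self _ _)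
    fun q hq => hT₀ q fun h => hq (Finset.mem_insert_of_mem h)
  rwa [Finset.sum_eq_single (pPrime p)] at hsum
  · intro q _ hq
    refine phiLoc_eq_zero_of_ne hp2 n (fun h => hq (Subtype.ext h)) _
      (f := fun g => iota q (f (primeLocalToGlobal q g)))
      ((hf.pull (isLevelHom_of_eq (L := Levels.all) (r := MonoidHom.id GQ) (primeLocalToGlobal q)
        fun _ => rfl)).comp (iota q)) fun s t => ?_
    have h := congrArg (padicEmbedding (q : ℕ)) (hδ (primeLocalToGlobal q s) (primeLocalToGlobal q t))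
    rw [map_mul, map_div₀, map_pow] at h
    rw [carry_eq hp2, map_mul (primeLocalToGlobal q), ← locSmul_eq]
    change (s • padicEmbedding (q : ℕ) _ / _ * _ : Omega q) = _
    rw [iota_smul]
    refine h.trans ?_
    congr 1
    exact padicEmbedding_rat q b
  · intro h
    exact absurd (Finset.mem_insert_self _ _) h

/-- The unit classes killed by `theta`. -/
def deltaSet (p n : ℕ) [Fact p.Prime] : Finset (ZMod (p ^ (n + 1)))ˣ :=
  haveI := neZeroPow p (n + 1)
  Finset.univ.filter fun u => theta p n u = 0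

lemma mem_deltaSet {n : ℕ} {u : (ZMod (p ^ (n + 1)))ˣ} :
    u ∈ deltaSet p n ↔ theta p n u = 0 := by
  simp [deltaSet]

include hp2 in
lemma card_deltaSet_pos (n : ℕ) : 0 < (deltaSet p n).card :=
  Finset.card_pos.2 ⟨1, mem_deltaSet.2 (theta_one hp2)⟩

/-- The average over `deltaSet` of `∑ a_j z^(u j)`. -/
def avgPoly {K : Type} [Field K] (p n N : ℕ) [Fact p.Prime] (z : K) (a : Fin N → K) : K :=
  ((deltaSet p n).card : K)⁻¹ *
    ∑ u ∈ deltaSet p n, ∑ j, a j * z ^ ((u : ZMod (p ^ (n + 1))).val * (j : ℕ))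

lemma map_avgPoly {K L : Type} [Field K] [Field L] (φ : K →+* L) (n N : ℕ) (z : K)
    (a : Fin N → K) : φ (avgPoly p n N z a) = avgPoly p n N (φ z) (fun j => φ (a j)) := by
  simp [avgPoly, map_sum, map_inv₀]

include hp2 in
lemma smul_avgPoly (n N : ℕ) {ζ : AlgebraicClosure ℚ} (hζ : ζ ^ p ^ (n + 1) = 1) (r : Fin N → ℚ)
    {g : GQ} (hg : g ∈ (towerHom hp2 n).ker) :
    g • avgPoly p n N ζ (fun j => algebraMap ℚ (AlgebraicClosure ℚ) (r j)) =
      avgPoly p n N ζ (fun j => algebraMap ℚ (AlgebraicClosure ℚ) (r j)) := by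
  have := neZeroPow p (n + 1)
  set v := cyclo p n g with hv
  have hv0 : theta p n v = 0 := Multiplicative.ofAdd.injective (MonoidHom.mem_ker.1 hg)
  have hgz : g ζ = ζ ^ (v : ZMod (p ^ (n + 1))).val := (val_cyclo_spec n g hζ).symm ▸ rfl
  change g (avgPoly p n N ζ _) = _
  rw [show g (avgPoly p n N ζ _) = g.toRingEquiv.toRingHom (avgPoly p n N ζ _) from rfl, map_avgPoly]
  simp only [avgPoly, RingEquiv.toRingHom_eq_coe, RingHom.coe_coe, AlgEquiv.coe_ringEquiv,
    AlgEquiv.commutes, hgz]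
  congr 1
  refine Finset.sum_equiv (Equiv.mulLeft v) (fun u => ?_) fun u _ => Finset.sum_congr rfl fun j _ => ?_
  · simp only [mem_deltaSet, Equiv.coe_mulLeft, theta_mul hp2, hv0, zero_add]
  · simp only [Equiv.coe_mulLeft, Units.val_mul, ZMod.val_mul]
    rw [pow_mul ζ (_ % _), ← pow_eq_pow_mod _ hζ, ← pow_mul, ← pow_mul, mul_assoc]

include hp2 in
lemma exists_norm_avg (n : ℕ) {q : Nat.Primes} (b : (ℚ_[(q : ℕ)])ˣ)
    {f : primeLocalGaloisGroup q → (Omega q)ˣ}
    (hf : IsConst₁ Levels.all (primeLocalToGlobal q) f)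
    (hδ : ∀ s t, locAct q s (f t) / f (s * t) * f s =
      algebraMap ℚ_[(q : ℕ)] (Omega q) b ^
        CFT.carry p n (primeLocalToGlobal q s, primeLocalToGlobal q t))
    (hsurj : ∀ u, ∃ g : primeLocalGaloisGroup q, cyclo p n (primeLocalToGlobal q g) = u)
    {σ : primeLocalGaloisGroup q} (hσ : locChar hp2 n q σ = Multiplicative.ofAdd 1)
    {ζ : AlgebraicClosure ℚ} (hζp : IsPrimitiveRoot ζ (p ^ (n + 1))) :
    ∃ (N : ℕ) (a₀ : Fin N → ℚ_[(q : ℕ)]), ∏ i ∈ Finset.range (p ^ n), σ ^ i •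
      avgPoly p n N (padicEmbedding (q : ℕ) ζ) (fun j => algebraMap ℚ_[(q : ℕ)] (Omega q) (a₀ j)) =
        algebraMap ℚ_[(q : ℕ)] (Omega q) b := by
  have := neZeroPow p n
  have := neZeroPow p (n + 1)
  let bu : (Omega q)ˣ := Units.map (algebraMap ℚ_[(q : ℕ)] (Omega q)).toMonoidHom b
  obtain ⟨y, hy, hyN⟩ := (locData q).exists_norm (χ := locChar hp2 n q)
    ⟨cycField p n, finiteDimensional_cycField p n, locChar_level hp2 n q⟩ hσ (b := bu)
    (fun g => fixed_algebraMap q _ g) hf fun s t => by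
      have h := hδ s t
      rw [carry_eq hp2] at h
      exact h
  have hζ : ζ ^ p ^ (n + 1) = 1 := hζp.pow_eq_one
  set z : Omega q := padicEmbedding (q : ℕ) ζ with hz
  have hzp : IsPrimitiveRoot z (p ^ (n + 1)) := hζp.map_of_injective (padicEmbedding (q : ℕ)).injective
  have hact : ∀ g, g • z = z ^ ((cyclo p n (primeLocalToGlobal q g) : (ZMod (p ^ (n + 1)))ˣ) :
      ZMod (p ^ (n + 1))).val := fun g => iota_cyclo n q g hζ
  -- `y` lies in `ℚ_p(ζ)`
  have hyK : (y : Omega q) ∈ IntermediateField.adjoin ℚ_[(q : ℕ)] ({z} : Set (Omega q)) := by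
    rw [← InfiniteGalois.fixedField_fixingSubgroup
      (IntermediateField.adjoin ℚ_[(q : ℕ)] ({z} : Set (Omega q)))]
    refine (IntermediateField.mem_fixedField_iff _ _).2 fun g hg => hy g ?_
    have hgz : g z = z := (IntermediateField.mem_fixingSubgroup_iff _ _).1 hg z
      (IntermediateField.mem_adjoin_simple_self _ z)
    have h1 : cyclo p n (primeLocalToGlobal q g) = 1 := by
      refine Units.ext ((ZMod.val_injective _) ?_)
      refine hzp.pow_inj (ZMod.val_lt _) (ZMod.val_lt _) ?_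
      rw [← hact g, Units.val_one, ZMod.val_one_eq_one_mod, ← pow_eq_pow_mod 1 hzp.pow_eq_one,
        pow_one]
      exact hgz
    change Multiplicative.ofAdd (theta p n (cyclo p n (primeLocalToGlobal q g))) = 1
    rw [h1, theta_one hp2]; rfl
  obtain ⟨P, hP⟩ : ∃ P : ℚ_[(q : ℕ)][X], aeval z P = (y : Omega q) := by
    have hmem : (y : Omega q) ∈ (IntermediateField.adjoin ℚ_[(q : ℕ)] ({z} : Set (Omega q))).toSubalgebra := hyK
    rw [IntermediateField.adjoin_simple_toSubalgebra_of_isAlgebraic (Algebra.IsAlgebraic.isAlgebraic z),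
      Algebra.adjoin_singleton_eq_range_aeval] at hmem
    exact hmem
  set N := P.natDegree + 1 with hN
  let a₀ : Fin N → ℚ_[(q : ℕ)] := fun j => P.coeff j
  have hae : ∀ w : Omega q, aeval w P = ∑ j : Fin N, algebraMap ℚ_[(q : ℕ)] (Omega q) (a₀ j) * w ^ (j : ℕ) := by
    intro w
    rw [aeval_eq_sum_range]
    refine Eq.trans ?_ (Fin.sum_univ_eq_sum_range
      (fun j => algebraMap ℚ_[(q : ℕ)] (Omega q) (P.coeff j) * w ^ j) (P.natDegree + 1)).symm
    simp [Algebra.smul_def]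
  -- averaging
  have hyavg : (y : Omega q) =
      avgPoly p n N z (fun j => algebraMap ℚ_[(q : ℕ)] (Omega q) (a₀ j)) := by
    have hterm : ∀ u ∈ deltaSet p n, (∑ j : Fin N, algebraMap ℚ_[(q : ℕ)] (Omega q) (a₀ j) *
        z ^ ((u : ZMod (p ^ (n + 1))).val * (j : ℕ))) = (y : Omega q) := by
      intro u hu
      obtain ⟨g, hg⟩ := hsurj u
      have hgk : g ∈ (locChar hp2 n q).ker := by
        change Multiplicative.ofAdd (theta p n (cyclo p n (primeLocalToGlobal q g))) = 1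
        rw [hg, mem_deltaSet.1 hu]; rfl
      have h1 := hy g hgk
      rw [← hP] at h1 ⊢
      rw [locSmul_eq] at h1
      have h2 : aeval (locAct q g z) P = locAct q g (aeval z P) :=
        aeval_algHom_apply (locAct q g).toAlgHom z P
      rw [h1, ← locSmul_eq, hact g, hg, hae] at h2
      simp only [pow_mul]
      exact h2
    rw [avgPoly, Finset.sum_congr rfl hterm, Finset.sum_const, nsmul_eq_mul, inv_mul_cancel_left₀]
    exact_mod_cast (card_deltaSet_pos hp2 n).ne'
  exact ⟨N, a₀, by rw [← hyavg]; exact hyN⟩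

lemma continuous_smul_loc (q : Nat.Primes) (g : primeLocalGaloisGroup q) :
    Continuous fun x : Omega q => g • x :=
  (AddMonoidHomClass.isometry_of_norm (MulSemiringAction.toRingHom _ (Omega q) g)
    (norm_smul_loc q g)).continuous

omit [Fact p.Prime] in
/-- Continuity of the averaging map in the coefficients. -/
lemma continuous_avgPoly [Fact p.Prime] {X K : Type} [TopologicalSpace X] [Field K]
    [TopologicalSpace K] [IsTopologicalRing K] (n N : ℕ) (z : K) {φ : X → Fin N → K}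
    (hφ : ∀ j, Continuous fun x => φ x j) : Continuous fun x => avgPoly p n N z (φ x) := by
  unfold avgPoly
  exact continuous_const.mul (continuous_finsetSum _ fun u _ =>
    continuous_finsetSum _ fun j _ => (hφ j).mul continuous_const)

lemma exists_rat_near (q : Nat.Primes) (m N : ℕ) (σ : primeLocalGaloisGroup q) (z : Omega q)
    (n : ℕ) (a₀ : Fin N → ℚ_[(q : ℕ)]) {ε : ℝ} (hεpos : 0 < ε) :
    ∃ r : Fin N → ℚ,
      ‖∏ i ∈ Finset.range m, σ ^ i • avgPoly p n N z
          (fun j => algebraMap ℚ_[(q : ℕ)] (Omega q) (r j : ℚ_[(q : ℕ)])) -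
        ∏ i ∈ Finset.range m, σ ^ i • avgPoly p n N z
          (fun j => algebraMap ℚ_[(q : ℕ)] (Omega q) (a₀ j))‖ < ε := by
  let Φ : (Fin N → ℚ_[(q : ℕ)]) → Omega q := fun a =>
    ∏ i ∈ Finset.range m, σ ^ i • avgPoly p n N z (fun j => algebraMap ℚ_[(q : ℕ)] (Omega q) (a j))
  have hcont : Continuous Φ := by
    have h2 : ∀ j : Fin N, Continuous fun a : Fin N → ℚ_[(q : ℕ)] =>
        algebraMap ℚ_[(q : ℕ)] (Omega q) (a j) := fun j =>
      (continuous_algebraMap ℚ_[(q : ℕ)] (Omega q)).comp (continuous_apply j)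
    have h1 := continuous_avgPoly (p := p) n N z
      (φ := fun (a : Fin N → ℚ_[(q : ℕ)]) j => algebraMap ℚ_[(q : ℕ)] (Omega q) (a j)) h2
    refine continuous_finsetProd _ fun i _ => ?_
    exact (continuous_smul_loc q (σ ^ i)).comp h1
  have hopen : IsOpen {a | ‖Φ a - Φ a₀‖ < ε} :=
    isOpen_lt (hcont.sub continuous_const).norm continuous_const
  obtain ⟨r, hr⟩ := (DenseRange.piMap fun _ : Fin N => Padic.denseRange_ratCast (p := (q : ℕ))).exists_mem_open
    hopen ⟨a₀, by simpa using hεpos⟩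
  simp only [Set.mem_setOf_eq, Φ, Pi.map_apply] at hr
  exact ⟨r, hr⟩

include hp2 in
theorem phiLoc_eq_zero_self (n : ℕ) {q : Nat.Primes} (hq : q = pPrime p) (b : (ℚ_[(q : ℕ)])ˣ)
    {f : primeLocalGaloisGroup q → (Omega q)ˣ}
    (hf : IsConst₁ Levels.all (primeLocalToGlobal q) f)
    (hδ : ∀ s t, locAct q s (f t) / f (s * t) * f s =
      algebraMap ℚ_[(q : ℕ)] (Omega q) b ^
        CFT.carry p n (primeLocalToGlobal q s, primeLocalToGlobal q t)) :
    phiLoc p n q b = 0 := by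
  have := neZeroPow p n
  have := neZeroPow p (n + 1)
  have hsurj : ∀ u, ∃ g : primeLocalGaloisGroup q, cyclo p n (primeLocalToGlobal q g) = u := by
    subst hq; exact exists_cyclo_loc_eq n
  obtain ⟨u₁, hu₁⟩ := theta_surjective hp2 (n := n) 1
  obtain ⟨σ, hσu⟩ := hsurj u₁
  have hσ : locChar hp2 n q σ = Multiplicative.ofAdd 1 := by
    change Multiplicative.ofAdd (theta p n (cyclo p n (primeLocalToGlobal q σ))) = _
    rw [hσu, hu₁]
  obtain ⟨ζ, hζp⟩ := HasEnoughRootsOfUnity.exists_primitiveRoot (AlgebraicClosure ℚ) (p ^ (n + 1))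
  have hζ : ζ ^ p ^ (n + 1) = 1 := hζp.pow_eq_one
  obtain ⟨N, a₀, hN⟩ := exists_norm_avg hp2 n b hf hδ hsurj hσ hζp
  set z : Omega q := padicEmbedding (q : ℕ) ζ with hz
  set ε : ℝ := ‖(b : ℚ_[(q : ℕ)])‖ * ((q : ℕ) : ℝ) ^ (-(n + 1 : ℕ) : ℤ) with hε
  have hb0 : (0 : ℝ) < ‖(b : ℚ_[(q : ℕ)])‖ := norm_pos_iff.2 b.ne_zero
  have hεpos : 0 < ε := mul_pos hb0 (zpow_pos (by exact_mod_cast q.2.pos) _)
  have hεlt : ε < ‖(b : ℚ_[(q : ℕ)])‖ := by
    calc ε < ‖(b : ℚ_[(q : ℕ)])‖ * 1 := by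
          rw [hε]; gcongr
          exact zpow_lt_one_of_neg₀ (by exact_mod_cast q.2.one_lt) (by omega)
      _ = _ := mul_one _
  obtain ⟨r, hr⟩ := exists_rat_near (p := p) q (p ^ n) N σ z n a₀ hεpos
  rw [hN] at hr
  set α := avgPoly p n N ζ (fun j => algebraMap ℚ (AlgebraicClosure ℚ) (r j)) with hαdef
  have hια : padicEmbedding (q : ℕ) α =
      avgPoly p n N z (fun j => algebraMap ℚ_[(q : ℕ)] (Omega q) (r j : ℚ_[(q : ℕ)])) := by
    rw [show padicEmbedding (q : ℕ) α = (padicEmbedding (q : ℕ)).toRingHom α from rfl, hαdef,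
      map_avgPoly]
    congr 1
    funext j
    exact padicEmbedding_rat q (r j)
  set s := primeLocalToGlobal q σ with hs
  set β := ∏ i ∈ Finset.range (p ^ n), s ^ i • α with hβ
  have hιβ : padicEmbedding (q : ℕ) β = ∏ i ∈ Finset.range (p ^ n), σ ^ i •
      avgPoly p n N z (fun j => algebraMap ℚ_[(q : ℕ)] (Omega q) (r j : ℚ_[(q : ℕ)])) := by
    simp only [hβ, map_prod, ← hια]
    refine Finset.prod_congr rfl fun i _ => ?_
    rw [iota_smul, map_pow]; rfl
  rw [← hιβ] at hr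
  have hnb : ‖algebraMap ℚ_[(q : ℕ)] (Omega q) b‖ = ‖(b : ℚ_[(q : ℕ)])‖ := norm_algebraMap' _ _
  have hβ0 : β ≠ 0 := by
    intro h
    rw [h, map_zero, zero_sub, norm_neg, hnb] at hr
    exact absurd hr (not_lt.2 hεlt.le)
  have hα0 : α ≠ 0 := fun h => hβ0 (by
    rw [hβ, h]
    exact Finset.prod_eq_zero (Finset.mem_range.2 (pow_pos (Fact.out : p.Prime).pos n) : 0 ∈ _)
      (by simp))
  have hfix : ∀ g ∈ (towerHom hp2 n).ker, g • α = α := fun g hg =>
    smul_avgPoly hp2 n N hζ r hg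
  have hsσ : towerHom hp2 n s = Multiplicative.ofAdd 1 := hσ
  have hβfix : ∀ g : GQ, g β = β := by
    intro g
    have h := congrArg Units.val (Class.smul_normPow hsσ (y := Units.mk0 α hα0)
      (fun k hk => Units.ext (hfix k hk)) g)
    simpa [Class.normPow, Units.coe_prod, hβ, AlgEquiv.smul_def] using h
  obtain ⟨b', hb'⟩ : ∃ b' : ℚ, algebraMap ℚ (AlgebraicClosure ℚ) b' = β := by
    have hbot : β ∈ IntermediateField.fixedField (⊤ : Subgroup GQ) :=
      (IntermediateField.mem_fixedField_iff _ _).2 fun g _ => hβfix g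
    rw [← IntermediateField.fixingSubgroup_bot (F := ℚ) (E := AlgebraicClosure ℚ),
      InfiniteGalois.fixedField_fixingSubgroup] at hbot
    exact IntermediateField.mem_bot.1 hbot
  have hb'0 : b' ≠ 0 := fun h => hβ0 (by rw [← hb', h, map_zero])
  have hglob := phiLoc_globalNorm hp2 n hsσ (α := Units.mk0 α hα0) hfix (b := Units.mk0 b' hb'0) hb'.symm
  have hd : ‖algebraMap ℚ_[(q : ℕ)] (Omega q) ((b' : ℚ_[(q : ℕ)]) - b)‖ < ε := by
    rw [map_sub, ← padicEmbedding_rat, hb']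
    exact hr
  rw [norm_algebraMap'] at hd
  subst hq
  exact (phiLoc_congr n (pPrime_coe p) (b := b) hd.le).symm.trans hglob

include hp2 in
/-- A carry class which vanishes in the local Brauer group has trivial symbol. -/
theorem phiLoc_eq_zero_of_carry (n : ℕ) (q : Nat.Primes) (b : (ℚ_[(q : ℕ)])ˣ)
    {f : primeLocalGaloisGroup q → (Omega q)ˣ}
    (hf : IsConst₁ Levels.all (primeLocalToGlobal q) f)
    (hδ : ∀ s t, locAct q s (f t) / f (s * t) * f s =
      algebraMap ℚ_[(q : ℕ)] (Omega q) b ^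
        CFT.carry p n (primeLocalToGlobal q s, primeLocalToGlobal q t)) :
    phiLoc p n q b = 0 := by
  by_cases hq : (q : ℕ) = p
  · exact phiLoc_eq_zero_self hp2 n (Subtype.ext hq) b hf hδ
  · exact phiLoc_eq_zero_of_ne hp2 n hq b hf hδ

end Fermat.Agent.CFT.Recip
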